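import Fermat.Agent.S41.PD.Defs

/-!
# S41, package PD, row PD-FORM: formal properties of the ribbon-graph pairing

`s41pdPair s u a a' = ∑ x, (c x - c (u x)) * a' x` for any potential `c` of `a` along the faces
(`c (u (s x)) - c x = a x`): well defined, bilinear, kills coboundaries of vertex functions on
both sides, antisymmetric, compatible with ring homomorphisms of the coefficients.
Private helpers are prefixed `s41pdf_`.
-/

set_option autoImplicit false

namespace Fermat.Agent.S41

section A

variable {X : Type*} [Fintype X] {R : Type*} [CommRing R]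

/-! ### helpers -/

/-- reindexing along `s`. -/
theorem s41pdf_sum_s (s : Equiv.Perm X) (F : X → R) : ∑ x, F (s x) = ∑ x, F x :=
  Equiv.sum_comp s F

/-- the form is additive in the potential. -/
theorem s41pdf_form_add (u : Equiv.Perm X) (c d a' : X → R) :
    s41pdForm u (c + d) a' = s41pdForm u c a' + s41pdForm u d a' := by
  unfold s41pdForm
  rw [← Finset.sum_add_distrib]
  refine Finset.sum_congr rfl fun x _ => ?_
  simp only [Pi.add_apply]; ring

theorem s41pdf_form_smul (u : Equiv.Perm X) (r : R) (c a' : X → R) :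
    s41pdForm u (r • c) a' = r * s41pdForm u c a' := by
  unfold s41pdForm
  rw [Finset.mul_sum]
  refine Finset.sum_congr rfl fun x _ => ?_
  simp only [Pi.smul_apply, smul_eq_mul]; ring

theorem s41pdf_form_add_right (u : Equiv.Perm X) (c a' b' : X → R) :
    s41pdForm u c (a' + b') = s41pdForm u c a' + s41pdForm u c b' := by
  unfold s41pdForm
  rw [← Finset.sum_add_distrib]
  refine Finset.sum_congr rfl fun x _ => ?_
  simp only [Pi.add_apply]; ring

theorem s41pdf_form_smul_right (u : Equiv.Perm X) (r : R) (c a' : X → R) :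
    s41pdForm u c (r • a') = r * s41pdForm u c a' := by
  unfold s41pdForm
  rw [Finset.mul_sum]
  refine Finset.sum_congr rfl fun x _ => ?_
  simp only [Pi.smul_apply, smul_eq_mul]; ring

/-- `∑ F (u x) a' (x) = - ∑ F (u (s y)) a' (y)` for antisymmetric `a'`. -/
theorem s41pdf_sum_u (s u : Equiv.Perm X) {a' : X → R}
    (ha' : S41pdAnti s a') (F : X → R) :
    ∑ x, F (u x) * a' x = - ∑ y, F (u (s y)) * a' y := by
  rw [← s41pdf_sum_s s (fun x => F (u x) * a' x), ← Finset.sum_neg_distrib]
  refine Finset.sum_congr rfl fun y _ => ?_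
  rw [ha' y]; ring

/-- a face-invariant function pairs to zero with a closed cochain. -/
theorem s41pdf_inv_orth (s u : Equiv.Perm X) {h a' c' : X → R}
    (hh : ∀ x, h (u (s x)) = h x) (hc' : S41pdPot s u c' a') : ∑ x, h x * a' x = 0 := by
  have h1 : ∀ x, h x * a' x = (fun y => h y * c' y) ((s.trans u) x) - (fun y => h y * c' y) x := by
    intro x
    simp only [Equiv.trans_apply]
    rw [hh x, ← hc' x]; ring
  simp only [h1, Finset.sum_sub_distrib]
  rw [Equiv.sum_comp (s.trans u) (fun y => h y * c' y), sub_self]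

/-- the form of a face-invariant "potential" vanishes on closed cochains. -/
theorem s41pdf_form_inv (s u : Equiv.Perm X) {h a' : X → R}
    (hh : ∀ x, h (u (s x)) = h x) (ha' : S41pdClosed s u a') : s41pdForm u h a' = 0 := by
  obtain ⟨hanti, c', hc'⟩ := ha'
  unfold s41pdForm
  have e : ∀ x, (h x - h (u x)) * a' x = h x * a' x - h (u x) * a' x := fun x => by ring
  simp only [e, Finset.sum_sub_distrib]
  rw [s41pdf_sum_u s u hanti h]
  simp only [hh]
  rw [s41pdf_inv_orth s u hh hc']; simp

/-! ### Row PD-FORM -/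

variable (s u : Equiv.Perm X) (hs : ∀ x, s (s x) = x)

include hs

theorem s41pd_pair_eq {a a' c : X → R} (hc : S41pdPot s u c a) (ha' : S41pdClosed s u a') :
    s41pdPair s u a a' = s41pdForm u c a' := by
  have hex : ∃ c : X → R, S41pdPot s u c a := ⟨c, hc⟩
  unfold s41pdPair
  rw [dif_pos hex]
  have hc0 := hex.choose_spec
  have hh : ∀ x, (hex.choose - c) (u (s x)) = (hex.choose - c) x := by
    intro x
    have h1 := hc0 x
    have h2 := hc x
    simp only [Pi.sub_apply]
    linear_combination h1 - h2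
  have := s41pdf_form_inv s u hh ha'
  have e : hex.choose = c + (hex.choose - c) := by abel
  rw [e, s41pdf_form_add, this, add_zero]

theorem s41pd_form_alt {a a' c : X → R} (hc : S41pdPot s u c a) (ha' : S41pdAnti s a') :
    s41pdForm u c a' = ∑ x, (2 * c x + a x) * a' x := by
  unfold s41pdForm
  have e : ∀ x, (c x - c (u x)) * a' x = c x * a' x - c (u x) * a' x := fun x => by ring
  simp only [e, Finset.sum_sub_distrib]
  rw [s41pdf_sum_u s u ha' c, sub_neg_eq_add, ← Finset.sum_add_distrib]
  refine Finset.sum_congr rfl fun x _ => ?_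
  rw [← hc x]; ring

theorem s41pd_closed_zero : S41pdClosed s u (0 : X → R) :=
  ⟨fun _ => by simp, 0, fun _ => by simp⟩

theorem s41pd_closed_add {a b : X → R} (ha : S41pdClosed s u a) (hb : S41pdClosed s u b) :
    S41pdClosed s u (a + b) := by
  obtain ⟨ha1, ca, hca⟩ := ha
  obtain ⟨hb1, cb, hcb⟩ := hb
  refine ⟨fun x => ?_, ca + cb, fun x => ?_⟩
  · simp only [Pi.add_apply, ha1 x, hb1 x]; ring
  · simp only [Pi.add_apply, ← hca x, ← hcb x]; ring

theorem s41pd_closed_neg {a : X → R} (ha : S41pdClosed s u a) : S41pdClosed s u (-a) := by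
  obtain ⟨ha1, ca, hca⟩ := ha
  refine ⟨fun x => ?_, -ca, fun x => ?_⟩
  · simp only [Pi.neg_apply, ha1 x]
  · simp only [Pi.neg_apply, ← hca x]; ring

theorem s41pd_closed_smul (r : R) {a : X → R} (ha : S41pdClosed s u a) :
    S41pdClosed s u (r • a) := by
  obtain ⟨ha1, ca, hca⟩ := ha
  refine ⟨fun x => ?_, r • ca, fun x => ?_⟩
  · simp only [Pi.smul_apply, smul_eq_mul, ha1 x]; ring
  · simp only [Pi.smul_apply, smul_eq_mul, ← hca x]; ring

theorem s41pd_closed_d {f : X → R} (hf : ∀ x, f (u x) = f x) :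
    S41pdClosed s u (s41pdD s f) := by
  refine ⟨fun x => ?_, f, fun x => ?_⟩
  · simp only [s41pdD, hs x]; ring
  · simp only [s41pdD, hf (s x)]

theorem s41pd_pair_add_left {a b a' : X → R} (ha : S41pdClosed s u a) (hb : S41pdClosed s u b)
    (ha' : S41pdClosed s u a') :
    s41pdPair s u (a + b) a' = s41pdPair s u a a' + s41pdPair s u b a' := by
  obtain ⟨-, ca, hca⟩ := ha
  obtain ⟨-, cb, hcb⟩ := hb
  have hab : S41pdPot s u (ca + cb) (a + b) := fun x => by
    simp only [Pi.add_apply, ← hca x, ← hcb x]; ring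
  rw [s41pd_pair_eq s u hs hab ha', s41pd_pair_eq s u hs hca ha', s41pd_pair_eq s u hs hcb ha',
    s41pdf_form_add]

theorem s41pd_pair_smul_left (r : R) {a a' : X → R} (ha : S41pdClosed s u a)
    (ha' : S41pdClosed s u a') :
    s41pdPair s u (r • a) a' = r * s41pdPair s u a a' := by
  obtain ⟨-, ca, hca⟩ := ha
  have hra : S41pdPot s u (r • ca) (r • a) := fun x => by
    simp only [Pi.smul_apply, smul_eq_mul, ← hca x]; ring
  rw [s41pd_pair_eq s u hs hra ha', s41pd_pair_eq s u hs hca ha', s41pdf_form_smul]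

theorem s41pd_pair_add_right (a a' b' : X → R) :
    s41pdPair s u a (a' + b') = s41pdPair s u a a' + s41pdPair s u a b' := by
  unfold s41pdPair
  by_cases h : ∃ c : X → R, S41pdPot s u c a
  · simp only [dif_pos h, s41pdf_form_add_right]
  · simp only [dif_neg h, add_zero]

theorem s41pd_pair_smul_right (r : R) (a a' : X → R) :
    s41pdPair s u a (r • a') = r * s41pdPair s u a a' := by
  unfold s41pdPair
  by_cases h : ∃ c : X → R, S41pdPot s u c a
  · simp only [dif_pos h, s41pdf_form_smul_right]
  · simp only [dif_neg h, mul_zero]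

theorem s41pd_pair_d_left {f a' : X → R} (hf : ∀ x, f (u x) = f x) (ha' : S41pdClosed s u a') :
    s41pdPair s u (s41pdD s f) a' = 0 := by
  have hpot : S41pdPot s u f (s41pdD s f) := fun x => by simp only [s41pdD, hf (s x)]
  rw [s41pd_pair_eq s u hs hpot ha']
  unfold s41pdForm
  refine Finset.sum_eq_zero fun x _ => ?_
  rw [hf x, sub_self, zero_mul]

theorem s41pd_pair_d_right {a f' : X → R} (ha : S41pdClosed s u a) (hf' : ∀ x, f' (u x) = f' x) :
    s41pdPair s u a (s41pdD s f') = 0 := by
  obtain ⟨hanti, c, hc⟩ := ha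
  rw [s41pd_pair_eq s u hs hc (s41pd_closed_d s u hs hf')]
  unfold s41pdForm s41pdD
  -- `m x = c x - c (u x)` is antisymmetric
  have hm : ∀ y, (c (s y) - c (u (s y))) = -(c y - c (u y)) := by
    intro y
    have h1 := hc y
    have h2 := hc (s y)
    rw [hs y] at h2
    have h3 := hanti y
    linear_combination -h1 - h2 - h3
  have e1 : ∑ x, (c x - c (u x)) * f' x = 0 := by
    have e : ∀ x, (c x - c (u x)) * f' x = c x * f' x - (fun y => c y * f' y) (u x) := fun x => by
      simp only [hf' x]; ring
    simp only [e, Finset.sum_sub_distrib]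
    rw [Equiv.sum_comp u (fun y => c y * f' y), sub_self]
  have e2 : ∑ x, (c x - c (u x)) * f' (s x) = 0 := by
    rw [← s41pdf_sum_s s (fun x => (c x - c (u x)) * f' (s x))]
    simp only [hs, hm]
    have e3 : ∀ x, -(c x - c (u x)) * f' x = -((c x - c (u x)) * f' x) := fun x => by ring
    simp only [e3, Finset.sum_neg_distrib, e1, neg_zero]
  have e : ∀ x, (c x - c (u x)) * (f' (s x) - f' x)
      = (c x - c (u x)) * f' (s x) - (c x - c (u x)) * f' x := fun x => by ring
  simp only [e, Finset.sum_sub_distrib, e1, e2, sub_self]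

theorem s41pd_pair_antisymm {a a' : X → R} (ha : S41pdClosed s u a) (ha' : S41pdClosed s u a') :
    s41pdPair s u a a' = - s41pdPair s u a' a := by
  obtain ⟨hanti, c, hc⟩ := ha
  obtain ⟨hanti', c', hc'⟩ := ha'
  rw [s41pd_pair_eq s u hs hc ⟨hanti', c', hc'⟩, s41pd_pair_eq s u hs hc' ⟨hanti, c, hc⟩,
    s41pd_form_alt s u hs hc hanti', s41pd_form_alt s u hs hc' hanti, eq_neg_iff_add_eq_zero,
    ← Finset.sum_add_distrib]
  have e : ∀ x, (2 * c x + a x) * a' x + (2 * c' x + a' x) * a x
      = 2 * ((fun y => c y * c' y) ((s.trans u) x) - (fun y => c y * c' y) x) := by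
    intro x
    simp only [Equiv.trans_apply]
    have h1 := hc x
    have h2 := hc' x
    have e1 : c (u (s x)) = c x + a x := by linear_combination h1
    have e2 : c' (u (s x)) = c' x + a' x := by linear_combination h2
    rw [e1, e2]; ring
  simp only [e]
  rw [← Finset.mul_sum, Finset.sum_sub_distrib, Equiv.sum_comp (s.trans u) (fun y => c y * c' y),
    sub_self, mul_zero]

/-- compatibility with ring homomorphisms of coefficients. -/
theorem s41pd_pair_map {R' : Type*} [CommRing R'] (ρ : R →+* R') {a a' : X → R}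
    (ha : S41pdClosed s u a) (ha' : S41pdClosed s u a') :
    s41pdPair s u (fun x => ρ (a x)) (fun x => ρ (a' x)) = ρ (s41pdPair s u a a') := by
  obtain ⟨hanti, c, hc⟩ := ha
  obtain ⟨hanti', c', hc'⟩ := ha'
  have hρc : S41pdPot s u (fun x => ρ (c x)) (fun x => ρ (a x)) := fun x => by
    simp only [← hc x, map_sub]
  have hρa' : S41pdClosed s u (fun x => ρ (a' x)) :=
    ⟨fun x => by simp only [hanti' x, map_neg], fun x => ρ (c' x), fun x => by
      simp only [← hc' x, map_sub]⟩
  rw [s41pd_pair_eq s u hs hρc hρa', s41pd_pair_eq s u hs hc ⟨hanti', c', hc'⟩]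
  unfold s41pdForm
  simp only [map_sum, map_mul, map_sub]

theorem s41pd_closed_map {R' : Type*} [CommRing R'] (ρ : R →+* R') {a : X → R}
    (ha : S41pdClosed s u a) : S41pdClosed s u (fun x => ρ (a x)) := by
  obtain ⟨hanti, c, hc⟩ := ha
  exact ⟨fun x => by simp only [hanti x, map_neg], fun x => ρ (c x), fun x => by
    simp only [← hc x, map_sub]⟩

end A

end Fermat.Agent.S41
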