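import Fermat.Agent.S41.PD.Defs

/-!
# S41, package PD, row PD-LIFT: closed cochains mod an odd prime `p` lift to closed integral cochains

Self-contained (no black box).  `t := u ∘ s` is the face permutation.

* `s41pdlS s u` : the subgroup of `X → ℤ` of the functions `e + (c ∘ t - c)` with `e` antisymmetric;
* `s41pdl_single_sub_mem` : `δ_x - δ_y ∈ S` when `⟨s, u⟩` is transitive;
* `s41pdl_decomp` : every function of sum zero lies in `S`;
* `s41pd_lift_closed` : the row statement: lift a potential `c̄` of `b` to `c₀`, the antisymmetric lift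
  `a₀ = valMinAbs ∘ b` differs from `c₀ ∘ t - c₀` by `p g` with `∑ g = 0`; decompose `g`.
-/

set_option autoImplicit false

namespace Fermat.Agent.S41

section A

variable {X : Type*} [Fintype X]

/-- the functions `e + (c ∘ (u ∘ s) - c)`, `e` antisymmetric. -/
def s41pdlS (s u : Equiv.Perm X) : AddSubgroup (X → ℤ) where
  carrier := {g | ∃ e c : X → ℤ, (∀ x, e (s x) = - e x) ∧ ∀ x, g x = e x + (c (u (s x)) - c x)}
  zero_mem' := ⟨0, 0, fun _ => by simp, fun _ => by simp⟩
  add_mem' := by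
    rintro g g' ⟨e, c, he, hg⟩ ⟨e', c', he', hg'⟩
    refine ⟨e + e', c + c', fun x => ?_, fun x => ?_⟩
    · simp only [Pi.add_apply, he x, he' x]; ring
    · simp only [Pi.add_apply, hg x, hg' x]; ring
  neg_mem' := by
    rintro g ⟨e, c, he, hg⟩
    refine ⟨-e, -c, fun x => ?_, fun x => ?_⟩
    · simp only [Pi.neg_apply, he x]
    · simp only [Pi.neg_apply, hg x]; ring

variable [DecidableEq X] (s u : Equiv.Perm X) (hs : ∀ x, s (s x) = x)

include hs

omit [Fintype X] in
theorem s41pdl_single_sub_s (x : X) :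
    (Pi.single x (1 : ℤ) - Pi.single (s x) (1 : ℤ) : X → ℤ) ∈ s41pdlS s u := by
  refine ⟨Pi.single x (1 : ℤ) - Pi.single (s x) (1 : ℤ), 0, fun z => ?_, fun z => by simp⟩
  simp only [Pi.sub_apply, Pi.single_apply]
  have h1 : (s z = x) ↔ (z = s x) := ⟨fun h => by rw [← h, hs], fun h => by rw [h, hs]⟩
  have h2 : (s z = s x) ↔ (z = x) := ⟨fun h => s.injective h, fun h => by rw [h]⟩
  simp only [h1, h2]
  ring

omit [Fintype X] in
theorem s41pdl_single_sub_u (x : X) :
    (Pi.single x (1 : ℤ) - Pi.single (u x) (1 : ℤ) : X → ℤ) ∈ s41pdlS s u := by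
  refine ⟨Pi.single x (1 : ℤ) - Pi.single (s x) (1 : ℤ), Pi.single (u x) (1 : ℤ),
    fun z => ?_, fun z => ?_⟩
  · simp only [Pi.sub_apply, Pi.single_apply]
    have h1 : (s z = x) ↔ (z = s x) := ⟨fun h => by rw [← h, hs], fun h => by rw [h, hs]⟩
    have h2 : (s z = s x) ↔ (z = x) := ⟨fun h => s.injective h, fun h => by rw [h]⟩
    simp only [h1, h2]
    ring
  · simp only [Pi.sub_apply, Pi.single_apply]
    have h1 : (u (s z) = u x) ↔ (z = s x) :=
      ⟨fun h => by rw [← u.injective h, hs], fun h => by rw [h, hs]⟩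
    simp only [h1]
    ring

omit [Fintype X] in
theorem s41pdl_single_sub_mem (g : Equiv.Perm X)
    (hg : g ∈ Subgroup.closure ({s, u} : Set (Equiv.Perm X))) :
    ∀ x : X, (Pi.single x (1 : ℤ) - Pi.single (g x) (1 : ℤ) : X → ℤ) ∈ s41pdlS s u := by
  induction hg using Subgroup.closure_induction with
  | mem g hg =>
    intro x
    rcases hg with rfl | hg
    · exact s41pdl_single_sub_s g u hs x
    · rw [Set.mem_singleton_iff] at hg
      subst hg
      exact s41pdl_single_sub_u s g hs x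
  | one =>
    intro x
    simp only [Equiv.Perm.coe_one, id_eq, sub_self]
    exact (s41pdlS s u).zero_mem
  | mul g h _ _ ihg ihh =>
    intro x
    have : (Pi.single x (1 : ℤ) - Pi.single ((g * h) x) (1 : ℤ) : X → ℤ)
        = (Pi.single x (1 : ℤ) - Pi.single (h x) (1 : ℤ))
          + (Pi.single (h x) (1 : ℤ) - Pi.single (g (h x)) (1 : ℤ)) := by
      rw [Equiv.Perm.mul_apply]; abel
    rw [this]
    exact (s41pdlS s u).add_mem (ihh x) (ihg (h x))
  | inv g _ ihg =>
    intro x
    have : (Pi.single x (1 : ℤ) - Pi.single (g⁻¹ x) (1 : ℤ) : X → ℤ)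
        = -(Pi.single (g⁻¹ x) (1 : ℤ) - Pi.single (g (g⁻¹ x)) (1 : ℤ)) := by
      rw [Equiv.apply_symm_apply g x |> fun h => (show g (g⁻¹ x) = x from h)]; abel
    rw [this]
    exact (s41pdlS s u).neg_mem (ihg (g⁻¹ x))

/-- every function of sum zero is `e + (c ∘ t - c)` with `e` antisymmetric. -/
theorem s41pdl_decomp
    (htr : ∀ x y : X, ∃ g ∈ Subgroup.closure ({s, u} : Set (Equiv.Perm X)), g x = y)
    (g : X → ℤ) (hg : ∑ x, g x = 0) : g ∈ s41pdlS s u := by
  rcases isEmpty_or_nonempty X with hX | ⟨⟨x₀⟩⟩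
  · have : g = 0 := Subsingleton.elim _ _
    rw [this]
    exact (s41pdlS s u).zero_mem
  · have hrep : g = ∑ x, g x • (Pi.single x (1 : ℤ) - Pi.single x₀ (1 : ℤ) : X → ℤ) := by
      funext z
      simp only [Finset.sum_apply, Pi.smul_apply, Pi.sub_apply, Pi.single_apply, smul_eq_mul,
        mul_sub, Finset.sum_sub_distrib, mul_ite, mul_one, mul_zero]
      rw [Finset.sum_ite_eq Finset.univ z g, if_pos (Finset.mem_univ z)]
      by_cases hz : z = x₀
      · simp only [hz, if_true, hg, sub_zero]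
      · simp only [hz, if_false, Finset.sum_const_zero, sub_zero]
    rw [hrep]
    refine (s41pdlS s u).sum_mem fun x _ => (s41pdlS s u).zsmul_mem ?_ _
    obtain ⟨k, hk, hkx⟩ := htr x x₀
    have := s41pdl_single_sub_mem s u hs k hk x
    rwa [hkx] at this

end A

section Main

variable {X : Type*} [Fintype X]

theorem s41pd_lift_closed (p : ℕ) (hp : p.Prime) (hp2 : p ≠ 2) (s u : Equiv.Perm X)
    (hs : ∀ x, s (s x) = x)
    (htr : ∀ x y : X, ∃ g ∈ Subgroup.closure ({s, u} : Set (Equiv.Perm X)), g x = y)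
    {b : X → ZMod p} (hb : S41pdClosed s u b) :
    ∃ a : X → ℤ, S41pdClosed s u a ∧ ∀ x, ((a x : ℤ) : ZMod p) = b x := by
  classical
  have : NeZero p := ⟨hp.ne_zero⟩
  obtain ⟨hanti, cb, hcb⟩ := hb
  have hp0 : (p : ℤ) ≠ 0 := by exact_mod_cast hp.ne_zero
  -- the antisymmetric lift
  set a0 : X → ℤ := fun x => (b x).valMinAbs with ha0
  have ha0anti : ∀ x, a0 (s x) = - a0 x := by
    intro x
    show (b (s x)).valMinAbs = -(b x).valMinAbs
    rw [hanti x]
    refine ZMod.valMinAbs_neg_of_ne_half fun h2 => hp2 ?_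
    have : 2 ∣ p := ⟨_, h2.symm⟩
    exact ((Nat.prime_dvd_prime_iff_eq Nat.prime_two hp).mp this).symm
  have ha0cast : ∀ x, ((a0 x : ℤ) : ZMod p) = b x := fun x => ZMod.coe_valMinAbs (b x)
  -- the lift with a potential
  set c0 : X → ℤ := fun x => (cb x).valMinAbs with hc0
  have hc0cast : ∀ x, ((c0 x : ℤ) : ZMod p) = cb x := fun x => ZMod.coe_valMinAbs (cb x)
  set a1 : X → ℤ := fun x => c0 (u (s x)) - c0 x with ha1
  have ha1cast : ∀ x, ((a1 x : ℤ) : ZMod p) = b x := by
    intro x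
    show ((c0 (u (s x)) - c0 x : ℤ) : ZMod p) = b x
    push_cast
    rw [hc0cast, hc0cast]
    exact hcb x
  have hdvd : ∀ x, (p : ℤ) ∣ a0 x - a1 x := by
    intro x
    rw [← ZMod.intCast_zmod_eq_zero_iff_dvd]
    push_cast
    rw [ha0cast, ha1cast, sub_self]
  choose g hg using hdvd
  have hsum0 : ∑ x, a0 x = 0 := by
    have h1 : ∑ x, a0 (s x) = ∑ x, a0 x := Equiv.sum_comp s a0
    have h2 : ∑ x, a0 (s x) = - ∑ x, a0 x := by
      rw [← Finset.sum_neg_distrib]
      exact Finset.sum_congr rfl fun x _ => ha0anti x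
    omega
  have hsum1 : ∑ x, a1 x = 0 := by
    show ∑ x, (c0 (u (s x)) - c0 x) = 0
    rw [Finset.sum_sub_distrib]
    have h1 : ∑ x, c0 (u (s x)) = ∑ x, c0 x := Equiv.sum_comp (s.trans u) c0
    rw [h1, sub_self]
  have hsumg : ∑ x, g x = 0 := by
    have h1 : (p : ℤ) * ∑ x, g x = 0 := by
      rw [Finset.mul_sum]
      have : ∀ x, (p : ℤ) * g x = a0 x - a1 x := fun x => (hg x).symm
      simp only [this, Finset.sum_sub_distrib, hsum0, hsum1, sub_self]
    rcases mul_eq_zero.mp h1 with h | h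
    · exact absurd h hp0
    · exact h
  obtain ⟨e, c', he, hdec⟩ := s41pdl_decomp s u hs htr g hsumg
  refine ⟨fun x => a0 x - p * e x, ⟨fun x => ?_, fun x => c0 x + p * c' x, fun x => ?_⟩,
    fun x => ?_⟩
  · show a0 (s x) - p * e (s x) = -(a0 x - p * e x)
    rw [ha0anti, he]
    ring
  · show c0 (u (s x)) + p * c' (u (s x)) - (c0 x + p * c' x) = a0 x - p * e x
    have h1 := hg x
    have h2 := hdec x
    have h3 : a1 x = c0 (u (s x)) - c0 x := rfl
    rw [h2] at h1
    linear_combination h3 - h1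
  · show ((a0 x - p * e x : ℤ) : ZMod p) = b x
    push_cast
    rw [ha0cast, ZMod.natCast_self, zero_mul, sub_zero]

end Main

end Fermat.Agent.S41
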