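import Fermat.Agent.S41.PD.Pot
import Fermat.Agent.S41.PD.Form

/-!
# S41, package PD, row PD-NDF: nondegeneracy of the ribbon-graph pairing over a field, `2 ≠ 0`

`s41pd_nondeg_field`: a closed cochain `a` with `B(a, a') = 0` for all closed `a'` is the coboundary
`d f` of a `u`-invariant function.

Proof.  Let `c` be a potential of `a` and `m x := c x - c (u x)`, so that `B(a, a') = ∑ m a'`.  The
cochains orthogonal (for the dot product) to both `A⁺ = {g ∘ s = g}` and `H = {h ∘ u ∘ s = h}` are
closed, hence orthogonal to `m`; by linear duality `m = g + h` with `g ∈ A⁺`, `h ∈ H`.  As `m` is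
antisymmetric, `2 m = h - h ∘ s`, and `f := c - h / 2` is `u`-invariant with `a = d f`.

The core `s41pdnf_nondeg_field_aux` takes the two black boxes (rows PD-POT, PD-FORM) as hypotheses.
-/

set_option autoImplicit false

namespace Fermat.Agent.S41

section A

variable {X : Type*} [Fintype X]

/-- a vector orthogonal (for the dot product) to the orthogonal of a subspace lies in it. -/
theorem s41pdnf_mem_of_orth {K : Type*} [Field K] (W : Submodule K (X → K)) (m : X → K)
    (h : ∀ a' : X → K, (∀ g ∈ W, ∑ x, g x * a' x = 0) → ∑ x, m x * a' x = 0) : m ∈ W := by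
  classical
  by_contra hm
  obtain ⟨φ, hφm, hφW⟩ := Submodule.exists_dual_map_eq_bot_of_notMem hm inferInstance
  have hφ : ∀ v : X → K, φ v = ∑ x, v x * φ (fun j => if x = j then 1 else 0) := fun v => by
    rw [LinearMap.pi_apply_eq_sum_univ φ v]
    rfl
  apply hφm
  rw [hφ m]
  apply h
  intro g hg
  rw [← hφ g]
  have : φ g ∈ W.map φ := Submodule.mem_map_of_mem hg
  rw [hφW] at this
  exact (Submodule.mem_bot K).1 this

/-- the core of row PD-NDF, with the black boxes as hypotheses. -/
theorem s41pdnf_nondeg_field_aux {K : Type*} [Field K] (h2 : (2 : K) ≠ 0) (s u : Equiv.Perm X)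
    (hs : ∀ x, s (s x) = x)
    (hpot : ∀ (t : Equiv.Perm X) (a : X → K),
      (∀ h : X → K, (∀ x, h (t x) = h x) → ∑ x, h x * a x = 0) →
        ∃ c : X → K, ∀ x, c (t x) - c x = a x)
    {a c : X → K} (haa : S41pdAnti s a) (hc : S41pdPot s u c a)
    (h : ∀ a' : X → K, S41pdClosed s u a' → s41pdForm u c a' = 0) :
    ∃ f : X → K, (∀ x, f (u x) = f x) ∧ a = s41pdD s f := by
  classical
  -- the two subspaces
  let Ap : Submodule K (X → K) :=
    { carrier := {g | ∀ x, g (s x) = g x}
      add_mem' := fun {g g'} hg hg' x => by
        show g (s x) + g' (s x) = g x + g' x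
        rw [hg x, hg' x]
      zero_mem' := fun x => rfl
      smul_mem' := fun r g hg x => by
        show r * g (s x) = r * g x
        rw [hg x] }
  let Hh : Submodule K (X → K) :=
    { carrier := {g | ∀ x, g (u (s x)) = g x}
      add_mem' := fun {g g'} hg hg' x => by
        show g (u (s x)) + g' (u (s x)) = g x + g' x
        rw [hg x, hg' x]
      zero_mem' := fun x => rfl
      smul_mem' := fun r g hg x => by
        show r * g (u (s x)) = r * g x
        rw [hg x] }
  set m : X → K := fun x => c x - c (u x) with hm
  -- `m` is antisymmetric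
  have hc' : ∀ x, c (u x) = c (s x) - a x := by
    intro x
    have h1 := hc (s x)
    rw [hs x, haa x] at h1
    linear_combination h1
  have hmanti : ∀ x, m (s x) = - m x := by
    intro x
    have h1 := hc x
    show c (s x) - c (u (s x)) = -(c x - c (u x))
    rw [hc' x]
    linear_combination -h1
  -- step 1 + 2: `m ∈ Ap ⊔ Hh`
  have hmem : m ∈ Ap ⊔ Hh := by
    apply s41pdnf_mem_of_orth
    intro a' ha'
    have hAp : ∀ g ∈ Ap, ∑ x, g x * a' x = 0 := fun g hg =>
      ha' g (Submodule.mem_sup_left hg)
    have hHh : ∀ g ∈ Hh, ∑ x, g x * a' x = 0 := fun g hg =>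
      ha' g (Submodule.mem_sup_right hg)
    -- `a'` is antisymmetric
    have hanti : S41pdAnti s a' := by
      intro x
      by_cases hx : s x = x
      · -- test against `e_x`
        have h1 := hAp (fun y => if y = x then 1 else 0) (by
          intro y
          show (if s y = x then (1 : K) else 0) = if y = x then 1 else 0
          by_cases hy : y = x
          · rw [if_pos hy, hy, if_pos hx]
          · rw [if_neg hy, if_neg]
            intro hsy
            apply hy
            rw [← hs y, hsy, hx])
        simp only [ite_mul, one_mul, zero_mul, Finset.sum_ite_eq', Finset.mem_univ,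
          if_true] at h1
        rw [hx, h1, neg_zero]
      · -- test against `e_x + e_{s x}`
        have h1 := hAp (fun y => (if y = x then 1 else 0) + (if y = s x then 1 else 0)) (by
          intro y
          show (if s y = x then (1 : K) else 0) + (if s y = s x then 1 else 0)
            = (if y = x then 1 else 0) + (if y = s x then 1 else 0)
          have e1 : s y = x ↔ y = s x := ⟨fun h => by rw [← h, hs], fun h => by rw [h, hs]⟩
          have e2 : s y = s x ↔ y = x := s.injective.eq_iff
          simp only [e1, e2]
          exact add_comm _ _)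
        simp only [add_mul, ite_mul, one_mul, zero_mul, Finset.sum_add_distrib,
          Finset.sum_ite_eq', Finset.mem_univ, if_true] at h1
        linear_combination h1
    -- `a'` has a potential
    obtain ⟨c', hc'pot⟩ := hpot (s.trans u) a' (fun g hg => hHh g (fun x => hg x))
    have hclosed : S41pdClosed s u a' := ⟨hanti, c', fun x => hc'pot x⟩
    exact h a' hclosed
  -- step 3
  obtain ⟨g, hg, hh, hhH, hgh⟩ := Submodule.mem_sup.1 hmem
  have hgs : ∀ x, g (s x) = g x := hg
  have hht : ∀ x, hh (u (s x)) = hh x := hhH
  have hmx : ∀ x, m x = g x + hh x := fun x => (congrFun hgh x).symm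
  have h2m : ∀ x, 2 * m x = hh x - hh (s x) := by
    intro x
    have h1 := hmanti x
    rw [hmx x, hmx (s x), hgs x] at h1
    rw [hmx x]
    linear_combination h1
  have hhu : ∀ x, hh (u x) = hh (s x) := by
    intro x
    have := hht (s x)
    rwa [hs x] at this
  refine ⟨fun x => c x - hh x / 2, ?_, ?_⟩
  · intro x
    have h1 := h2m x
    have h3 : m x = c x - c (u x) := rfl
    rw [h3] at h1
    show c (u x) - hh (u x) / 2 = c x - hh x / 2
    rw [hhu x]
    field_simp
    linear_combination -h1
  · funext x
    have h1 := h2m x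
    have h3 : m x = c x - c (u x) := rfl
    rw [h3, hc' x] at h1
    show a x = (c (s x) - hh (s x) / 2) - (c x - hh x / 2)
    field_simp
    linear_combination h1

/-! ### Row PD-NDF -/

theorem s41pd_nondeg_field {K : Type*} [Field K] (h2 : (2 : K) ≠ 0) (s u : Equiv.Perm X)
    (hs : ∀ x, s (s x) = x) {a : X → K} (ha : S41pdClosed s u a)
    (h : ∀ a' : X → K, S41pdClosed s u a' → s41pdPair s u a a' = 0) :
    ∃ f : X → K, (∀ x, f (u x) = f x) ∧ a = s41pdD s f := by
  obtain ⟨haa, c, hc⟩ := ha
  refine s41pdnf_nondeg_field_aux h2 s u hs (fun t a h => s41pd_exists_pot t a h) haa hc ?_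
  intro a' ha'
  rw [← s41pd_pair_eq s u hs hc ha']
  exact h a' ha'

end A

end Fermat.Agent.S41
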