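import Fermat.Agent.S41.PD.Pot
import Fermat.Agent.S41.PD.Form
import Fermat.Agent.S41.PD.NondegField
import Fermat.Agent.S41.PD.Lift

/-!
# S41, package PD, row PD-NDI: nondegeneracy of the ribbon-graph pairing modulo an odd prime,
integrally

If `a : X → ℤ` is closed and `p ∣ B(a, a')` for all closed integral `a'`, then
`a = d f + p • a₁` with `f` a vertex function and `a₁` closed.
-/

set_option autoImplicit false

namespace Fermat.Agent.S41

section A

variable {X : Type*} [Fintype X]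

theorem s41pd_nondeg_int (p : ℕ) (hp : p.Prime) (hp2 : p ≠ 2) (s u : Equiv.Perm X)
    (hs : ∀ x, s (s x) = x)
    (htr : ∀ x y : X, ∃ g ∈ Subgroup.closure ({s, u} : Set (Equiv.Perm X)), g x = y)
    {a : X → ℤ} (ha : S41pdClosed s u a)
    (h : ∀ a' : X → ℤ, S41pdClosed s u a' → (p : ℤ) ∣ s41pdPair s u a a') :
    ∃ f a₁ : X → ℤ, (∀ x, f (u x) = f x) ∧ S41pdClosed s u a₁ ∧
      a = s41pdD s f + (p : ℤ) • a₁ := by
  have : Fact p.Prime := ⟨hp⟩
  have hp0 : (p : ℤ) ≠ 0 := by exact_mod_cast hp.ne_zero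
  -- reduce mod `p`
  have hā : S41pdClosed s u (fun x => (Int.castRingHom (ZMod p)) (a x)) :=
    s41pd_closed_map s u hs (Int.castRingHom (ZMod p)) ha
  have hkill : ∀ b : X → ZMod p, S41pdClosed s u b →
      s41pdPair s u (fun x => (Int.castRingHom (ZMod p)) (a x)) b = 0 := by
    intro b hb
    obtain ⟨a', ha', hab⟩ := s41pd_lift_closed p hp hp2 s u hs htr hb
    have hb' : b = fun x => (Int.castRingHom (ZMod p)) (a' x) := by
      funext x
      exact (hab x).symm
    rw [hb', s41pd_pair_map s u hs (Int.castRingHom (ZMod p)) ha ha']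
    exact (ZMod.intCast_zmod_eq_zero_iff_dvd _ p).mpr (h a' ha')
  have h2 : (2 : ZMod p) ≠ 0 := by
    intro h2
    have h3 : ((2 : ℕ) : ZMod p) = 0 := by exact_mod_cast h2
    rw [ZMod.natCast_eq_zero_iff] at h3
    exact hp2 ((Nat.prime_dvd_prime_iff_eq hp Nat.prime_two).mp h3)
  obtain ⟨fbar, hfbar, hafbar⟩ := s41pd_nondeg_field h2 s u hs hā hkill
  -- lift the vertex function
  set f : X → ℤ := fun x => ((fbar x).val : ℤ) with hf
  have hfu : ∀ x, f (u x) = f x := by
    intro x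
    show (((fbar (u x)).val : ℕ) : ℤ) = ((fbar x).val : ℤ)
    rw [hfbar x]
  have hfcast : ∀ x, ((f x : ℤ) : ZMod p) = fbar x := by
    intro x
    show ((((fbar x).val : ℕ) : ℤ) : ZMod p) = fbar x
    rw [Int.cast_natCast, ZMod.natCast_zmod_val]
  have hdvd : ∀ x, (p : ℤ) ∣ a x - s41pdD s f x := by
    intro x
    rw [← ZMod.intCast_zmod_eq_zero_iff_dvd]
    have h1 := congrFun hafbar x
    simp only [s41pdD] at h1 ⊢
    push_cast
    rw [hfcast, hfcast]
    rw [← h1]
    simp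
  set a₁ : X → ℤ := fun x => (a x - s41pdD s f x) / p with ha₁
  have hpa₁ : ∀ x, (p : ℤ) * a₁ x = a x - s41pdD s f x := fun x => Int.mul_ediv_cancel' (hdvd x)
  have hsum : a = s41pdD s f + (p : ℤ) • a₁ := by
    funext x
    rw [Pi.add_apply, Pi.smul_apply, smul_eq_mul, hpa₁ x]
    ring
  -- `p • a₁` is closed
  have hpcl : S41pdClosed s u ((p : ℤ) • a₁) := by
    have h1 : (p : ℤ) • a₁ = a + -(s41pdD s f) := by
      funext x
      rw [Pi.smul_apply, smul_eq_mul, hpa₁ x, Pi.add_apply, Pi.neg_apply]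
      ring
    rw [h1]
    exact s41pd_closed_add s u hs ha (s41pd_closed_neg s u hs (s41pd_closed_d s u hs hfu))
  obtain ⟨hpanti, c, hc⟩ := hpcl
  refine ⟨f, a₁, hfu, ⟨?_, ?_⟩, hsum⟩
  · intro x
    have h1 := hpanti x
    rw [Pi.smul_apply, Pi.smul_apply, smul_eq_mul, smul_eq_mul, ← mul_neg] at h1
    exact mul_left_cancel₀ hp0 h1
  · have key : ∀ g : X → ℤ, (∀ x, g ((u * s) x) = g x) → ∑ x, g x * a₁ x = 0 := by
      intro g hg
      have h1 : (p : ℤ) * ∑ x, g x * a₁ x = ∑ x, g x * (c ((u * s) x) - c x) := by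
        rw [Finset.mul_sum]
        refine Finset.sum_congr rfl fun x _ => ?_
        have h2 : c ((u * s) x) - c x = (p : ℤ) * a₁ x := hc x
        rw [h2]
        ring
      rw [s41pd_pot_orth (u * s) c g hg] at h1
      rcases mul_eq_zero.mp h1 with h3 | h3
      · exact absurd h3 hp0
      · exact h3
    obtain ⟨c₁, hc₁⟩ := s41pd_exists_pot (u * s) a₁ key
    exact ⟨c₁, fun x => hc₁ x⟩

end A

end Fermat.Agent.S41
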