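import Mathlib

/-!
# S41, package PD (Poincaré duality), abstract part: definitions

The combinatorial model is a *ribbon graph*: a finite set `X` of darts with an involution `s`
(edge flip) and a permutation `u` (vertex rotation).  Faces are the cycles of `u ∘ s`.
For `X = SL(2,ℤ)/Γ`, `s = S`, `u = U = S T`, faces are the cusps of `Γ` (cycles of `U S ≡ U T U⁻¹`).

* `S41pdAnti s a`      : `a` is an antisymmetric 1-cochain, `a (s x) = - a x`;
* `S41pdPot s u c a`   : `c` is a potential of `a` along the faces, `c (u (s x)) - c x = a x`;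
* `S41pdClosed s u a`  : antisymmetric and has a potential (= all face sums vanish);
* `s41pdD s f`         : the coboundary of a vertex function `f` (`f ∘ u = f`);
* `s41pdForm u c a'`   : `∑ x, (c x - c (u x)) * a' x`;
* `s41pdPair s u a a'` : the pairing, computed with any potential of `a`;
* `s41pdPush π a'`     : push-forward of a function along `π : X' → X`;
* `S41pdHeis R`        : the Heisenberg group `(a,b,c)(a',b',c') = (a+a', b+b', c+c'+a b')`.
-/

set_option autoImplicit false

namespace Fermat.Agent.S41

section Ribbon

variable {X : Type*} {R : Type*} [CommRing R]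

/-- antisymmetric 1-cochains of the ribbon graph. -/
def S41pdAnti (s : Equiv.Perm X) (a : X → R) : Prop := ∀ x, a (s x) = - a x

/-- `c` is a potential of `a` along the faces (the cycles of `u ∘ s`). -/
def S41pdPot (s u : Equiv.Perm X) (c a : X → R) : Prop := ∀ x, c (u (s x)) - c x = a x

/-- closed 1-cochains: antisymmetric, with a potential along the faces. -/
def S41pdClosed (s u : Equiv.Perm X) (a : X → R) : Prop :=
  S41pdAnti s a ∧ ∃ c : X → R, S41pdPot s u c a

/-- the coboundary of a function (on vertices when `f ∘ u = f`). -/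
def s41pdD (s : Equiv.Perm X) (f : X → R) : X → R := fun x => f (s x) - f x

variable [Fintype X]

/-- the pairing computed with a given potential `c` of the first argument. -/
def s41pdForm (u : Equiv.Perm X) (c a' : X → R) : R := ∑ x, (c x - c (u x)) * a' x

open Classical in
/-- the pairing (junk value `0` if the first argument has no potential). -/
noncomputable def s41pdPair (s u : Equiv.Perm X) (a a' : X → R) : R :=
  if h : ∃ c : X → R, S41pdPot s u c a then s41pdForm u h.choose a' else 0

/-- push-forward of a function along a map of finite sets. -/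
def s41pdPush {X' : Type*} [Fintype X'] [DecidableEq X] (π : X' → X) (a' : X' → R) : X → R :=
  fun x => ∑ x' ∈ Finset.univ.filter (fun x' => π x' = x), a' x'

end Ribbon

/-- The Heisenberg group over a commutative ring:
`(a, b, c) * (a', b', c') = (a + a', b + b', c + c' + a * b')`. -/
@[ext]
structure S41pdHeis (R : Type*) where
  a : R
  b : R
  c : R

namespace S41pdHeis

variable {R : Type*} [CommRing R]

instance : Mul (S41pdHeis R) := ⟨fun p q => ⟨p.a + q.a, p.b + q.b, p.c + q.c + p.a * q.b⟩⟩
instance : One (S41pdHeis R) := ⟨⟨0, 0, 0⟩⟩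
instance : Inv (S41pdHeis R) := ⟨fun p => ⟨-p.a, -p.b, -p.c + p.a * p.b⟩⟩

@[simp] theorem mul_a (p q : S41pdHeis R) : (p * q).a = p.a + q.a := rfl
@[simp] theorem mul_b (p q : S41pdHeis R) : (p * q).b = p.b + q.b := rfl
@[simp] theorem mul_c (p q : S41pdHeis R) : (p * q).c = p.c + q.c + p.a * q.b := rfl
@[simp] theorem one_a : (1 : S41pdHeis R).a = 0 := rfl
@[simp] theorem one_b : (1 : S41pdHeis R).b = 0 := rfl
@[simp] theorem one_c : (1 : S41pdHeis R).c = 0 := rfl
@[simp] theorem inv_a (p : S41pdHeis R) : p⁻¹.a = -p.a := rfl
@[simp] theorem inv_b (p : S41pdHeis R) : p⁻¹.b = -p.b := rfl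
@[simp] theorem inv_c (p : S41pdHeis R) : p⁻¹.c = -p.c + p.a * p.b := rfl

instance : Group (S41pdHeis R) where
  mul_assoc p q r := by
    ext
    · simp [add_assoc]
    · simp [add_assoc]
    · simp only [mul_c, mul_a, mul_b]; ring
  one_mul p := by ext <;> simp
  mul_one p := by ext <;> simp
  inv_mul_cancel p := by
    ext
    · simp
    · simp
    · simp only [mul_c, inv_c, inv_a, one_c]; ring

end S41pdHeis

end Fermat.Agent.S41
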