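import Mathlib
import Fermat.Agent.S41.PD.Defs

/-!
# S41, package PD, row PD-POT: a function orthogonal to all `t`-invariant functions is a
`t`-coboundary (`s41pd_exists_pot`), and the easy converse (`s41pd_pot_orth`).
-/

set_option autoImplicit false

namespace Fermat.Agent.S41

section A

variable {X : Type*} [Fintype X] {R : Type*} [CommRing R]

/-- sums along a closed `t`-path vanish. -/
theorem s41pdpot_loop_sum (t : Equiv.Perm X) (a : X → R)
    (h : ∀ h : X → R, (∀ x, h (t x) = h x) → ∑ x, h x * a x = 0)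
    (y : X) (d : ℕ) (hd : (t ^ d) y = y) :
    ∑ j ∈ Finset.range d, a ((t ^ j) y) = 0 := by
  classical
  have key := h (fun z => ∑ j ∈ Finset.range d, if (t ^ j) y = z then (1 : R) else 0) ?_
  · rw [← key]
    simp only [Finset.sum_mul]
    rw [Finset.sum_comm]
    refine Finset.sum_congr rfl fun j _ => ?_
    simp
  · intro z
    have h1 : ∀ j : ℕ, ((t ^ (j + 1)) y = t z) ↔ ((t ^ j) y = z) := by
      intro j
      rw [pow_succ', Equiv.Perm.mul_apply]
      exact t.injective.eq_iff
    have h2 : (∑ j ∈ Finset.range d, if (t ^ j) y = z then (1 : R) else 0)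
        = ∑ j ∈ Finset.range d, if (t ^ (j + 1)) y = t z then (1 : R) else 0 := by
      refine Finset.sum_congr rfl fun j _ => ?_
      simp only [h1]
    rw [h2]
    have h3 := Finset.sum_range_succ (fun j => if (t ^ j) y = t z then (1 : R) else 0) d
    have h4 := Finset.sum_range_succ' (fun j => if (t ^ j) y = t z then (1 : R) else 0) d
    simp only [hd, pow_zero, Equiv.Perm.coe_one, id_eq] at h3 h4
    rw [h3] at h4
    exact add_right_cancel h4

/-- partial sums along a `t`-path only depend on the end point. -/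
theorem s41pdpot_path_sum (t : Equiv.Perm X) (a : X → R)
    (h : ∀ h : X → R, (∀ x, h (t x) = h x) → ∑ x, h x * a x = 0)
    (r : X) (m m' : ℕ) (hm : (t ^ m) r = (t ^ m') r) :
    ∑ i ∈ Finset.range m, a ((t ^ i) r) = ∑ i ∈ Finset.range m', a ((t ^ i) r) := by
  wlog hle : m ≤ m' generalizing m m'
  · exact (this m' m hm.symm (le_of_not_ge hle)).symm
  obtain ⟨d, rfl⟩ := Nat.exists_eq_add_of_le hle
  rw [Finset.sum_range_add]
  have hd : (t ^ d) ((t ^ m) r) = (t ^ m) r := by
    rw [← Equiv.Perm.mul_apply, ← pow_add, add_comm d m]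
    exact hm.symm
  have := s41pdpot_loop_sum t a h ((t ^ m) r) d hd
  have h5 : ∑ x ∈ Finset.range d, a ((t ^ (m + x)) r) = ∑ j ∈ Finset.range d, a ((t ^ j) ((t ^ m) r)) := by
    refine Finset.sum_congr rfl fun j _ => ?_
    rw [← Equiv.Perm.mul_apply, ← pow_add, add_comm j m]
  rw [h5, this, add_zero]

/-- a function orthogonal to all `t`-invariant functions is a `t`-coboundary. -/
theorem s41pd_exists_pot (t : Equiv.Perm X) (a : X → R)
    (h : ∀ h : X → R, (∀ x, h (t x) = h x) → ∑ x, h x * a x = 0) :
    ∃ c : X → R, ∀ x, c (t x) - c x = a x := by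
  classical
  let S : Setoid X := Equiv.Perm.SameCycle.setoid t
  let r : X → X := fun x => (Quotient.mk S x).out
  have hr : ∀ x, r (t x) = r x := by
    intro x
    have : Quotient.mk S (t x) = Quotient.mk S x :=
      Quotient.sound (show Equiv.Perm.SameCycle t (t x) x from
        (Equiv.Perm.sameCycle_apply_left).2 (Equiv.Perm.SameCycle.refl t x))
    simp only [r, this]
  have hex : ∀ x, ∃ n : ℕ, (t ^ n) (r x) = x := by
    intro x
    have : Equiv.Perm.SameCycle t (r x) x := Quotient.mk_out (s := S) x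
    exact this.exists_nat_pow_eq
  choose n hn using hex
  refine ⟨fun x => ∑ i ∈ Finset.range (n x), a ((t ^ i) (r x)), fun x => ?_⟩
  have h1 : (t ^ (n (t x))) (r x) = (t ^ (n x + 1)) (r x) := by
    have e1 : (t ^ (n (t x))) (r x) = t x := by
      rw [← hr x]; exact hn (t x)
    rw [e1, pow_succ', Equiv.Perm.mul_apply, hn x]
  have h2 := s41pdpot_path_sum t a h (r x) (n (t x)) (n x + 1) h1
  show (∑ i ∈ Finset.range (n (t x)), a ((t ^ i) (r (t x)))) - _ = _
  rw [hr x, h2, Finset.sum_range_succ, hn x]
  ring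

/-- converse (easy). -/
theorem s41pd_pot_orth (t : Equiv.Perm X) (c h : X → R) (hh : ∀ x, h (t x) = h x) :
    ∑ x, h x * (c (t x) - c x) = 0 := by
  have h1 : ∑ x, h x * c (t x) = ∑ x, h x * c x := by
    have := Equiv.sum_comp t (fun x => h x * c x)
    rw [← this]
    refine Finset.sum_congr rfl fun x _ => ?_
    rw [hh x]
  simp only [mul_sub, Finset.sum_sub_distrib, h1, sub_self]

end A

end Fermat.Agent.S41
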