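import Fermat.Agent.S41.PD.GDefs
import Fermat.Agent.S41.PD.Pot
import Fermat.Agent.S16.LB.ParCrit
import Fermat.Agent.S21.Parabolic

/-!
# S41, package PD, row PD-PARCRIT: a character represented by a normalised Shapiro cocycle `D`
is parabolic iff the 1-cochain `D S` of the ribbon graph is closed.

No black box: the two facts on normalised cocycles that are needed (`D S` antisymmetric,
`D T x = D S (U x)`) are proved here under private names (`s41pdpc_anti`, `s41pdpc_T`).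
-/

set_option autoImplicit false

namespace Fermat.Agent.S41

open scoped MatrixGroups
open ModularGroup Fermat.Agent.S16LB ModularCurve.Period Matrix.SpecialLinearGroup

section Aux

variable {Γ : Subgroup SL(2, ℤ)}

/-- the trace of a conjugate of a power of `T`. -/
theorem s41pdpc_trace_conj (ρ : SL(2, ℤ)) (m : ℤ) :
    ((ρ * T ^ m * ρ⁻¹ : SL(2, ℤ)) : Matrix (Fin 2) (Fin 2) ℤ).trace = 2 := by
  have h1 : ((ρ * T ^ m * ρ⁻¹ : SL(2, ℤ)) : Matrix (Fin 2) (Fin 2) ℤ)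
      = (ρ : Matrix (Fin 2) (Fin 2) ℤ) * ((T ^ m : SL(2, ℤ)) : Matrix (Fin 2) (Fin 2) ℤ)
        * ((ρ⁻¹ : SL(2, ℤ)) : Matrix (Fin 2) (Fin 2) ℤ) := by
    rw [Matrix.SpecialLinearGroup.coe_mul, Matrix.SpecialLinearGroup.coe_mul]
  have h2 : ((ρ⁻¹ : SL(2, ℤ)) : Matrix (Fin 2) (Fin 2) ℤ) * (ρ : Matrix (Fin 2) (Fin 2) ℤ)
      = 1 := by
    rw [← Matrix.SpecialLinearGroup.coe_mul, inv_mul_cancel, Matrix.SpecialLinearGroup.coe_one]
  rw [h1, Matrix.trace_mul_comm, ← Matrix.mul_assoc, h2, Matrix.one_mul, coe_T_zpow]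
  simp [Matrix.trace_fin_two]

/-- powers of the cusp rotation. -/
theorem s41pdpc_T_perm_pow (y : s41pdX Γ) (k : ℕ) : ((s41pdT Γ) ^ k) y = T ^ k • y := by
  induction k generalizing y with
  | zero => simp
  | succ k ih =>
    rw [pow_succ, Equiv.Perm.mul_apply, ih, s41pdT_apply, ← mul_smul, ← pow_succ]

/-- iterating the face permutation `u ∘ s` on `U y` is iterating `T` on `y`. -/
theorem s41pdpc_face_pow (hneg : (-1 : SL(2, ℤ)) ∈ Γ) (y : s41pdX Γ) (i : ℕ) :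
    ((s41pdU Γ * s41pdS Γ) ^ i) (s16lbU • y) = s16lbU • (T ^ i • y) := by
  induction i with
  | zero => simp
  | succ i ih =>
    rw [pow_succ', Equiv.Perm.mul_apply, ih, Equiv.Perm.mul_apply, s41pd_face_eq hneg,
      ← mul_smul T, ← pow_succ']

/-- `D S` is antisymmetric. -/
theorem s41pdpc_anti (hneg : (-1 : SL(2, ℤ)) ∈ Γ) {φ : Additive Γ →+ ℤ}
    {D : SL(2, ℤ) → s41pdX Γ → ℤ} (hD : S41pdRep Γ φ D) (x : s41pdX Γ) :
    D S (S • x) = - D S x := by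
  have h := s16lb_coc_S_add (s41pd_neg_smul hneg) hD.coc x
  omega

/-- the value of a normalised cocycle on `T`. -/
theorem s41pdpc_T (hneg : (-1 : SL(2, ℤ)) ∈ Γ) {φ : Additive Γ →+ ℤ}
    {D : SL(2, ℤ) → s41pdX Γ → ℤ} (hD : S41pdRep Γ φ D) (x : s41pdX Γ) :
    D T x = D S (s16lbU • x) := by
  have h1 : D s16lbU x = D T x + D S (T • x) := hD.coc S T x
  rw [hD.normal] at h1
  have h2 : D S (s16lbU • x) = - D S (T • x) := by
    have : s16lbU • x = S • (T • x) := by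
      unfold s16lbU
      rw [mul_smul]
    rw [this, s41pdpc_anti hneg hD]
  omega

/-- `D (T ^ n) y` as a sum of values of `D S` along the face through `U y`. -/
theorem s41pdpc_T_pow (hneg : (-1 : SL(2, ℤ)) ∈ Γ) {φ : Additive Γ →+ ℤ}
    {D : SL(2, ℤ) → s41pdX Γ → ℤ} (hD : S41pdRep Γ φ D) (y : s41pdX Γ) (n : ℕ) :
    D (T ^ n) y = ∑ i ∈ Finset.range n, D S (((s41pdU Γ * s41pdS Γ) ^ i) (s16lbU • y)) := by
  rw [hD.coc.pow_sum]
  refine Finset.sum_congr rfl fun i _ => ?_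
  rw [s41pdpc_face_pow hneg, s41pdpc_T hneg hD]

/-- parabolic ⟹ the values of `D` on the powers of `T` fixing a point vanish. -/
theorem s41pdpc_T_pow_eq_zero {φ : Additive Γ →+ ℤ} {D : SL(2, ℤ) → s41pdX Γ → ℤ}
    (hD : S41pdRep Γ φ D) (hφ : IsParabolicHom Γ φ) (y : s41pdX Γ) (k : ℕ)
    (hk : T ^ k • y = y) : D (T ^ k) y = 0 := by
  obtain ⟨g, hg⟩ := s41pd_exists_smul y
  obtain ⟨ρ, hρ⟩ : ∃ ρ : SL(2, ℤ), ρ⁻¹ • s41pdX0 Γ = y := ⟨g⁻¹, by rw [inv_inv]; exact hg⟩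
  have hk' : T ^ k • (ρ⁻¹ • s41pdX0 Γ) = ρ⁻¹ • s41pdX0 Γ := by rw [hρ]; exact hk
  have hfix : (ρ * T ^ k * ρ⁻¹) • s41pdX0 Γ = s41pdX0 Γ := by
    rw [mul_smul, mul_smul, hk', smul_inv_smul]
  have hmem : ρ * T ^ k * ρ⁻¹ ∈ Γ := (s41pd_mem_iff _).mpr hfix
  have htr : (((⟨ρ * T ^ k * ρ⁻¹, hmem⟩ : Γ) : SL(2, ℤ)) : Matrix (Fin 2) (Fin 2) ℤ).trace ^ 2
      = 4 := by
    have := s41pdpc_trace_conj ρ (k : ℤ)
    rw [zpow_natCast] at this
    rw [this]
    norm_num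
  have h0 := hφ ⟨ρ * T ^ k * ρ⁻¹, hmem⟩ htr
  rw [← hD.rep] at h0
  have h1 := hD.coc.conj_fixed ρ (T ^ k) (s41pdX0 Γ) hk'
  rw [hρ] at h1
  rw [← h1]
  exact h0

/-- a potential of `D S` ⟹ the values of `D` on the powers of `T` fixing a point vanish. -/
theorem s41pdpc_T_zpow_eq_zero (hneg : (-1 : SL(2, ℤ)) ∈ Γ) {φ : Additive Γ →+ ℤ}
    {D : SL(2, ℤ) → s41pdX Γ → ℤ} (hD : S41pdRep Γ φ D) {c : s41pdX Γ → ℤ}
    (hc : S41pdPot (s41pdS Γ) (s41pdU Γ) c (D S)) (y : s41pdX Γ) (m : ℤ)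
    (hm : T ^ m • y = y) : D (T ^ m) y = 0 := by
  have hnat : ∀ (n : ℕ) (y : s41pdX Γ), T ^ n • y = y → D (T ^ n) y = 0 := by
    intro n y hn
    rw [s41pdpc_T_pow hneg hD]
    have htel : ∀ j : ℕ, ∑ i ∈ Finset.range j,
        D S (((s41pdU Γ * s41pdS Γ) ^ i) (s16lbU • y))
          = c (((s41pdU Γ * s41pdS Γ) ^ j) (s16lbU • y)) - c (s16lbU • y) := by
      intro j
      induction j with
      | zero => simp
      | succ j ih =>
        rw [Finset.sum_range_succ, ih, ← hc, pow_succ', Equiv.Perm.mul_apply,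
          Equiv.Perm.mul_apply]
        ring
    rw [htel, s41pdpc_face_pow hneg, hn, sub_self]
  obtain ⟨n, rfl | rfl⟩ := m.eq_nat_or_neg
  · rw [zpow_natCast] at hm ⊢
    exact hnat n y hm
  · rw [zpow_neg, zpow_natCast] at hm ⊢
    have hn : T ^ n • y = y := by
      rw [inv_smul_eq_iff] at hm
      exact hm.symm
    rw [hD.coc.inv, hm, hnat n y hn, neg_zero]

end Aux

section Dict

variable {Γ : Subgroup SL(2, ℤ)} [Γ.FiniteIndex] (hneg : (-1 : SL(2, ℤ)) ∈ Γ)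

include hneg

/-- parabolic ⟹ `D S` is orthogonal to the face-invariant functions. -/
theorem s41pdpc_orth {φ : Additive Γ →+ ℤ} {D : SL(2, ℤ) → s41pdX Γ → ℤ}
    (hD : S41pdRep Γ φ D) (hφ : IsParabolicHom Γ φ) (h : s41pdX Γ → ℤ)
    (hh : ∀ x, h ((s41pdU Γ * s41pdS Γ) x) = h x) : ∑ x, h x * D S x = 0 := by
  set t' : Equiv.Perm (s41pdX Γ) := s41pdU Γ * s41pdS Γ with ht'
  -- an exponent `k > 0` with `T ^ k` acting trivially
  have hkpos : 0 < orderOf (s41pdT Γ) := orderOf_pos _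
  set k := orderOf (s41pdT Γ) with hk
  have hTk : ∀ y : s41pdX Γ, T ^ k • y = y := by
    intro y
    have h1 : (s41pdT Γ) ^ k = 1 := pow_orderOf_eq_one _
    rw [← s41pdpc_T_perm_pow, h1]
    rfl
  -- the sums along the faces vanish
  have hface : ∀ z : s41pdX Γ, ∑ i ∈ Finset.range k, D S ((t' ^ i) z) = 0 := by
    intro z
    have hz : s16lbU • (s16lbU⁻¹ • z) = z := smul_inv_smul _ _
    rw [← hz, ← s41pdpc_T_pow hneg hD]
    exact s41pdpc_T_pow_eq_zero hD hφ _ k (hTk _)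
  have hinv : ∀ (i : ℕ) (x : s41pdX Γ), h ((t' ^ i) x) = h x := by
    intro i
    induction i with
    | zero => intro x; rfl
    | succ i ih =>
      intro x
      rw [pow_succ', Equiv.Perm.mul_apply, hh, ih]
  have hsum : (k : ℤ) * ∑ x, h x * D S x = 0 := by
    calc (k : ℤ) * ∑ x, h x * D S x
        = ∑ i ∈ Finset.range k, ∑ x, h x * D S x := by
          rw [Finset.sum_const, Finset.card_range, nsmul_eq_mul]
      _ = ∑ i ∈ Finset.range k, ∑ x, h ((t' ^ i) x) * D S ((t' ^ i) x) := by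
          refine Finset.sum_congr rfl fun i _ => ?_
          exact (Equiv.sum_comp (t' ^ i) (fun x => h x * D S x)).symm
      _ = ∑ x, h x * ∑ i ∈ Finset.range k, D S ((t' ^ i) x) := by
          rw [Finset.sum_comm]
          refine Finset.sum_congr rfl fun x _ => ?_
          rw [Finset.mul_sum]
          refine Finset.sum_congr rfl fun i _ => ?_
          rw [hinv]
      _ = 0 := by
          refine Finset.sum_eq_zero fun x _ => ?_
          rw [hface, mul_zero]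
  rcases mul_eq_zero.mp hsum with h0 | h0
  · exact absurd h0 (by exact_mod_cast hkpos.ne')
  · exact h0

theorem s41pd_rep_parabolic_iff {φ : Additive Γ →+ ℤ} {D : SL(2, ℤ) → s41pdX Γ → ℤ}
    (hD : S41pdRep Γ φ D) :
    IsParabolicHom Γ φ ↔ S41pdClosed (s41pdS Γ) (s41pdU Γ) (D S) := by
  constructor
  · intro hφ
    refine ⟨fun x => s41pdpc_anti hneg hD x, ?_⟩
    obtain ⟨c, hc⟩ := s41pd_exists_pot (s41pdU Γ * s41pdS Γ) (D S)
      (fun h hh => s41pdpc_orth hneg hD hφ h hh)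
    exact ⟨c, fun x => hc x⟩
  · rintro ⟨-, c, hc⟩ γ hγ
    rw [← hD.rep]
    have hnegX : ∀ x : s41pdX Γ, (-1 : SL(2, ℤ)) • x = x := s41pd_neg_smul hneg
    have hγ0 : (γ : SL(2, ℤ)) • s41pdX0 Γ = s41pdX0 Γ := (s41pd_mem_iff _).mp γ.2
    obtain ⟨δ, m, h | h⟩ :=
      Fermat.Agent.S21.exists_conj_T_zpow_of_trace_sq_eq_four (γ : SL(2, ℤ)) hγ
    · have hy : T ^ m • (δ⁻¹ • s41pdX0 Γ) = δ⁻¹ • s41pdX0 Γ := by
        rw [eq_inv_smul_iff, ← mul_smul, ← mul_smul, ← h, hγ0]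
      rw [h, hD.coc.conj_fixed δ (T ^ m) _ hy]
      exact s41pdpc_T_zpow_eq_zero hneg hD hc _ m hy
    · have hγ' : (δ * T ^ m * δ⁻¹) • s41pdX0 Γ = s41pdX0 Γ := by
        have : (γ : SL(2, ℤ)) = (-1) * (δ * T ^ m * δ⁻¹) := by rw [h, neg_one_mul]
        rw [this, mul_smul, hnegX] at hγ0
        exact hγ0
      have hy : T ^ m • (δ⁻¹ • s41pdX0 Γ) = δ⁻¹ • s41pdX0 Γ := by
        rw [eq_inv_smul_iff, ← mul_smul, ← mul_smul, hγ']
      rw [h, s16lb_coc_neg_mul hnegX hD.coc, hD.coc.conj_fixed δ (T ^ m) _ hy]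
      exact s41pdpc_T_zpow_eq_zero hneg hD hc _ m hy

end Dict

end Fermat.Agent.S41
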