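import Fermat.Agent.S41.PD.Normal
import Fermat.Agent.S41.PD.ParCrit
import Fermat.Agent.S41.PD.Form
import Fermat.Agent.S41.PD.NondegInt

/-!
# S41, package PD, row PD-BDEF: the Poincaré duality pairing on characters

`s41pdB Γ φ ψ` is computed with ANY normalised cocycles representing `φ`, `ψ` (`s41pdB_eq`); it is
bilinear and antisymmetric on parabolic characters, and nondegenerate modulo every odd prime.
-/

set_option autoImplicit false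

namespace Fermat.Agent.S41

open scoped MatrixGroups
open ModularGroup Fermat.Agent.S16LB ModularCurve.Period Matrix.SpecialLinearGroup

section Dict

variable {Γ : Subgroup SL(2, ℤ)} [Γ.FiniteIndex] (hneg : (-1 : SL(2, ℤ)) ∈ Γ)

include hneg

/-- the chosen cochain is `D₀ S` for a normalised cocycle `D₀` representing `φ`. -/
theorem s41pdbd_coch_spec (φ : Additive Γ →+ ℤ) :
    ∃ D₀, S41pdRep Γ φ D₀ ∧ s41pdCoch Γ φ = D₀ S := by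
  have h := s41pd_exists_rep hneg φ
  refine ⟨h.choose, h.choose_spec, ?_⟩
  rw [s41pdCoch, dif_pos h]

/-- the chosen cochain differs from `D S` by the coboundary of a vertex function. -/
theorem s41pdbd_coch_eq {φ : Additive Γ →+ ℤ} {D : SL(2, ℤ) → s41pdX Γ → ℤ}
    (hD : S41pdRep Γ φ D) :
    ∃ f : s41pdX Γ → ℤ, (∀ x, f (s41pdU Γ x) = f x) ∧
      D S = s41pdCoch Γ φ + s41pdD (s41pdS Γ) f := by
  obtain ⟨D₀, hD₀, hc⟩ := s41pdbd_coch_spec hneg φ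
  obtain ⟨f, hf, hfd⟩ := s41pd_rep_unique hneg hD hD₀
  refine ⟨f, hf, ?_⟩
  funext x
  have h1 := hfd S x
  rw [hc, Pi.add_apply]
  show D S x = D₀ S x + (f (S • x) - f x)
  linarith

/-- the chosen cochain of a parabolic character is closed. -/
theorem s41pdbd_coch_closed {φ : Additive Γ →+ ℤ} (hφ : IsParabolicHom Γ φ) :
    S41pdClosed (s41pdS Γ) (s41pdU Γ) (s41pdCoch Γ φ) := by
  obtain ⟨D₀, hD₀, hc⟩ := s41pdbd_coch_spec hneg φ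
  rw [hc]
  exact (s41pd_rep_parabolic_iff hneg hD₀).mp hφ

omit hneg [Γ.FiniteIndex] in
theorem s41pdbd_parabolic_add {φ ψ : Additive Γ →+ ℤ} (hφ : IsParabolicHom Γ φ)
    (hψ : IsParabolicHom Γ ψ) : IsParabolicHom Γ (φ + ψ) := by
  intro γ hγ
  rw [AddMonoidHom.add_apply, hφ γ hγ, hψ γ hγ, add_zero]

omit hneg [Γ.FiniteIndex] in
theorem s41pdbd_parabolic_zsmul (n : ℤ) {φ : Additive Γ →+ ℤ} (hφ : IsParabolicHom Γ φ) :
    IsParabolicHom Γ (n • φ) := by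
  intro γ hγ
  rw [AddMonoidHom.smul_apply, hφ γ hγ, smul_zero]

theorem s41pdB_eq {φ ψ : Additive Γ →+ ℤ} {D D' : SL(2, ℤ) → s41pdX Γ → ℤ}
    (hD : S41pdRep Γ φ D) (hD' : S41pdRep Γ ψ D')
    (hφ : IsParabolicHom Γ φ) (hψ : IsParabolicHom Γ ψ) :
    s41pdB Γ φ ψ = s41pdPair (s41pdS Γ) (s41pdU Γ) (D S) (D' S) := by
  have hs := s41pdS_invol hneg
  obtain ⟨f, hf, hfd⟩ := s41pdbd_coch_eq hneg hD
  obtain ⟨f', hf', hfd'⟩ := s41pdbd_coch_eq hneg hD'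
  have hc := s41pdbd_coch_closed hneg hφ
  have hc' := s41pdbd_coch_closed hneg hψ
  have hcl' : S41pdClosed (s41pdS Γ) (s41pdU Γ) (D' S) := (s41pd_rep_parabolic_iff hneg hD').mp hψ
  rw [hfd, s41pd_pair_add_left (s41pdS Γ) (s41pdU Γ) hs hc
      (s41pd_closed_d (s41pdS Γ) (s41pdU Γ) hs hf) hcl',
    s41pd_pair_d_left (s41pdS Γ) (s41pdU Γ) hs hf hcl', add_zero, hfd',
    s41pd_pair_add_right (s41pdS Γ) (s41pdU Γ) hs,
    s41pd_pair_d_right (s41pdS Γ) (s41pdU Γ) hs hc hf', add_zero]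
  rfl

theorem s41pdB_add_left {φ₁ φ₂ ψ : Additive Γ →+ ℤ} (h₁ : IsParabolicHom Γ φ₁)
    (h₂ : IsParabolicHom Γ φ₂) (hψ : IsParabolicHom Γ ψ) :
    s41pdB Γ (φ₁ + φ₂) ψ = s41pdB Γ φ₁ ψ + s41pdB Γ φ₂ ψ := by
  have hs := s41pdS_invol hneg
  obtain ⟨D₁, hD₁⟩ := s41pd_exists_rep hneg φ₁
  obtain ⟨D₂, hD₂⟩ := s41pd_exists_rep hneg φ₂
  obtain ⟨D', hD'⟩ := s41pd_exists_rep hneg ψ
  rw [s41pdB_eq hneg (s41pd_rep_add hneg hD₁ hD₂) hD' (s41pdbd_parabolic_add h₁ h₂) hψ,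
    s41pdB_eq hneg hD₁ hD' h₁ hψ, s41pdB_eq hneg hD₂ hD' h₂ hψ]
  exact s41pd_pair_add_left (s41pdS Γ) (s41pdU Γ) hs
    ((s41pd_rep_parabolic_iff hneg hD₁).mp h₁) ((s41pd_rep_parabolic_iff hneg hD₂).mp h₂)
    ((s41pd_rep_parabolic_iff hneg hD').mp hψ)

theorem s41pdB_add_right {φ ψ₁ ψ₂ : Additive Γ →+ ℤ} (hφ : IsParabolicHom Γ φ)
    (h₁ : IsParabolicHom Γ ψ₁) (h₂ : IsParabolicHom Γ ψ₂) :
    s41pdB Γ φ (ψ₁ + ψ₂) = s41pdB Γ φ ψ₁ + s41pdB Γ φ ψ₂ := by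
  have hs := s41pdS_invol hneg
  obtain ⟨D, hD⟩ := s41pd_exists_rep hneg φ
  obtain ⟨D₁, hD₁⟩ := s41pd_exists_rep hneg ψ₁
  obtain ⟨D₂, hD₂⟩ := s41pd_exists_rep hneg ψ₂
  rw [s41pdB_eq hneg hD (s41pd_rep_add hneg hD₁ hD₂) hφ (s41pdbd_parabolic_add h₁ h₂),
    s41pdB_eq hneg hD hD₁ hφ h₁, s41pdB_eq hneg hD hD₂ hφ h₂]
  exact s41pd_pair_add_right (s41pdS Γ) (s41pdU Γ) hs (D S) (D₁ S) (D₂ S)

theorem s41pdB_zsmul_left (n : ℤ) {φ ψ : Additive Γ →+ ℤ} (hφ : IsParabolicHom Γ φ)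
    (hψ : IsParabolicHom Γ ψ) : s41pdB Γ (n • φ) ψ = n * s41pdB Γ φ ψ := by
  have hs := s41pdS_invol hneg
  obtain ⟨D, hD⟩ := s41pd_exists_rep hneg φ
  obtain ⟨D', hD'⟩ := s41pd_exists_rep hneg ψ
  rw [s41pdB_eq hneg (s41pd_rep_zsmul hneg n hD) hD' (s41pdbd_parabolic_zsmul n hφ) hψ,
    s41pdB_eq hneg hD hD' hφ hψ]
  exact s41pd_pair_smul_left (s41pdS Γ) (s41pdU Γ) hs n
    ((s41pd_rep_parabolic_iff hneg hD).mp hφ) ((s41pd_rep_parabolic_iff hneg hD').mp hψ)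

theorem s41pdB_zsmul_right (n : ℤ) {φ ψ : Additive Γ →+ ℤ} (hφ : IsParabolicHom Γ φ)
    (hψ : IsParabolicHom Γ ψ) : s41pdB Γ φ (n • ψ) = n * s41pdB Γ φ ψ := by
  have hs := s41pdS_invol hneg
  obtain ⟨D, hD⟩ := s41pd_exists_rep hneg φ
  obtain ⟨D', hD'⟩ := s41pd_exists_rep hneg ψ
  rw [s41pdB_eq hneg hD (s41pd_rep_zsmul hneg n hD') hφ (s41pdbd_parabolic_zsmul n hψ),
    s41pdB_eq hneg hD hD' hφ hψ]
  exact s41pd_pair_smul_right (s41pdS Γ) (s41pdU Γ) hs n (D S) (D' S)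

theorem s41pdB_antisymm {φ ψ : Additive Γ →+ ℤ} (hφ : IsParabolicHom Γ φ)
    (hψ : IsParabolicHom Γ ψ) : s41pdB Γ φ ψ = - s41pdB Γ ψ φ := by
  have hs := s41pdS_invol hneg
  obtain ⟨D, hD⟩ := s41pd_exists_rep hneg φ
  obtain ⟨D', hD'⟩ := s41pd_exists_rep hneg ψ
  rw [s41pdB_eq hneg hD hD' hφ hψ, s41pdB_eq hneg hD' hD hψ hφ]
  exact s41pd_pair_antisymm (s41pdS Γ) (s41pdU Γ) hs
    ((s41pd_rep_parabolic_iff hneg hD).mp hφ) ((s41pd_rep_parabolic_iff hneg hD').mp hψ)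

omit hneg [Γ.FiniteIndex] in
/-- the ribbon graph is connected: `⟨S, U⟩` acts transitively on `SL(2,ℤ) ⧸ Γ`. -/
theorem s41pdbd_transitive (x y : s41pdX Γ) :
    ∃ g ∈ Subgroup.closure ({s41pdS Γ, s41pdU Γ} : Set (Equiv.Perm (s41pdX Γ))), g x = y := by
  obtain ⟨gx, rfl⟩ := s41pd_exists_smul x
  obtain ⟨gy, rfl⟩ := s41pd_exists_smul y
  refine ⟨MulAction.toPermHom SL(2, ℤ) (s41pdX Γ) (gy * gx⁻¹), ?_, ?_⟩
  · have h1 : gy * gx⁻¹ ∈ Subgroup.closure ({S, s16lbU} : Set SL(2, ℤ)) := by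
      rw [s16lb_closure_S_U]
      exact Subgroup.mem_top _
    have h2 := Subgroup.mem_map_of_mem (MulAction.toPermHom SL(2, ℤ) (s41pdX Γ)) h1
    rw [MonoidHom.map_closure] at h2
    have h3 : (MulAction.toPermHom SL(2, ℤ) (s41pdX Γ)) '' ({S, s16lbU} : Set SL(2, ℤ))
        = ({s41pdS Γ, s41pdU Γ} : Set (Equiv.Perm (s41pdX Γ))) := by
      rw [Set.image_pair]
      rfl
    rw [h3] at h2
    exact h2
  · show (gy * gx⁻¹) • gx • s41pdX0 Γ = gy • s41pdX0 Γ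
    rw [← mul_smul, inv_mul_cancel_right]

/-- **Nondegeneracy modulo an odd prime.** -/
theorem s41pd_nondeg (p : ℕ) (hp : p.Prime) (hp2 : p ≠ 2) {φ : Additive Γ →+ ℤ}
    (hφ : IsParabolicHom Γ φ)
    (h : ∀ ψ : Additive Γ →+ ℤ, IsParabolicHom Γ ψ → (p : ℤ) ∣ s41pdB Γ φ ψ) :
    ∃ φ' : Additive Γ →+ ℤ, IsParabolicHom Γ φ' ∧ φ = (p : ℤ) • φ' := by
  have hs := s41pdS_invol hneg
  obtain ⟨D, hD⟩ := s41pd_exists_rep hneg φ
  have hcl : S41pdClosed (s41pdS Γ) (s41pdU Γ) (D S) := (s41pd_rep_parabolic_iff hneg hD).mp hφ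
  have hdvd : ∀ a' : s41pdX Γ → ℤ, S41pdClosed (s41pdS Γ) (s41pdU Γ) a' →
      (p : ℤ) ∣ s41pdPair (s41pdS Γ) (s41pdU Γ) (D S) a' := by
    intro a' ha'
    obtain ⟨ψ, D', hD', hDa'⟩ := s41pd_exists_rep_of_anti hneg ha'.1
    have hψ : IsParabolicHom Γ ψ := by
      rw [s41pd_rep_parabolic_iff hneg hD', hDa']
      exact ha'
    have h1 := h ψ hψ
    rw [s41pdB_eq hneg hD hD' hφ hψ, hDa'] at h1
    exact h1
  obtain ⟨f, a₁, hf, ha₁, hsum⟩ := s41pd_nondeg_int p hp hp2 (s41pdS Γ) (s41pdU Γ) hs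
    s41pdbd_transitive hcl hdvd
  obtain ⟨φ₁, D₁, hD₁, hDa₁⟩ := s41pd_exists_rep_of_anti hneg ha₁.1
  have hφ₁ : IsParabolicHom Γ φ₁ := by
    rw [s41pd_rep_parabolic_iff hneg hD₁, hDa₁]
    exact ha₁
  refine ⟨φ₁, hφ₁, ?_⟩
  -- the normalised cocycle `d f + p D₁`
  have hE : S41pdRep Γ ((p : ℤ) • φ₁)
      (fun g x => (f (g • x) - f x) + (p : ℤ) * D₁ g x) := by
    refine ⟨?_, ?_, ?_⟩
    · intro g k x
      show (f ((g * k) • x) - f x) + (p : ℤ) * D₁ (g * k) x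
        = ((f (k • x) - f x) + (p : ℤ) * D₁ k x)
          + ((f (g • k • x) - f (k • x)) + (p : ℤ) * D₁ g (k • x))
      rw [hD₁.coc g k x, mul_smul]
      ring
    · intro x
      show (f (s16lbU • x) - f x) + (p : ℤ) * D₁ s16lbU x = 0
      have h1 : f (s16lbU • x) = f x := hf x
      rw [h1, hD₁.normal x]
      ring
    · intro γ
      show (f ((γ : SL(2, ℤ)) • s41pdX0 Γ) - f (s41pdX0 Γ)) + (p : ℤ) * D₁ (γ : SL(2, ℤ)) (s41pdX0 Γ)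
        = ((p : ℤ) • φ₁) (Additive.ofMul γ)
      rw [(s41pd_mem_iff (γ : SL(2, ℤ))).mp γ.2, hD₁.rep γ, AddMonoidHom.smul_apply, smul_eq_mul]
      ring
  have hES : D S = (fun g x => (f (g • x) - f x) + (p : ℤ) * D₁ g x) S := by
    rw [hsum]
    funext x
    show s41pdD (s41pdS Γ) f x + ((p : ℤ) • a₁) x = (f (S • x) - f x) + (p : ℤ) * D₁ S x
    rw [hDa₁, Pi.smul_apply, smul_eq_mul]
    rfl
  exact (s41pd_rep_ext hneg hD hE hES).2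

end Dict

end Fermat.Agent.S41
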