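import Fermat.Agent.S41.PD.GDefs

/-!
# S41, package PD, row PD-HEVAL: values of a group-valued cocycle on powers of `T` and on
conjugates

For `Θ : SL(2,ℤ) → X → H` with `Θ (g h) x = Θ g (h x) * Θ h x` and `Θ U = 1` (`U = S T`):
`Θ (T ^ k) y` is the ordered product of the `(Θ S (T ^ (i+1) y))⁻¹`, `i < k`.
Private helpers are prefixed `s41pdhe_`.
-/

set_option autoImplicit false

namespace Fermat.Agent.S41

open scoped MatrixGroups
open ModularGroup Fermat.Agent.S16LB ModularCurve.Period Matrix.SpecialLinearGroup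

/-- the product `θ (k-1) * ... * θ 1 * θ 0` in a group. -/
def s41pdProd {H : Type*} [Group H] (θ : ℕ → H) : ℕ → H
  | 0 => 1
  | k + 1 => θ k * s41pdProd θ k

theorem s41pdhe_one {G X : Type*} [Group G] [MulAction G X] {H : Type*} [Group H]
    {Θ : G → X → H} (hΘ : ∀ g h x, Θ (g * h) x = Θ g (h • x) * Θ h x) (x : X) : Θ 1 x = 1 := by
  have h := hΘ 1 1 x
  rw [mul_one, one_smul] at h
  exact (mul_eq_left.mp h.symm)

theorem s41pdhe_inv {G X : Type*} [Group G] [MulAction G X] {H : Type*} [Group H]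
    {Θ : G → X → H} (hΘ : ∀ g h x, Θ (g * h) x = Θ g (h • x) * Θ h x) (g : G) (x : X) :
    Θ g⁻¹ x = (Θ g (g⁻¹ • x))⁻¹ := by
  have h := hΘ g g⁻¹ x
  rw [mul_inv_cancel, s41pdhe_one hΘ] at h
  exact eq_inv_of_mul_eq_one_right h.symm

theorem s41pdhe_T {X : Type*} [MulAction SL(2, ℤ) X] {H : Type*} [Group H]
    {Θ : SL(2, ℤ) → X → H} (hΘ : ∀ g h x, Θ (g * h) x = Θ g (h • x) * Θ h x)
    (hU : ∀ x, Θ s16lbU x = 1) (x : X) : Θ T x = (Θ S (T • x))⁻¹ := by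
  have hT : T = S⁻¹ * s16lbU := by unfold s16lbU; rw [inv_mul_cancel_left]
  have h := hΘ S⁻¹ s16lbU x
  rw [← hT, hU, mul_one, s41pdhe_inv hΘ, ← mul_smul, ← hT] at h
  exact h

theorem s41pd_coc_T_pow {X : Type*} [MulAction SL(2, ℤ) X] {H : Type*} [Group H]
    {Θ : SL(2, ℤ) → X → H} (hΘ : ∀ g h x, Θ (g * h) x = Θ g (h • x) * Θ h x)
    (hU : ∀ x, Θ s16lbU x = 1) (y : X) (k : ℕ) :
    Θ (T ^ k) y = s41pdProd (fun i => (Θ S (T ^ (i + 1) • y))⁻¹) k := by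
  induction k with
  | zero => rw [pow_zero, s41pdhe_one hΘ]; rfl
  | succ k ih =>
    rw [pow_succ', hΘ, ih, s41pdhe_T hΘ hU, ← mul_smul, ← pow_succ']
    rfl

/-- value of a group-valued cocycle on a conjugate of an element fixing `δ⁻¹ x`. -/
theorem s41pd_coc_conj {G X : Type*} [Group G] [MulAction G X] {H : Type*} [Group H]
    {Θ : G → X → H} (hΘ : ∀ g h x, Θ (g * h) x = Θ g (h • x) * Θ h x)
    (δ g : G) (x : X) (hg : g • (δ⁻¹ • x) = δ⁻¹ • x) :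
    Θ (δ * g * δ⁻¹) x = Θ δ (δ⁻¹ • x) * Θ g (δ⁻¹ • x) * (Θ δ (δ⁻¹ • x))⁻¹ := by
  rw [hΘ (δ * g) δ⁻¹ x, hΘ δ g (δ⁻¹ • x), hg, s41pdhe_inv hΘ]

end Fermat.Agent.S41
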