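import Fermat.Agent.S41.PD.Defs

/-!
# S41, package PD, row PD-HPROD: ordered products in the Heisenberg group

`s41pdHeisProd θ k = θ (k-1) * ... * θ 1 * θ 0`; its three coordinates.
-/

set_option autoImplicit false

namespace Fermat.Agent.S41

/-- the product `θ (k-1) * ... * θ 1 * θ 0`. -/
def s41pdHeisProd {R : Type*} [CommRing R] (θ : ℕ → S41pdHeis R) : ℕ → S41pdHeis R
  | 0 => 1
  | k + 1 => θ k * s41pdHeisProd θ k

theorem s41pd_heisProd_a {R : Type*} [CommRing R] (θ : ℕ → S41pdHeis R) (k : ℕ) :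
    (s41pdHeisProd θ k).a = ∑ i ∈ Finset.range k, (θ i).a := by
  induction k with
  | zero => simp [s41pdHeisProd]
  | succ k ih =>
    rw [s41pdHeisProd, S41pdHeis.mul_a, ih, Finset.sum_range_succ, add_comm]

theorem s41pd_heisProd_b {R : Type*} [CommRing R] (θ : ℕ → S41pdHeis R) (k : ℕ) :
    (s41pdHeisProd θ k).b = ∑ i ∈ Finset.range k, (θ i).b := by
  induction k with
  | zero => simp [s41pdHeisProd]
  | succ k ih =>
    rw [s41pdHeisProd, S41pdHeis.mul_b, ih, Finset.sum_range_succ, add_comm]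

theorem s41pd_heisProd_c {R : Type*} [CommRing R] (θ : ℕ → S41pdHeis R) (k : ℕ) :
    (s41pdHeisProd θ k).c
      = ∑ i ∈ Finset.range k, ((θ i).c + (θ i).a * ∑ j ∈ Finset.range i, (θ j).b) := by
  induction k with
  | zero => simp [s41pdHeisProd]
  | succ k ih =>
    rw [s41pdHeisProd, S41pdHeis.mul_c, ih, s41pd_heisProd_b, Finset.sum_range_succ]
    ring

end Fermat.Agent.S41
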