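import Fermat.Agent.S41.PD.GDefs
import Fermat.Agent.S41.PD.Pot

/-!
# S41, package PD, row PD-NORMAL: normalised Shapiro cocycles

`S41pdRep Γ φ D` : `D` is an integral cocycle of `SL(2,ℤ)` on `X = SL(2,ℤ)/Γ` with `D U = 0`
representing the character `φ` of `Γ`.  Existence, uniqueness up to vertex functions, the
dictionary with antisymmetric cochains, linearity, and the value on `T`.
-/

set_option autoImplicit false
set_option linter.unusedSectionVars false

namespace Fermat.Agent.S41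

open scoped MatrixGroups
open ModularGroup Fermat.Agent.S16LB ModularCurve.Period Matrix.SpecialLinearGroup

section Aux

variable {X : Type*} [MulAction SL(2, ℤ) X] (hneg : ∀ x : X, (-1 : SL(2, ℤ)) • x = x)
  {D : SL(2, ℤ) → X → ℤ} (hD : S16lbIsCoc D)

include hneg hD

theorem s41pdn_coc_neg_one (x : X) : D (-1) x = 0 := by
  have h := hD (-1) (-1) x
  rw [neg_mul_neg, one_mul, hD.one, hneg] at h
  omega

theorem s41pdn_coc_S_add (x : X) : D S x + D S (S • x) = 0 := by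
  have h := hD S S x
  rw [s16lb_S_mul_S, s41pdn_coc_neg_one hneg hD] at h
  exact h.symm

theorem s41pdn_coc_U_add (x : X) :
    D s16lbU x + D s16lbU (s16lbU • x) + D s16lbU (s16lbU • s16lbU • x) = 0 := by
  have h := hD (s16lbU * s16lbU) s16lbU x
  rw [s16lb_U_cube, s41pdn_coc_neg_one hneg hD, hD] at h
  rw [h]; ring

end Aux

section Dict

variable {Γ : Subgroup SL(2, ℤ)} [Γ.FiniteIndex] (hneg : (-1 : SL(2, ℤ)) ∈ Γ)

include hneg

theorem s41pd_exists_rep (φ : Additive Γ →+ ℤ) : ∃ D, S41pdRep Γ φ D := by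
  classical
  choose sec hsec using (s41pd_exists_smul (Γ := Γ))
  have hH : ∀ g : SL(2, ℤ), g ∈ Γ ↔ g • s41pdX0 Γ = s41pdX0 Γ := fun g => s41pd_mem_iff g
  have hneg' : ∀ x : s41pdX Γ, (-1 : SL(2, ℤ)) • x = x := s41pd_neg_smul hneg
  set D0 : SL(2, ℤ) → s41pdX Γ → ℤ := s16lbInd Γ (s41pdX0 Γ) hH sec hsec φ with hD0
  have hcoc0 : S16lbIsCoc D0 := s16lbInd_isCoc Γ (s41pdX0 Γ) hH sec hsec φ
  have hU3 := s41pdn_coc_U_add hneg' hcoc0
  -- `D0 U` is orthogonal to the `U`-invariant functions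
  have horth : ∀ h : s41pdX Γ → ℤ, (∀ x, h (s41pdU Γ x) = h x) →
      ∑ x, h x * D0 s16lbU x = 0 := by
    intro h hh
    have hh' : ∀ x, h (s16lbU • x) = h x := hh
    have h1 : ∑ x, h x * D0 s16lbU (s16lbU • x) = ∑ x, h x * D0 s16lbU x := by
      have := Equiv.sum_comp (s41pdU Γ) (fun x => h x * D0 s16lbU x)
      rw [← this]
      refine Finset.sum_congr rfl fun x _ => ?_
      rw [s41pdU_apply, hh' x]
    have h2 : ∑ x, h x * D0 s16lbU (s16lbU • s16lbU • x) = ∑ x, h x * D0 s16lbU x := by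
      rw [← h1]
      have := Equiv.sum_comp (s41pdU Γ) (fun x => h x * D0 s16lbU (s16lbU • x))
      rw [← this]
      refine Finset.sum_congr rfl fun x _ => ?_
      rw [s41pdU_apply, hh' x]
    have h3 : ∑ x, h x * (D0 s16lbU x + D0 s16lbU (s16lbU • x)
        + D0 s16lbU (s16lbU • s16lbU • x)) = 0 :=
      Finset.sum_eq_zero fun x _ => by rw [hU3 x, mul_zero]
    simp only [mul_add, Finset.sum_add_distrib, h1, h2] at h3
    omega
  obtain ⟨f, hf⟩ := s41pd_exists_pot (s41pdU Γ) (D0 s16lbU) horth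
  have hf' : ∀ x, f (s16lbU • x) - f x = D0 s16lbU x := hf
  refine ⟨fun g x => D0 g x - (f (g • x) - f x), ?_, ?_, ?_⟩
  · intro g h x
    show D0 (g * h) x - (f ((g * h) • x) - f x)
      = (D0 h x - (f (h • x) - f x)) + (D0 g (h • x) - (f (g • h • x) - f (h • x)))
    rw [hcoc0 g h x, mul_smul]
    ring
  · intro x
    show D0 s16lbU x - (f (s16lbU • x) - f x) = 0
    rw [hf' x, sub_self]
  · intro γ
    show D0 (γ : SL(2, ℤ)) (s41pdX0 Γ) - (f ((γ : SL(2, ℤ)) • s41pdX0 Γ) - f (s41pdX0 Γ)) = _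
    rw [(hH _).1 γ.2, sub_self, sub_zero, hD0, s16lbInd_base]

theorem s41pd_rep_unique {φ : Additive Γ →+ ℤ} {D D' : SL(2, ℤ) → s41pdX Γ → ℤ}
    (hD : S41pdRep Γ φ D) (hD' : S41pdRep Γ φ D') :
    ∃ f : s41pdX Γ → ℤ, (∀ x, f (s16lbU • x) = f x) ∧
      ∀ g x, D g x - D' g x = f (g • x) - f x := by
  classical
  choose sec hsec using (s41pd_exists_smul (Γ := Γ))
  set E : SL(2, ℤ) → s41pdX Γ → ℤ := fun g x => D g x - D' g x with hE
  have hEc : S16lbIsCoc E := by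
    intro g h x
    show D (g * h) x - D' (g * h) x = (D h x - D' h x) + (D g (h • x) - D' g (h • x))
    rw [hD.coc g h x, hD'.coc g h x]; ring
  have hEΓ : ∀ γ ∈ Γ, E γ (s41pdX0 Γ) = 0 := by
    intro γ hγ
    show D γ (s41pdX0 Γ) - D' γ (s41pdX0 Γ) = 0
    rw [hD.rep ⟨γ, hγ⟩, hD'.rep ⟨γ, hγ⟩, sub_self]
  have hEU : ∀ x, E s16lbU x = 0 := by
    intro x
    show D s16lbU x - D' s16lbU x = 0
    rw [hD.normal, hD'.normal, sub_self]
  -- the value at the base point only depends on the image of the base point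
  have key : ∀ (g : SL(2, ℤ)) (x : s41pdX Γ), g • s41pdX0 Γ = x →
      E g (s41pdX0 Γ) = E (sec x) (s41pdX0 Γ) := by
    intro g x hg
    have hmem : (sec x)⁻¹ * g ∈ Γ := by
      rw [s41pd_mem_iff, mul_smul, hg, inv_smul_eq_iff, hsec]
    have h1 := hEc (sec x) ((sec x)⁻¹ * g) (s41pdX0 Γ)
    rw [mul_inv_cancel_left, hEΓ _ hmem, zero_add, (s41pd_mem_iff _).1 hmem] at h1
    exact h1
  refine ⟨fun x => E (sec x) (s41pdX0 Γ), ?_, ?_⟩
  · intro x
    show E (sec (s16lbU • x)) (s41pdX0 Γ) = E (sec x) (s41pdX0 Γ)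
    have h1 := hEc s16lbU (sec x) (s41pdX0 Γ)
    rw [hsec, hEU, add_zero] at h1
    rw [← h1]
    exact (key (s16lbU * sec x) (s16lbU • x) (by rw [mul_smul, hsec])).symm
  · intro g x
    show E g x = E (sec (g • x)) (s41pdX0 Γ) - E (sec x) (s41pdX0 Γ)
    have h1 := hEc g (sec x) (s41pdX0 Γ)
    rw [hsec] at h1
    have h2 := key (g * sec x) (g • x) (by rw [mul_smul, hsec])
    rw [← h2, h1]; ring

theorem s41pd_exists_rep_of_anti {a : s41pdX Γ → ℤ} (ha : S41pdAnti (s41pdS Γ) a) :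
    ∃ (φ : Additive Γ →+ ℤ) (D : SL(2, ℤ) → s41pdX Γ → ℤ), S41pdRep Γ φ D ∧ D S = a := by
  have hneg' : ∀ x : s41pdX Γ, (-1 : SL(2, ℤ)) • x = x := s41pd_neg_smul hneg
  obtain ⟨d, hd, hdS, hdU⟩ := s16lb_exists_cocycle hneg' a (fun _ => (0 : ℤ))
    (fun x => by
      have := ha x
      rw [s41pdS_apply] at this
      rw [this, add_neg_cancel])
    (fun x => by simp)
  have hd' : S16lbIsCoc d := hd
  refine ⟨hd'.toHom Γ (s41pdX0 Γ) (fun g hg => (s41pd_mem_iff g).1 hg), d, ⟨hd', ?_, ?_⟩, hdS⟩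
  · intro x
    rw [hdU]
  · intro γ
    rfl

theorem s41pd_rep_anti {φ : Additive Γ →+ ℤ} {D : SL(2, ℤ) → s41pdX Γ → ℤ}
    (hD : S41pdRep Γ φ D) : S41pdAnti (s41pdS Γ) (D S) := by
  intro x
  have := s41pdn_coc_S_add (s41pd_neg_smul hneg) hD.coc x
  rw [s41pdS_apply]
  omega

theorem s41pd_rep_add {φ ψ : Additive Γ →+ ℤ} {D D' : SL(2, ℤ) → s41pdX Γ → ℤ}
    (hD : S41pdRep Γ φ D) (hD' : S41pdRep Γ ψ D') :
    S41pdRep Γ (φ + ψ) (fun g x => D g x + D' g x) := by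
  refine ⟨hD.coc.add hD'.coc, ?_, ?_⟩
  · intro x
    show D s16lbU x + D' s16lbU x = 0
    rw [hD.normal, hD'.normal, add_zero]
  · intro γ
    show D γ (s41pdX0 Γ) + D' γ (s41pdX0 Γ) = (φ + ψ) (Additive.ofMul γ)
    rw [hD.rep, hD'.rep, AddMonoidHom.add_apply]

theorem s41pd_rep_zsmul (n : ℤ) {φ : Additive Γ →+ ℤ} {D : SL(2, ℤ) → s41pdX Γ → ℤ}
    (hD : S41pdRep Γ φ D) : S41pdRep Γ (n • φ) (fun g x => n * D g x) := by
  refine ⟨?_, ?_, ?_⟩
  · intro g h x
    show n * D (g * h) x = n * D h x + n * D g (h • x)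
    rw [hD.coc g h x, mul_add]
  · intro x
    show n * D s16lbU x = 0
    rw [hD.normal, mul_zero]
  · intro γ
    show n * D γ (s41pdX0 Γ) = (n • φ) (Additive.ofMul γ)
    rw [hD.rep, AddMonoidHom.smul_apply, smul_eq_mul]

/-- a normalised cocycle is determined by its value on `S`. -/
theorem s41pd_rep_ext {φ ψ : Additive Γ →+ ℤ} {D D' : SL(2, ℤ) → s41pdX Γ → ℤ}
    (hD : S41pdRep Γ φ D) (hD' : S41pdRep Γ ψ D') (h : D S = D' S) : D = D' ∧ φ = ψ := by
  have hDD : D = D' := by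
    refine hD.coc.ext_of_closure hD'.coc s16lb_closure_S_U ?_
    rintro g (rfl | rfl)
    · exact h
    · funext x
      rw [hD.normal, hD'.normal]
  refine ⟨hDD, ?_⟩
  ext γ
  have h1 := hD.rep (Additive.toMul γ)
  have h2 := hD'.rep (Additive.toMul γ)
  rw [hDD, h2] at h1
  exact h1.symm

/-- the value of a normalised cocycle on `T`. -/
theorem s41pd_rep_T {φ : Additive Γ →+ ℤ} {D : SL(2, ℤ) → s41pdX Γ → ℤ}
    (hD : S41pdRep Γ φ D) (x : s41pdX Γ) : D T x = D S (s16lbU • x) := by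
  have h1 := hD.coc S T x
  have h2 : D (S * T) x = 0 := hD.normal x
  have h3 := s41pdn_coc_S_add (s41pd_neg_smul hneg) hD.coc (T • x)
  have h4 : S • T • x = s16lbU • x := by
    rw [← mul_smul]; rfl
  rw [h4] at h3
  rw [h2] at h1
  omega

end Dict

end Fermat.Agent.S41
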