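import Fermat.Agent.S41.PD.GDefs

/-!
# S41, package PD, row PD-SUMT: the total residue of a rational cocycle vanishes

Rational version of `s16lb_coc_sum_T` (`S16/LB/ParCrit.lean`).
-/

set_option autoImplicit false

namespace Fermat.Agent.S41

open scoped MatrixGroups
open ModularGroup Fermat.Agent.S16LB

section General

variable {X : Type*} [MulAction SL(2, ℤ) X] (hneg : ∀ x : X, (-1 : SL(2, ℤ)) • x = x)
  {D : SL(2, ℤ) → X → ℚ} (hD : S16lbIsCoc D)

include hneg hD

theorem s41pdst_coc_neg_one (x : X) : D (-1) x = 0 := by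
  have h := hD (-1) (-1) x
  rw [neg_mul_neg, one_mul, hD.one, hneg] at h
  linarith

theorem s41pdst_coc_S_add (x : X) : D S x + D S (S • x) = 0 := by
  have h := hD S S x
  rw [s16lb_S_mul_S, s41pdst_coc_neg_one hneg hD] at h
  exact h.symm

theorem s41pdst_coc_U_add (x : X) :
    D s16lbU x + D s16lbU (s16lbU • x) + D s16lbU (s16lbU • s16lbU • x) = 0 := by
  have h := hD (s16lbU * s16lbU) s16lbU x
  rw [s16lb_U_cube, s41pdst_coc_neg_one hneg hD, hD] at h
  rw [h]; ring

theorem s41pdst_coc_sum_S [Fintype X] : ∑ x, D S x = 0 := by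
  have h1 : ∑ x, D S (S • x) = ∑ x, D S x :=
    Equiv.sum_comp (MulAction.toPerm S) (fun x => D S x)
  have h2 : ∑ x, (D S x + D S (S • x)) = 0 :=
    Finset.sum_eq_zero fun x _ => s41pdst_coc_S_add hneg hD x
  rw [Finset.sum_add_distrib, h1] at h2
  linarith

theorem s41pdst_coc_sum_U [Fintype X] : ∑ x, D s16lbU x = 0 := by
  have h1 : ∑ x, D s16lbU (s16lbU • x) = ∑ x, D s16lbU x :=
    Equiv.sum_comp (MulAction.toPerm s16lbU) (fun x => D s16lbU x)
  have h1' : ∑ x, D s16lbU (s16lbU • s16lbU • x) = ∑ x, D s16lbU x := by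
    rw [← h1]
    exact Equiv.sum_comp (MulAction.toPerm s16lbU) (fun x => D s16lbU (s16lbU • x))
  have h2 : ∑ x, (D s16lbU x + D s16lbU (s16lbU • x) + D s16lbU (s16lbU • s16lbU • x)) = 0 :=
    Finset.sum_eq_zero fun x _ => s41pdst_coc_U_add hneg hD x
  rw [Finset.sum_add_distrib, Finset.sum_add_distrib, h1, h1'] at h2
  linarith

end General

/-- the total residue of a rational cocycle vanishes. -/
theorem s41pd_sum_T_eq_zero {X : Type*} [MulAction SL(2, ℤ) X] [Fintype X]
    (hneg : ∀ x : X, (-1 : SL(2, ℤ)) • x = x) {D : SL(2, ℤ) → X → ℚ} (hD : S16lbIsCoc D) :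
    ∑ x, D T x = 0 := by
  have h : ∀ x, D T x = D s16lbU x - D S (T • x) := by
    intro x
    have := hD S T x
    show D T x = D (S * T) x - D S (T • x)
    rw [this]; ring
  have h1 : ∑ x, D S (T • x) = ∑ x, D S x :=
    Equiv.sum_comp (MulAction.toPerm T) (fun x => D S x)
  simp only [h, Finset.sum_sub_distrib]
  rw [h1, s41pdst_coc_sum_S hneg hD, s41pdst_coc_sum_U hneg hD, sub_zero]

end Fermat.Agent.S41
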