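import Fermat.Agent.S41.PD.HeisExt
import Fermat.Agent.S41.PD.HeisEval
import Fermat.Agent.S41.PD.HeisProd
import Fermat.Agent.S41.PD.SumT
import Fermat.Agent.S41.PD.Normal
import Fermat.Agent.S41.PD.ParCrit

/-!
# S41, package PD, row PD-MLIFT: the Heisenberg lift coming from the model

* `s41pd_heisLift_conj`   : a Heisenberg lift is conjugation invariant on parabolic elements;
* `s41pd_model_lift`      : the Heisenberg lift built from the `S41pdHeis ℚ`-valued cocycle with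
  `Θ S x = (a x, a' x, a x a' x / 2)`, `Θ U = 1`, and its values on conjugates of powers of `T`;
* `s41pd_exists_heisLift` : existence of a Heisenberg lift;
* `s41pd_periph_char_sum` : the peripheral sum of a rational character vanishes.
-/

set_option autoImplicit false

namespace Fermat.Agent.S41

open scoped MatrixGroups
open ModularGroup Fermat.Agent.S16LB ModularCurve.Period Matrix.SpecialLinearGroup

/-! ### private helpers -/

theorem s41pdml_prod_eq {R : Type*} [CommRing R] (θ : ℕ → S41pdHeis R) (k : ℕ) :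
    s41pdProd θ k = s41pdHeisProd θ k := by
  induction k with
  | zero => rfl
  | succ k ih =>
    show θ k * s41pdProd θ k = θ k * s41pdHeisProd θ k
    rw [ih]

/-- conjugating an element with vanishing `a`, `b` components does not change the `c` component. -/
theorem s41pdml_conj_c {R : Type*} [CommRing R] (A P : S41pdHeis R) (ha : P.a = 0)
    (hb : P.b = 0) : (A * P * A⁻¹).c = P.c := by
  simp only [S41pdHeis.mul_c, S41pdHeis.mul_a, S41pdHeis.inv_c, S41pdHeis.inv_b, ha, hb]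
  ring

theorem s41pdml_trace_conj (ρ g : SL(2, ℤ)) :
    ((ρ * g * ρ⁻¹ : SL(2, ℤ)) : Matrix (Fin 2) (Fin 2) ℤ).trace
      = (g : Matrix (Fin 2) (Fin 2) ℤ).trace := by
  rw [Matrix.SpecialLinearGroup.coe_mul, Matrix.SpecialLinearGroup.coe_mul,
    Matrix.trace_mul_cycle, ← Matrix.SpecialLinearGroup.coe_mul,
    ← Matrix.SpecialLinearGroup.coe_mul, inv_mul_cancel, one_mul]

theorem s41pdml_trace_T_pow (w : ℕ) :
    ((T ^ w : SL(2, ℤ)) : Matrix (Fin 2) (Fin 2) ℤ).trace = 2 := by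
  have h := ModularGroup.coe_T_zpow (w : ℤ)
  rw [zpow_natCast] at h
  rw [Matrix.trace_fin_two]
  show (T ^ w).1 0 0 + (T ^ w).1 1 1 = 2
  rw [h]
  simp

theorem s41pdml_trace_sq (ρ : SL(2, ℤ)) (w : ℕ) :
    ((ρ * T ^ w * ρ⁻¹ : SL(2, ℤ)) : Matrix (Fin 2) (Fin 2) ℤ).trace ^ 2 = 4 := by
  rw [s41pdml_trace_conj, s41pdml_trace_T_pow]
  norm_num

section Intr

variable {Γ : Subgroup SL(2, ℤ)} [Γ.FiniteIndex] (hneg : (-1 : SL(2, ℤ)) ∈ Γ)

include hneg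

/-- a Heisenberg lift is conjugation invariant on parabolic elements. -/
theorem s41pd_heisLift_conj {φ ψ : Additive Γ →+ ℤ} (hφ : IsParabolicHom Γ φ)
    (hψ : IsParabolicHom Γ ψ) {η : Γ → ℚ} (hη : S41pdHeisLift Γ φ ψ η) (p γ : Γ)
    (hp : ((p : SL(2, ℤ)) : Matrix (Fin 2) (Fin 2) ℤ).trace ^ 2 = 4) :
    η (γ * p * γ⁻¹) = η p := by
  have h1 : η 1 = 0 := by
    have := hη 1 1
    rw [mul_one, ofMul_one, map_zero, map_zero] at this
    simp only [Int.cast_zero, mul_zero, add_zero] at this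
    linarith
  have h2 := hη γ γ⁻¹
  rw [mul_inv_cancel, h1, ofMul_inv, map_neg] at h2
  have h3 := hη (γ * p) γ⁻¹
  have h4 := hη γ p
  rw [h4, ofMul_mul, map_add, hφ p hp, hψ p hp, ofMul_inv, map_neg] at h3
  rw [h3]
  push_cast at h2 ⊢
  linarith

/-- the core of `s41pd_model_lift`, with the antisymmetry of `Dφ S`, `Dψ S` as hypotheses
(no black box used). -/
theorem s41pdml_model_lift_aux {φ ψ : Additive Γ →+ ℤ} (hφ : IsParabolicHom Γ φ)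
    (hψ : IsParabolicHom Γ ψ) {Dφ Dψ : SL(2, ℤ) → s41pdX Γ → ℤ} (hDφ : S41pdRep Γ φ Dφ)
    (hDψ : S41pdRep Γ ψ Dψ) (hantiφ : S41pdAnti (s41pdS Γ) (Dφ S))
    (hantiψ : S41pdAnti (s41pdS Γ) (Dψ S)) {c' : s41pdX Γ → ℤ}
    (hc' : S41pdPot (s41pdS Γ) (s41pdU Γ) c' (Dψ S)) :
    ∃ η : Γ → ℚ, S41pdHeisLift Γ φ ψ η ∧
      ∀ (ρ : SL(2, ℤ)) (y : s41pdX Γ) (w : ℕ) (_ : T ^ w • y = y) (_ : ρ • y = s41pdX0 Γ)
        (hmem : ρ * T ^ w * ρ⁻¹ ∈ Γ),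
        η ⟨ρ * T ^ w * ρ⁻¹, hmem⟩ = ∑ i ∈ Finset.range w,
          ((Dφ S (s16lbU • T ^ i • y) : ℚ) * (Dψ S (s16lbU • T ^ i • y) : ℚ) / 2
            + (Dφ S (s16lbU • T ^ i • y) : ℚ) * (c' (s16lbU • T ^ i • y) : ℚ)) := by
  classical
  have hneg' : ∀ x : s41pdX Γ, (-1 : SL(2, ℤ)) • x = x := s41pd_neg_smul hneg
  have haS : ∀ x, Dφ S (S • x) = - Dφ S x := hantiφ
  have ha'S : ∀ x, Dψ S (S • x) = - Dψ S x := hantiψ
  -- the generator data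
  let dS : s41pdX Γ → S41pdHeis ℚ := fun x =>
    ⟨(Dφ S x : ℚ), (Dψ S x : ℚ), (Dφ S x : ℚ) * (Dψ S x : ℚ) / 2⟩
  have hS : ∀ x, dS (S • x) * dS x = 1 := by
    intro x
    ext
    · show ((Dφ S (S • x) : ℤ) : ℚ) + (Dφ S x : ℚ) = 0
      rw [haS]; push_cast; ring
    · show ((Dψ S (S • x) : ℤ) : ℚ) + (Dψ S x : ℚ) = 0
      rw [ha'S]; push_cast; ring
    · show ((Dφ S (S • x) : ℤ) : ℚ) * ((Dψ S (S • x) : ℤ) : ℚ) / 2
        + (Dφ S x : ℚ) * (Dψ S x : ℚ) / 2 + ((Dφ S (S • x) : ℤ) : ℚ) * (Dψ S x : ℚ) = 0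
      rw [haS, ha'S]; push_cast; ring
  obtain ⟨Θ, hΘ, hΘS, hΘU⟩ := s41pd_exists_cocycle_grp hneg' dS (fun _ => 1) hS
    (fun x => by simp)
  have hΘU' : ∀ x, Θ s16lbU x = 1 := fun x => by rw [hΘU]
  -- the abelian components
  have hcocA : S16lbIsCoc (fun g x => (Θ g x).a) := by
    intro g h x
    show (Θ (g * h) x).a = (Θ h x).a + (Θ g (h • x)).a
    rw [hΘ, S41pdHeis.mul_a, add_comm]
  have hcocB : S16lbIsCoc (fun g x => (Θ g x).b) := by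
    intro g h x
    show (Θ (g * h) x).b = (Θ h x).b + (Θ g (h • x)).b
    rw [hΘ, S41pdHeis.mul_b, add_comm]
  have hcocφ : S16lbIsCoc (fun g x => ((Dφ g x : ℤ) : ℚ)) := hDφ.coc.map (Int.castAddHom ℚ)
  have hcocψ : S16lbIsCoc (fun g x => ((Dψ g x : ℤ) : ℚ)) := hDψ.coc.map (Int.castAddHom ℚ)
  have hA : ∀ g x, (Θ g x).a = (Dφ g x : ℚ) := by
    have := hcocA.ext_of_closure hcocφ s16lb_closure_S_U (by
      rintro g (rfl | rfl)
      · funext x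
        show (Θ S x).a = _
        rw [hΘS]
      · funext x
        show (Θ s16lbU x).a = ((Dφ s16lbU x : ℤ) : ℚ)
        rw [hΘU' x, hDφ.normal x]; simp)
    intro g x
    exact congrFun (congrFun this g) x
  have hB : ∀ g x, (Θ g x).b = (Dψ g x : ℚ) := by
    have := hcocB.ext_of_closure hcocψ s16lb_closure_S_U (by
      rintro g (rfl | rfl)
      · funext x
        show (Θ S x).b = _
        rw [hΘS]
      · funext x
        show (Θ s16lbU x).b = ((Dψ s16lbU x : ℤ) : ℚ)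
        rw [hΘU' x, hDψ.normal x]; simp)
    intro g x
    exact congrFun (congrFun this g) x
  refine ⟨fun γ => (Θ (γ : SL(2, ℤ)) (s41pdX0 Γ)).c, ?_, ?_⟩
  · -- Heisenberg lift
    intro γ γ'
    show (Θ ((γ : SL(2, ℤ)) * (γ' : SL(2, ℤ))) (s41pdX0 Γ)).c = _
    have hfix : (γ' : SL(2, ℤ)) • s41pdX0 Γ = s41pdX0 Γ := (s41pd_mem_iff _).mp γ'.2
    rw [hΘ, hfix, S41pdHeis.mul_c, hA, hB, hDφ.rep, hDψ.rep]
  · -- values on conjugates of powers of `T`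
    intro ρ y w hy hρ hmem
    show (Θ (ρ * T ^ w * ρ⁻¹) (s41pdX0 Γ)).c = _
    have hρ' : ρ⁻¹ • s41pdX0 Γ = y := by rw [← hρ, inv_smul_smul]
    have hfix : T ^ w • (ρ⁻¹ • s41pdX0 Γ) = ρ⁻¹ • s41pdX0 Γ := by rw [hρ', hy]
    rw [s41pd_coc_conj hΘ ρ (T ^ w) (s41pdX0 Γ) hfix, hρ']
    -- the abelian components of `Θ (T ^ w) y` vanish
    have hPa : (Θ (T ^ w) y).a = 0 := by
      rw [hA]
      have h1 := hDφ.coc.conj_fixed ρ (T ^ w) (s41pdX0 Γ) hfix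
      rw [hρ'] at h1
      rw [← h1]
      have h2 := hDφ.rep ⟨ρ * T ^ w * ρ⁻¹, hmem⟩
      have h3 := hφ ⟨ρ * T ^ w * ρ⁻¹, hmem⟩ (s41pdml_trace_sq ρ w)
      rw [h3] at h2
      show ((Dφ (ρ * T ^ w * ρ⁻¹) (s41pdX0 Γ) : ℤ) : ℚ) = 0
      exact_mod_cast h2
    have hPb : (Θ (T ^ w) y).b = 0 := by
      rw [hB]
      have h1 := hDψ.coc.conj_fixed ρ (T ^ w) (s41pdX0 Γ) hfix
      rw [hρ'] at h1
      rw [← h1]
      have h2 := hDψ.rep ⟨ρ * T ^ w * ρ⁻¹, hmem⟩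
      have h3 := hψ ⟨ρ * T ^ w * ρ⁻¹, hmem⟩ (s41pdml_trace_sq ρ w)
      rw [h3] at h2
      show ((Dψ (ρ * T ^ w * ρ⁻¹) (s41pdX0 Γ) : ℤ) : ℚ) = 0
      exact_mod_cast h2
    rw [s41pdml_conj_c _ _ hPa hPb]
    -- the ordered product
    have hθ : (fun i : ℕ => (Θ S (T ^ (i + 1) • y))⁻¹) = fun i => dS (s16lbU • T ^ i • y) := by
      funext i
      rw [hΘS]
      have : s16lbU • T ^ i • y = S • T ^ (i + 1) • y := by
        rw [pow_succ', mul_smul, ← mul_smul S T]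
        rfl
      rw [this]
      exact (eq_inv_of_mul_eq_one_left (hS _)).symm
    have hP : Θ (T ^ w) y = s41pdHeisProd (fun i => dS (s16lbU • T ^ i • y)) w := by
      rw [s41pd_coc_T_pow hΘ hΘU' y w, hθ, s41pdml_prod_eq]
    have hPa' := hPa
    rw [hP, s41pd_heisProd_a] at hPa'
    rw [hP, s41pd_heisProd_c]
    -- telescoping
    have htel : ∀ i : ℕ, ∑ j ∈ Finset.range i, (dS (s16lbU • T ^ j • y)).b
        = (c' (s16lbU • T ^ i • y) : ℚ) - (c' (s16lbU • T ^ 0 • y) : ℚ) := by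
      intro i
      rw [← Finset.sum_range_sub (fun j => (c' (s16lbU • T ^ j • y) : ℚ)) i]
      refine Finset.sum_congr rfl fun j _ => ?_
      have h1 := hc' (s16lbU • T ^ j • y)
      rw [s41pd_face_eq hneg, ← mul_smul T, ← pow_succ'] at h1
      show ((Dψ S (s16lbU • T ^ j • y) : ℤ) : ℚ) = _
      rw [← h1]
      push_cast
      ring
    have hexp : ∀ i ∈ Finset.range w,
        (dS (s16lbU • T ^ i • y)).c + (dS (s16lbU • T ^ i • y)).a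
            * ∑ j ∈ Finset.range i, (dS (s16lbU • T ^ j • y)).b
          = ((Dφ S (s16lbU • T ^ i • y) : ℚ) * (Dψ S (s16lbU • T ^ i • y) : ℚ) / 2
            + (Dφ S (s16lbU • T ^ i • y) : ℚ) * (c' (s16lbU • T ^ i • y) : ℚ))
            - (c' (s16lbU • T ^ 0 • y) : ℚ) * (dS (s16lbU • T ^ i • y)).a := by
      intro i _
      rw [htel i]
      show (Dφ S (s16lbU • T ^ i • y) : ℚ) * (Dψ S (s16lbU • T ^ i • y) : ℚ) / 2
          + (Dφ S (s16lbU • T ^ i • y) : ℚ)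
            * ((c' (s16lbU • T ^ i • y) : ℚ) - (c' (s16lbU • T ^ 0 • y) : ℚ))
        = ((Dφ S (s16lbU • T ^ i • y) : ℚ) * (Dψ S (s16lbU • T ^ i • y) : ℚ) / 2
            + (Dφ S (s16lbU • T ^ i • y) : ℚ) * (c' (s16lbU • T ^ i • y) : ℚ))
            - (c' (s16lbU • T ^ 0 • y) : ℚ) * (Dφ S (s16lbU • T ^ i • y) : ℚ)
      ring
    rw [Finset.sum_congr rfl hexp, Finset.sum_sub_distrib, ← Finset.mul_sum, hPa', mul_zero,
      sub_zero]

/-- **Row PD-MLIFT (file `PD/ModelLift.lean`).** The Heisenberg lift coming from the model, with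
its values on the conjugates of powers of `T` (`a = Dφ S`, `a' = Dψ S`, `c'` a potential of `a'`,
`zᵢ = U T^i y`). -/
theorem s41pd_model_lift {φ ψ : Additive Γ →+ ℤ} (hφ : IsParabolicHom Γ φ)
    (hψ : IsParabolicHom Γ ψ) {Dφ Dψ : SL(2, ℤ) → s41pdX Γ → ℤ} (hDφ : S41pdRep Γ φ Dφ)
    (hDψ : S41pdRep Γ ψ Dψ) {c' : s41pdX Γ → ℤ}
    (hc' : S41pdPot (s41pdS Γ) (s41pdU Γ) c' (Dψ S)) :
    ∃ η : Γ → ℚ, S41pdHeisLift Γ φ ψ η ∧
      ∀ (ρ : SL(2, ℤ)) (y : s41pdX Γ) (w : ℕ) (_ : T ^ w • y = y) (_ : ρ • y = s41pdX0 Γ)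
        (hmem : ρ * T ^ w * ρ⁻¹ ∈ Γ),
        η ⟨ρ * T ^ w * ρ⁻¹, hmem⟩ = ∑ i ∈ Finset.range w,
          ((Dφ S (s16lbU • T ^ i • y) : ℚ) * (Dψ S (s16lbU • T ^ i • y) : ℚ) / 2
            + (Dφ S (s16lbU • T ^ i • y) : ℚ) * (c' (s16lbU • T ^ i • y) : ℚ)) :=
  s41pdml_model_lift_aux hneg hφ hψ hDφ hDψ (s41pd_rep_anti hneg hDφ) (s41pd_rep_anti hneg hDψ) hc'

theorem s41pd_exists_heisLift {φ ψ : Additive Γ →+ ℤ} (hφ : IsParabolicHom Γ φ)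
    (hψ : IsParabolicHom Γ ψ) : ∃ η : Γ → ℚ, S41pdHeisLift Γ φ ψ η := by
  obtain ⟨Dφ, hDφ⟩ := s41pd_exists_rep hneg φ
  obtain ⟨Dψ, hDψ⟩ := s41pd_exists_rep hneg ψ
  obtain ⟨-, c', hc'⟩ := (s41pd_rep_parabolic_iff hneg hDψ).mp hψ
  obtain ⟨η, hη, -⟩ := s41pd_model_lift hneg hφ hψ hDφ hDψ hc'
  exact ⟨η, hη⟩

/-- the peripheral sum of a rational character vanishes (model peripheral data). -/
theorem s41pd_periph_char_sum {C : Type*} [Fintype C] (y : C → s41pdX Γ) (w : C → ℕ)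
    (ρ : C → SL(2, ℤ))
    (h : ∀ c, 0 < w c ∧ T ^ (w c) • y c = y c ∧ ρ c • y c = s41pdX0 Γ)
    (hsum : ∀ F : s41pdX Γ → ℚ, ∑ x, F x = ∑ c, ∑ i ∈ Finset.range (w c), F (T ^ i • y c))
    (χ : Additive Γ →+ ℚ) (hmem : ∀ c, ρ c * T ^ (w c) * (ρ c)⁻¹ ∈ Γ) :
    ∑ c, χ (Additive.ofMul (⟨ρ c * T ^ (w c) * (ρ c)⁻¹, hmem c⟩ : Γ)) = 0 := by
  classical
  have hneg' : ∀ x : s41pdX Γ, (-1 : SL(2, ℤ)) • x = x := s41pd_neg_smul hneg
  choose s hs using fun x : s41pdX Γ => s41pd_exists_smul x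
  have hH : ∀ g : SL(2, ℤ), g ∈ Γ ↔ g • s41pdX0 Γ = s41pdX0 Γ := fun g => s41pd_mem_iff g
  have hD : S16lbIsCoc (s16lbInd Γ (s41pdX0 Γ) hH s hs χ) := s16lbInd_isCoc Γ _ hH s hs χ
  have hT := s41pd_sum_T_eq_zero hneg' hD
  rw [hsum] at hT
  rw [← hT]
  refine Finset.sum_congr rfl fun c _ => ?_
  obtain ⟨-, hy, hρ⟩ := h c
  have hρ' : (ρ c)⁻¹ • s41pdX0 Γ = y c := by rw [← hρ, inv_smul_smul]
  have hfix : T ^ (w c) • ((ρ c)⁻¹ • s41pdX0 Γ) = (ρ c)⁻¹ • s41pdX0 Γ := by rw [hρ', hy]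
  rw [← s16lbInd_base Γ (s41pdX0 Γ) hH s hs χ ⟨ρ c * T ^ (w c) * (ρ c)⁻¹, hmem c⟩]
  show s16lbInd Γ (s41pdX0 Γ) hH s hs χ (ρ c * T ^ (w c) * (ρ c)⁻¹) (s41pdX0 Γ) = _
  rw [hD.conj_fixed (ρ c) (T ^ (w c)) (s41pdX0 Γ) hfix, hρ', hD.pow_sum]

end Intr

end Fermat.Agent.S41
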