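import Fermat.Agent.S41.PD.GDefs

/-!
# S41, package PD, row PD-PABS (612): abstract re-indexing of peripheral sums
-/

set_option autoImplicit false

namespace Fermat.Agent.S41

open scoped MatrixGroups
open ModularGroup Fermat.Agent.S16LB ModularCurve.Period Matrix.SpecialLinearGroup

/-- conjugacy inside `Γ` -/
def S41pdpaConj (Γ : Subgroup SL(2, ℤ)) (p p' : SL(2, ℤ)) : Prop :=
  ∃ γ ∈ Γ, p = γ * p' * γ⁻¹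

theorem s41pdpa_conj_refl (Γ : Subgroup SL(2, ℤ)) (p : SL(2, ℤ)) : S41pdpaConj Γ p p :=
  ⟨1, Γ.one_mem, by simp⟩

theorem s41pdpa_conj_symm {Γ : Subgroup SL(2, ℤ)} {p p' : SL(2, ℤ)} (h : S41pdpaConj Γ p p') :
    S41pdpaConj Γ p' p := by
  obtain ⟨γ, hγ, rfl⟩ := h
  exact ⟨γ⁻¹, Γ.inv_mem hγ, by group⟩

theorem s41pdpa_conj_trans {Γ : Subgroup SL(2, ℤ)} {p p' p'' : SL(2, ℤ)}
    (h : S41pdpaConj Γ p p') (h' : S41pdpaConj Γ p' p'') : S41pdpaConj Γ p p'' := by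
  obtain ⟨γ, hγ, rfl⟩ := h
  obtain ⟨γ', hγ', rfl⟩ := h'
  exact ⟨γ * γ', Γ.mul_mem hγ hγ', by group⟩

theorem s41pd_periph_sum_eq {Γ : Subgroup SL(2, ℤ)} {C C' : Type*} [Fintype C] [Fintype C']
    {π : C → SL(2, ℤ)} {π' : C' → SL(2, ℤ)} (hπ : S41pdPeriph Γ π) (hπ' : S41pdPeriph Γ π')
    {A : Type*} [AddCommMonoid A] (h : SL(2, ℤ) → A)
    (hh : ∀ p, S41pdPrimPos Γ p → ∀ γ ∈ Γ, h (γ * p * γ⁻¹) = h p) :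
    ∑ c, h (π c) = ∑ c', h (π' c') := by
  classical
  let e : C → C' := fun c => (hπ'.2 (π c) (hπ.1 c)).choose
  have he : ∀ c, S41pdpaConj Γ (π c) (π' (e c)) := fun c =>
    (hπ'.2 (π c) (hπ.1 c)).choose_spec.1
  let e' : C' → C := fun c' => (hπ.2 (π' c') (hπ'.1 c')).choose
  have he' : ∀ c', S41pdpaConj Γ (π' c') (π (e' c')) := fun c' =>
    (hπ.2 (π' c') (hπ'.1 c')).choose_spec.1
  have h1 : ∀ c, e' (e c) = c := fun c =>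
    (hπ.2 (π c) (hπ.1 c)).unique (s41pdpa_conj_trans (he c) (he' (e c)))
      (s41pdpa_conj_refl Γ (π c))
  have h2 : ∀ c', e (e' c') = c' := fun c' =>
    (hπ'.2 (π' c') (hπ'.1 c')).unique (s41pdpa_conj_trans (he' c') (he (e' c')))
      (s41pdpa_conj_refl Γ (π' c'))
  refine Fintype.sum_equiv ⟨e, e', h1, h2⟩ _ _ fun c => ?_
  obtain ⟨γ, hγ, hc⟩ := he c
  show h (π c) = h (π' (e c))
  rw [hc]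
  exact hh _ (hπ'.1 (e c)) γ hγ

theorem s41pd_periph_map {Γ Γ' : Subgroup SL(2, ℤ)} (σ : Γ ≃* Γ')
    (h₁ : ∀ (p : SL(2, ℤ)) (hp : S41pdPrimPos Γ p),
      S41pdPrimPos Γ' ((σ ⟨p, hp.1⟩ : Γ') : SL(2, ℤ)))
    (h₂ : ∀ (p : SL(2, ℤ)) (hp : S41pdPrimPos Γ' p),
      S41pdPrimPos Γ ((σ.symm ⟨p, hp.1⟩ : Γ) : SL(2, ℤ)))
    {C : Type*} {π : C → SL(2, ℤ)} (hπ : S41pdPeriph Γ π) :
    S41pdPeriph Γ' (fun c => ((σ ⟨π c, (hπ.1 c).1⟩ : Γ') : SL(2, ℤ))) := by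
  refine ⟨fun c => h₁ (π c) (hπ.1 c), fun q hq => ?_⟩
  have hp := h₂ q hq
  obtain ⟨c, ⟨γ, hγ, hc⟩, huniq⟩ := hπ.2 _ hp
  refine ⟨c, ⟨((σ ⟨γ, hγ⟩ : Γ') : SL(2, ℤ)), (σ ⟨γ, hγ⟩).2, ?_⟩, ?_⟩
  · have e : σ.symm ⟨q, hq.1⟩ = ⟨γ, hγ⟩ * ⟨π c, (hπ.1 c).1⟩ * (⟨γ, hγ⟩ : Γ)⁻¹ :=
      Subtype.ext hc
    have e2 : (⟨q, hq.1⟩ : Γ') = σ ⟨γ, hγ⟩ * σ ⟨π c, (hπ.1 c).1⟩ * (σ ⟨γ, hγ⟩)⁻¹ := by
      rw [← map_inv, ← map_mul, ← map_mul, ← e, MulEquiv.apply_symm_apply]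
    exact congrArg Subtype.val e2
  · rintro c' ⟨γ', hγ', hc'⟩
    apply huniq
    refine ⟨((σ.symm ⟨γ', hγ'⟩ : Γ) : SL(2, ℤ)), (σ.symm ⟨γ', hγ'⟩).2, ?_⟩
    have e : (⟨q, hq.1⟩ : Γ') =
        ⟨γ', hγ'⟩ * σ ⟨π c', (hπ.1 c').1⟩ * (⟨γ', hγ'⟩ : Γ')⁻¹ := Subtype.ext hc'
    have e2 : σ.symm ⟨q, hq.1⟩ =
        σ.symm ⟨γ', hγ'⟩ * ⟨π c', (hπ.1 c').1⟩ * (σ.symm ⟨γ', hγ'⟩)⁻¹ := by
      rw [e, map_mul, map_mul, map_inv, MulEquiv.symm_apply_apply]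
    exact congrArg Subtype.val e2

end Fermat.Agent.S41
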