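import Fermat.Agent.S41.PD.GDefs

/-!
# S41, package PD, row PD-PINV: `GL₂⁺(ℝ)`-conjugation preserves the peripheral structure

`σ : Γ ≃* Γ'` with `mapGL ℝ (σ x) = g * mapGL ℝ x * g⁻¹`, `0 < det g`.  Then `σ` preserves traces,
`-1`, parabolic characters and primitive positive parabolic elements.
-/

set_option autoImplicit false

namespace Fermat.Agent.S41

open scoped MatrixGroups
open ModularGroup Fermat.Agent.S16LB ModularCurve.Period Matrix.SpecialLinearGroup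

/-! ### real 2x2 algebra -/

/-- positivity of the off-diagonal difference of a trace-zero, determinant-zero real matrix is
preserved by conjugation with a matrix of positive determinant.  The four equations say
`N' G = G N` for `N = !![a, b; c, -a]`, `N' = !![a', b'; c', -a']`, `G = !![α, β; γ, δ]`. -/
theorem s41pdpi_pos_aux {α β γ δ a b c a' b' c' : ℝ} (hΔ : 0 < α * δ - β * γ)
    (hN : a * a + b * c = 0) (hpos : 0 < b - c)
    (h00 : a' * α + b' * γ = α * a + β * c)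
    (h01 : a' * β + b' * δ = α * b - β * a)
    (h10 : c' * α - a' * γ = γ * a + δ * c)
    (h11 : c' * β - a' * δ = γ * b - δ * a) : 0 < b' - c' := by
  have hE : (α * δ - β * γ) * (b' - c')
      = (α ^ 2 + γ ^ 2) * b - 2 * (α * β + γ * δ) * a - (β ^ 2 + δ ^ 2) * c := by
    linear_combination α * h01 - β * h00 - δ * h10 + γ * h11
  have hS : (b - c) * ((α ^ 2 + γ ^ 2) * b - 2 * (α * β + γ * δ) * a - (β ^ 2 + δ ^ 2) * c)
      = (α * b - β * a) ^ 2 + (γ * b - δ * a) ^ 2 + (α * a + β * c) ^ 2 + (γ * a + δ * c) ^ 2 := by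
    linear_combination (-(α ^ 2 + β ^ 2 + γ ^ 2 + δ ^ 2)) * hN
  have hpos' : 0 < (α * b - β * a) ^ 2 + (γ * b - δ * a) ^ 2 + (α * a + β * c) ^ 2
      + (γ * a + δ * c) ^ 2 := by
    by_contra hcon
    have h1 : (α * b - β * a) ^ 2 = 0 := by
      nlinarith [sq_nonneg (α * b - β * a), sq_nonneg (γ * b - δ * a), sq_nonneg (α * a + β * c),
        sq_nonneg (γ * a + δ * c)]
    have h2 : (γ * b - δ * a) ^ 2 = 0 := by
      nlinarith [sq_nonneg (α * b - β * a), sq_nonneg (γ * b - δ * a), sq_nonneg (α * a + β * c),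
        sq_nonneg (γ * a + δ * c)]
    have h3 : (α * a + β * c) ^ 2 = 0 := by
      nlinarith [sq_nonneg (α * b - β * a), sq_nonneg (γ * b - δ * a), sq_nonneg (α * a + β * c),
        sq_nonneg (γ * a + δ * c)]
    have h4 : (γ * a + δ * c) ^ 2 = 0 := by
      nlinarith [sq_nonneg (α * b - β * a), sq_nonneg (γ * b - δ * a), sq_nonneg (α * a + β * c),
        sq_nonneg (γ * a + δ * c)]
    have h1' : α * b - β * a = 0 := by simpa using h1
    have h2' : γ * b - δ * a = 0 := by simpa using h2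
    have h3' : α * a + β * c = 0 := by simpa using h3
    have h4' : γ * a + δ * c = 0 := by simpa using h4
    have hb : (α * δ - β * γ) * b = 0 := by linear_combination δ * h1' - β * h2'
    have hc : (α * δ - β * γ) * c = 0 := by linear_combination α * h4' - γ * h3'
    have hb0 : b = 0 := by
      rcases mul_eq_zero.1 hb with h | h
      · exact absurd h hΔ.ne'
      · exact h
    have hc0 : c = 0 := by
      rcases mul_eq_zero.1 hc with h | h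
      · exact absurd h hΔ.ne'
      · exact h
    rw [hb0, hc0, sub_zero] at hpos
    exact lt_irrefl _ hpos
  rw [← hS] at hpos'
  have hEpos : 0 < (α ^ 2 + γ ^ 2) * b - 2 * (α * β + γ * δ) * a - (β ^ 2 + δ ^ 2) * c :=
    (mul_pos_iff_of_pos_left hpos).1 hpos'
  rw [← hE] at hEpos
  exact (mul_pos_iff_of_pos_left hΔ).1 hEpos

/-! ### entries of `mapGL ℝ` -/

theorem s41pdpi_mapGL_apply (x : SL(2, ℤ)) (i j : Fin 2) :
    ((mapGL ℝ x : GL (Fin 2) ℝ) : Matrix (Fin 2) (Fin 2) ℝ) i j = ((x i j : ℤ) : ℝ) := by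
  rw [mapGL_coe_matrix]
  simp

theorem s41pdpi_trace_mapGL (x : SL(2, ℤ)) :
    ((mapGL ℝ x : GL (Fin 2) ℝ) : Matrix (Fin 2) (Fin 2) ℝ).trace
      = (((x : Matrix (Fin 2) (Fin 2) ℤ).trace : ℤ) : ℝ) := by
  rw [Matrix.trace_fin_two, Matrix.trace_fin_two, s41pdpi_mapGL_apply, s41pdpi_mapGL_apply]
  push_cast
  rfl

theorem s41pdpi_mapGL_neg_one : mapGL ℝ (-1 : SL(2, ℤ)) = -1 := by
  ext i j
  rw [s41pdpi_mapGL_apply]
  fin_cases i <;> fin_cases j <;> simp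

section Inv

variable {Γ Γ' : Subgroup SL(2, ℤ)} (σ : Γ ≃* Γ') (g : GL (Fin 2) ℝ)
  (hg : 0 < (g : Matrix (Fin 2) (Fin 2) ℝ).det)
  (hσ : ∀ γ : Γ, mapGL ℝ ((σ γ : Γ') : SL(2, ℤ)) = g * mapGL ℝ (γ : SL(2, ℤ)) * g⁻¹)

include hσ

theorem s41pd_trace_map (γ : Γ) :
    (((σ γ : Γ') : SL(2, ℤ)) : Matrix (Fin 2) (Fin 2) ℤ).trace
      = ((γ : SL(2, ℤ)) : Matrix (Fin 2) (Fin 2) ℤ).trace := by
  have h := congrArg (fun x : GL (Fin 2) ℝ => (x : Matrix (Fin 2) (Fin 2) ℝ).trace) (hσ γ)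
  simp only [Units.val_mul] at h
  rw [Matrix.trace_units_conj, s41pdpi_trace_mapGL, s41pdpi_trace_mapGL] at h
  exact_mod_cast h

/-- `σ` maps `-1` to `-1`. -/
theorem s41pdpi_map_neg_one (hneg : (-1 : SL(2, ℤ)) ∈ Γ) :
    ((σ ⟨-1, hneg⟩ : Γ') : SL(2, ℤ)) = -1 := by
  apply mapGL_injective (S := ℝ)
  rw [hσ]
  show g * mapGL ℝ (-1 : SL(2, ℤ)) * g⁻¹ = mapGL ℝ (-1 : SL(2, ℤ))
  rw [s41pdpi_mapGL_neg_one, mul_neg, mul_one, neg_mul, mul_inv_cancel]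

theorem s41pd_neg_one_mem_map (hneg : (-1 : SL(2, ℤ)) ∈ Γ) : (-1 : SL(2, ℤ)) ∈ Γ' := by
  rw [← s41pdpi_map_neg_one σ g hσ hneg]
  exact (σ ⟨-1, hneg⟩).2

theorem s41pd_parabolic_comp {A : Type*} [AddCommGroup A] {φ : Additive Γ' →+ A}
    (hφ : IsParabolicHom Γ' φ) : IsParabolicHom Γ (φ.comp σ.toMonoidHom.toAdditive) := by
  intro γ hγ
  have h := hφ (σ γ) (by rw [s41pd_trace_map σ g hσ γ]; exact hγ)
  exact h

include hg

theorem s41pd_primPos_map {p : SL(2, ℤ)} (hp : S41pdPrimPos Γ p) :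
    S41pdPrimPos Γ' ((σ ⟨p, hp.1⟩ : Γ') : SL(2, ℤ)) := by
  obtain ⟨hmem, htr, hne, hpos, hcen⟩ := hp
  refine ⟨(σ ⟨p, hmem⟩).2, ?_, ?_, ?_, ?_⟩
  · rw [s41pd_trace_map σ g hσ]
    exact htr
  · intro h
    have h1 : σ ⟨p, hmem⟩ = 1 := Subtype.ext h
    have h2 : (⟨p, hmem⟩ : Γ) = 1 := (MulEquiv.map_eq_one_iff σ).1 h1
    exact hne (congrArg Subtype.val h2)
  · -- positivity
    have hqtr : (((σ ⟨p, hmem⟩ : Γ') : SL(2, ℤ)) : Matrix (Fin 2) (Fin 2) ℤ).trace = 2 := by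
      rw [s41pd_trace_map σ g hσ]
      exact htr
    generalize hq : ((σ ⟨p, hmem⟩ : Γ') : SL(2, ℤ)) = q at hqtr
    have hσp := hσ ⟨p, hmem⟩
    rw [hq] at hσp
    have h2 : mapGL ℝ q * g = g * mapGL ℝ p := by
      rw [hσp, inv_mul_cancel_right]
    have hEq : ((mapGL ℝ q : GL (Fin 2) ℝ) : Matrix (Fin 2) (Fin 2) ℝ)
        * (g : Matrix (Fin 2) (Fin 2) ℝ)
        = (g : Matrix (Fin 2) (Fin 2) ℝ)
          * ((mapGL ℝ p : GL (Fin 2) ℝ) : Matrix (Fin 2) (Fin 2) ℝ) := by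
      have := congrArg (fun x : GL (Fin 2) ℝ => (x : Matrix (Fin 2) (Fin 2) ℝ)) h2
      simpa only [Units.val_mul] using this
    have e00 := congrFun (congrFun hEq 0) 0
    have e01 := congrFun (congrFun hEq 0) 1
    have e10 := congrFun (congrFun hEq 1) 0
    have e11 := congrFun (congrFun hEq 1) 1
    simp only [Matrix.mul_apply, Fin.sum_univ_two, s41pdpi_mapGL_apply] at e00 e01 e10 e11
    have hdet : (g : Matrix (Fin 2) (Fin 2) ℝ).det
        = (g : Matrix (Fin 2) (Fin 2) ℝ) 0 0 * (g : Matrix (Fin 2) (Fin 2) ℝ) 1 1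
          - (g : Matrix (Fin 2) (Fin 2) ℝ) 0 1 * (g : Matrix (Fin 2) (Fin 2) ℝ) 1 0 :=
      Matrix.det_fin_two _
    rw [hdet] at hg
    have hdp : p 0 0 * p 1 1 - p 0 1 * p 1 0 = 1 := by
      have := p.det_coe
      rwa [Matrix.det_fin_two] at this
    have htp : p 0 0 + p 1 1 = 2 := by
      rwa [Matrix.trace_fin_two] at htr
    have htq : q 0 0 + q 1 1 = 2 := by
      rwa [Matrix.trace_fin_two] at hqtr
    have hdpR : ((p 0 0 : ℤ) : ℝ) * ((p 1 1 : ℤ) : ℝ) - ((p 0 1 : ℤ) : ℝ) * ((p 1 0 : ℤ) : ℝ) = 1 := by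
      exact_mod_cast hdp
    have htpR : ((p 0 0 : ℤ) : ℝ) + ((p 1 1 : ℤ) : ℝ) = 2 := by
      exact_mod_cast htp
    have htqR : ((q 0 0 : ℤ) : ℝ) + ((q 1 1 : ℤ) : ℝ) = 2 := by
      exact_mod_cast htq
    have hposR : (0 : ℝ) < ((p 0 1 : ℤ) : ℝ) - ((p 1 0 : ℤ) : ℝ) := by
      exact_mod_cast hpos
    have key := s41pdpi_pos_aux (α := (g : Matrix (Fin 2) (Fin 2) ℝ) 0 0)
      (β := (g : Matrix (Fin 2) (Fin 2) ℝ) 0 1) (γ := (g : Matrix (Fin 2) (Fin 2) ℝ) 1 0)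
      (δ := (g : Matrix (Fin 2) (Fin 2) ℝ) 1 1) (a := ((p 0 0 : ℤ) : ℝ) - 1)
      (b := ((p 0 1 : ℤ) : ℝ)) (c := ((p 1 0 : ℤ) : ℝ)) (a' := ((q 0 0 : ℤ) : ℝ) - 1)
      (b' := ((q 0 1 : ℤ) : ℝ)) (c' := ((q 1 0 : ℤ) : ℝ)) hg
      (by linear_combination (-1 : ℝ) * hdpR + ((p 0 0 : ℤ) : ℝ) * htpR)
      hposR
      (by linear_combination e00)
      (by linear_combination e01 + (g : Matrix (Fin 2) (Fin 2) ℝ) 0 1 * htpR)
      (by linear_combination e10 - (g : Matrix (Fin 2) (Fin 2) ℝ) 1 0 * htqR)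
      (by linear_combination e11 - (g : Matrix (Fin 2) (Fin 2) ℝ) 1 1 * htqR
        + (g : Matrix (Fin 2) (Fin 2) ℝ) 1 1 * htpR)
    exact_mod_cast key
  · intro γ' hγ' hcomm
    have hσx : σ (σ.symm ⟨γ', hγ'⟩) = ⟨γ', hγ'⟩ := σ.apply_symm_apply _
    generalize σ.symm ⟨γ', hγ'⟩ = x at hσx
    have hcomm' : x * ⟨p, hmem⟩ = ⟨p, hmem⟩ * x := by
      apply σ.injective
      rw [map_mul, map_mul, hσx]
      exact Subtype.ext hcomm
    have hcomm'' : (x : SL(2, ℤ)) * p = p * (x : SL(2, ℤ)) := congrArg Subtype.val hcomm'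
    obtain ⟨k, hk | hk⟩ := hcen (x : SL(2, ℤ)) x.2 hcomm''
    · refine ⟨k, Or.inl ?_⟩
      have hxk : x = (⟨p, hmem⟩ : Γ) ^ k := Subtype.ext (by rw [hk, Subgroup.coe_zpow])
      have h3 : (⟨γ', hγ'⟩ : Γ') = (σ ⟨p, hmem⟩) ^ k := by rw [← hσx, hxk, map_zpow]
      have h4 := congrArg Subtype.val h3
      rw [Subgroup.coe_zpow] at h4
      exact h4
    · refine ⟨k, Or.inr ?_⟩
      have hneg : (-1 : SL(2, ℤ)) ∈ Γ := by
        have h5 : (-1 : SL(2, ℤ)) = (x : SL(2, ℤ)) * (p ^ k)⁻¹ := by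
          rw [hk, neg_mul, mul_inv_cancel]
        rw [h5]
        exact Γ.mul_mem x.2 (Γ.inv_mem (Γ.zpow_mem hmem k))
      have hxk : x = ⟨-1, hneg⟩ * (⟨p, hmem⟩ : Γ) ^ k :=
        Subtype.ext (by rw [hk, Subgroup.coe_mul, Subgroup.coe_zpow, neg_one_mul])
      have h3 : (⟨γ', hγ'⟩ : Γ') = σ ⟨-1, hneg⟩ * (σ ⟨p, hmem⟩) ^ k := by
        rw [← hσx, hxk, map_mul, map_zpow]
      have h4 := congrArg Subtype.val h3
      rw [Subgroup.coe_mul, s41pdpi_map_neg_one σ g hσ hneg, Subgroup.coe_zpow, neg_one_mul] at h4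
      exact h4

end Inv

end Fermat.Agent.S41
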