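import Fermat.Agent.S41.PD.GDefs
import Fermat.Agent.S21.Parabolic

/-!
# S41, package PD, row PD-PMODEL: the peripheral system of the model

`X = SL(2,ℤ) ⧸ Γ`.  The cusps of `Γ` are the orbits of `T` on `X`; for each orbit `c` choose a
representative `y c`, let `w c` be its length (the width of the cusp) and `ρ c` with
`ρ c • y c = x₀`.  Then `c ↦ ρ c * T ^ (w c) * (ρ c)⁻¹` is a peripheral system of `Γ`, and sums
over `X` decompose along the orbits.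
-/

set_option autoImplicit false

namespace Fermat.Agent.S41

open scoped MatrixGroups
open ModularGroup Fermat.Agent.S16LB ModularCurve.Period Matrix.SpecialLinearGroup

/-! ### orbits of a cyclic group on a finite set -/

section Orbit

variable {G X : Type*} [Group G] [MulAction G X] (a : G)

/-- the orbit relation of the cyclic group generated by `a`. -/
def s41pdpmSetoid : Setoid X where
  r x y := ∃ j : ℤ, a ^ j • x = y
  iseqv :=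
    ⟨fun x => ⟨0, by rw [zpow_zero, one_smul]⟩,
      fun {x y} ⟨j, hj⟩ => ⟨-j, by rw [← hj, ← mul_smul, ← zpow_add, neg_add_cancel, zpow_zero,
        one_smul]⟩,
      fun {x y z} ⟨j, hj⟩ ⟨k, hk⟩ => ⟨k + j, by rw [zpow_add, mul_smul, hj, hk]⟩⟩

variable (X) in
/-- the set of orbits. -/
abbrev s41pdpmOrb : Type _ := Quotient (s41pdpmSetoid (X := X) a)

noncomputable instance [Finite X] : Fintype (s41pdpmOrb X a) :=
  @Fintype.ofFinite _ (inferInstanceAs (Finite (Quotient (s41pdpmSetoid (X := X) a))))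

/-- the chosen representative of an orbit. -/
noncomputable def s41pdpmRep (c : s41pdpmOrb X a) : X := Quotient.out c

/-- the length of an orbit. -/
noncomputable def s41pdpmLen (c : s41pdpmOrb X a) : ℕ :=
  Function.minimalPeriod (a • ·) (s41pdpmRep a c)

theorem s41pdpm_exists_orb (x : X) : ∃ (c : s41pdpmOrb X a) (j : ℤ), a ^ j • s41pdpmRep a c = x := by
  refine ⟨Quotient.mk (s41pdpmSetoid a) x, ?_⟩
  exact Quotient.exact (s := s41pdpmSetoid a) (Quotient.out_eq (Quotient.mk (s41pdpmSetoid a) x))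

theorem s41pdpm_orb_unique {c c' : s41pdpmOrb X a} {j : ℤ}
    (h : a ^ j • s41pdpmRep a c = s41pdpmRep a c') : c = c' := by
  have h1 : Quotient.mk (s41pdpmSetoid a) (s41pdpmRep a c)
      = Quotient.mk (s41pdpmSetoid a) (s41pdpmRep a c') := Quotient.sound (s := s41pdpmSetoid a) ⟨j, h⟩
  unfold s41pdpmRep at h1
  rwa [Quotient.out_eq, Quotient.out_eq] at h1

theorem s41pdpm_len_dvd {c : s41pdpmOrb X a} {j : ℤ}
    (h : a ^ j • s41pdpmRep a c = s41pdpmRep a c) : (s41pdpmLen a c : ℤ) ∣ j :=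
  MulAction.zpow_smul_eq_iff_minimalPeriod_dvd.mp h

theorem s41pdpm_pow_len_smul (c : s41pdpmOrb X a) :
    a ^ s41pdpmLen a c • s41pdpmRep a c = s41pdpmRep a c :=
  MulAction.pow_smul_eq_iff_minimalPeriod_dvd.mpr dvd_rfl

theorem s41pdpm_len_pos [Finite X] (c : s41pdpmOrb X a) : 0 < s41pdpmLen a c :=
  Nat.pos_of_ne_zero (NeZero.ne (Function.minimalPeriod (a • ·) (s41pdpmRep a c)))

theorem s41pdpm_sum_eq [Fintype X] {A : Type*} [AddCommMonoid A] (F : X → A) :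
    ∑ x, F x = ∑ c : s41pdpmOrb X a, ∑ i ∈ Finset.range (s41pdpmLen a c),
      F (a ^ i • s41pdpmRep a c) := by
  classical
  rw [← Finset.sum_fiberwise (Finset.univ : Finset X)
    (fun x => (Quotient.mk (s41pdpmSetoid a) x : s41pdpmOrb X a)) F]
  refine Finset.sum_congr rfl fun c _ => ?_
  have himg : (Finset.univ.filter fun x : X => (Quotient.mk (s41pdpmSetoid a) x : s41pdpmOrb X a) = c)
      = (Finset.range (s41pdpmLen a c)).image fun i => a ^ i • s41pdpmRep a c := by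
    ext x
    simp only [Finset.mem_filter, Finset.mem_univ, true_and, Finset.mem_image, Finset.mem_range]
    constructor
    · intro hx
      have h1 : Quotient.mk (s41pdpmSetoid a) (s41pdpmRep a c)
          = Quotient.mk (s41pdpmSetoid a) x := by
        rw [hx]
        exact Quotient.out_eq c
      obtain ⟨j, hj⟩ := Quotient.exact (s := s41pdpmSetoid a) h1
      have hpos : (0 : ℤ) < (s41pdpmLen a c : ℤ) := by exact_mod_cast s41pdpm_len_pos a c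
      refine ⟨(j % (s41pdpmLen a c : ℤ)).toNat, ?_, ?_⟩
      · have h2 := Int.emod_lt_of_pos j hpos
        have h3 := Int.emod_nonneg j hpos.ne'
        omega
      · have h3 := Int.emod_nonneg j hpos.ne'
        rw [← zpow_natCast, Int.toNat_of_nonneg h3]
        rw [← hj]
        exact MulAction.zpow_smul_mod_minimalPeriod a (s41pdpmRep a c) j
    · rintro ⟨i, -, rfl⟩
      have : Quotient.mk (s41pdpmSetoid a) (s41pdpmRep a c)
          = Quotient.mk (s41pdpmSetoid a) (a ^ i • s41pdpmRep a c) :=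
        Quotient.sound (s := s41pdpmSetoid a) ⟨i, by rw [zpow_natCast]⟩
      rw [← this]
      exact Quotient.out_eq c
  rw [himg, Finset.sum_image]
  intro i hi i' hi' h
  rw [Finset.coe_range, Set.mem_Iio] at hi hi'
  have h' : (a • ·)^[i] (s41pdpmRep a c) = (a • ·)^[i'] (s41pdpmRep a c) := by
    rw [smul_iterate, smul_iterate]
    exact h
  exact (Function.iterate_eq_iterate_iff_of_lt_minimalPeriod hi hi').mp h'

end Orbit

/-! ### conjugates of powers of `T` -/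

theorem s41pdpm_det (ρ : SL(2, ℤ)) : ρ.1 0 0 * ρ.1 1 1 - ρ.1 0 1 * ρ.1 1 0 = 1 := by
  have := Matrix.det_fin_two ρ.1
  rw [ρ.2] at this
  exact this.symm

/-- `ρ T^m ρ⁻¹ = 1 + m [[-αγ, α²], [-γ², αγ]]` for `ρ = [[α, β], [γ, δ]]`. -/
theorem s41pdpm_conj_T_zpow (ρ : SL(2, ℤ)) (m : ℤ) :
    (ρ * T ^ m * ρ⁻¹ : SL(2, ℤ)).1 =
      !![1 - m * (ρ.1 0 0 * ρ.1 1 0), m * ρ.1 0 0 ^ 2;
        -(m * ρ.1 1 0 ^ 2), 1 + m * (ρ.1 0 0 * ρ.1 1 0)] := by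
  have hdet := s41pdpm_det ρ
  rw [coe_mul, coe_mul, coe_T_zpow, coe_inv, Matrix.adjugate_fin_two]
  have hρ : ρ.1 = !![ρ.1 0 0, ρ.1 0 1; ρ.1 1 0, ρ.1 1 1] := by
    ext i j
    fin_cases i <;> fin_cases j <;> rfl
  rw [hρ]
  simp only [Matrix.mul_fin_two, Matrix.of_apply, Matrix.cons_val', Matrix.cons_val_zero,
    Matrix.cons_val_one, Matrix.empty_val', Matrix.cons_val_fin_one]
  ext i j
  fin_cases i <;> fin_cases j
  · show _ = 1 - m * (ρ.1 0 0 * ρ.1 1 0)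
    simp
    linear_combination hdet
  · show _ = m * ρ.1 0 0 ^ 2
    simp
    ring
  · show _ = -(m * ρ.1 1 0 ^ 2)
    simp
    ring
  · show _ = 1 + m * (ρ.1 0 0 * ρ.1 1 0)
    simp
    linear_combination hdet

theorem s41pdpm_conj_trace (ρ : SL(2, ℤ)) (m : ℤ) :
    ((ρ * T ^ m * ρ⁻¹ : SL(2, ℤ)) : Matrix (Fin 2) (Fin 2) ℤ).trace = 2 := by
  rw [s41pdpm_conj_T_zpow, Matrix.trace_fin_two_of]
  ring

theorem s41pdpm_conj_diff (ρ : SL(2, ℤ)) (m : ℤ) :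
    (ρ * T ^ m * ρ⁻¹ : SL(2, ℤ)) 0 1 - (ρ * T ^ m * ρ⁻¹ : SL(2, ℤ)) 1 0
      = m * (ρ.1 0 0 ^ 2 + ρ.1 1 0 ^ 2) := by
  show (ρ * T ^ m * ρ⁻¹ : SL(2, ℤ)).1 0 1 - (ρ * T ^ m * ρ⁻¹ : SL(2, ℤ)).1 1 0 = _
  rw [s41pdpm_conj_T_zpow]
  simp
  ring

theorem s41pdpm_sq_pos (ρ : SL(2, ℤ)) : 0 < ρ.1 0 0 ^ 2 + ρ.1 1 0 ^ 2 := by
  have hdet := s41pdpm_det ρ
  by_contra h
  have h0 : ρ.1 0 0 ^ 2 + ρ.1 1 0 ^ 2 = 0 := by
    have h1 := sq_nonneg (ρ.1 0 0)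
    have h2 := sq_nonneg (ρ.1 1 0)
    omega
  have ha : ρ.1 0 0 = 0 := by nlinarith [sq_nonneg (ρ.1 0 0), sq_nonneg (ρ.1 1 0)]
  have hc : ρ.1 1 0 = 0 := by nlinarith [sq_nonneg (ρ.1 0 0), sq_nonneg (ρ.1 1 0)]
  rw [ha, hc] at hdet
  simp at hdet

/-- an element conjugating a nontrivial power of `T` into a power of `T` is `± T^j`. -/
theorem s41pdpm_eq_T_zpow_of_conj (μ : SL(2, ℤ)) {m n : ℤ} (hm : m ≠ 0)
    (h : μ * T ^ m * μ⁻¹ = T ^ n) : ∃ j : ℤ, μ = T ^ j ∨ μ = -(T ^ j) := by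
  apply Fermat.Agent.S21.par_eq_T_zpow_of_c_eq_zero
  have h1 : (μ * T ^ m * μ⁻¹ : SL(2, ℤ)).1 1 0 = (T ^ n : SL(2, ℤ)).1 1 0 := by rw [h]
  rw [s41pdpm_conj_T_zpow, coe_T_zpow] at h1
  simp at h1
  rcases h1 with h1 | h1
  · exact absurd h1 hm
  · exact h1

theorem s41pdpm_T_zpow_injective {m n : ℤ} (h : (T ^ m : SL(2, ℤ)) = T ^ n) : m = n := by
  have h1 : (T ^ m : SL(2, ℤ)).1 0 1 = (T ^ n : SL(2, ℤ)).1 0 1 := by rw [h]
  rw [coe_T_zpow, coe_T_zpow] at h1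
  simpa using h1

theorem s41pdpm_T_zpow_ne_neg (m n : ℤ) : (T ^ m : SL(2, ℤ)) ≠ -(T ^ n) := by
  intro h
  have h1 : (T ^ m : SL(2, ℤ)).1 0 0 = (-(T ^ n) : SL(2, ℤ)).1 0 0 := by rw [h]
  rw [coe_neg, coe_T_zpow, coe_T_zpow] at h1
  simp at h1

/-! ### the peripheral system -/

section Main

variable {Γ : Subgroup SL(2, ℤ)} (hneg : (-1 : SL(2, ℤ)) ∈ Γ)

include hneg

theorem s41pdpm_neg_smul (g : SL(2, ℤ)) (x : s41pdX Γ) : (-g) • x = g • x := by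
  rw [← neg_one_mul, mul_smul, s41pd_neg_smul hneg]

theorem s41pdpm_smul_of_pm {μ : SL(2, ℤ)} {j : ℤ} (h : μ = T ^ j ∨ μ = -(T ^ j))
    (x : s41pdX Γ) : μ • x = T ^ j • x := by
  rcases h with h | h
  · rw [h]
  · rw [h, s41pdpm_neg_smul hneg]

/-- the conjugate `ρ T^w ρ⁻¹` attached to a `T`-orbit of exact length `w` is primitive positive
parabolic. -/
theorem s41pdpm_primPos (y0 : s41pdX Γ) (w0 : ℕ) (ρ0 : SL(2, ℤ)) (hw : 0 < w0)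
    (hT : T ^ w0 • y0 = y0) (hρ : ρ0 • y0 = s41pdX0 Γ)
    (hmin : ∀ j : ℤ, T ^ j • y0 = y0 → (w0 : ℤ) ∣ j) :
    S41pdPrimPos Γ (ρ0 * T ^ w0 * ρ0⁻¹) := by
  have hy : ρ0⁻¹ • s41pdX0 Γ = y0 := by rw [← hρ, inv_smul_smul]
  have hdiff : (ρ0 * T ^ w0 * ρ0⁻¹ : SL(2, ℤ)) 0 1 - (ρ0 * T ^ w0 * ρ0⁻¹ : SL(2, ℤ)) 1 0
      = (w0 : ℤ) * (ρ0.1 0 0 ^ 2 + ρ0.1 1 0 ^ 2) := by
    rw [← zpow_natCast]
    exact s41pdpm_conj_diff ρ0 w0
  have hpos : 0 < (ρ0 * T ^ w0 * ρ0⁻¹ : SL(2, ℤ)) 0 1 - (ρ0 * T ^ w0 * ρ0⁻¹ : SL(2, ℤ)) 1 0 := by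
    rw [hdiff]
    have h1 := s41pdpm_sq_pos ρ0
    have h2 : (0 : ℤ) < w0 := by exact_mod_cast hw
    positivity
  refine ⟨?_, ?_, ?_, hpos, ?_⟩
  · rw [s41pd_mem_iff, mul_smul, mul_smul, hy, hT, hρ]
  · rw [← zpow_natCast]
    exact s41pdpm_conj_trace ρ0 w0
  · intro h1
    rw [h1] at hpos
    simp at hpos
  · intro g hg hcomm
    have hgp : g * (ρ0 * T ^ w0 * ρ0⁻¹) * g⁻¹ = ρ0 * T ^ w0 * ρ0⁻¹ := by
      rw [hcomm, mul_inv_cancel_right]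
    have hμ : (ρ0⁻¹ * g * ρ0) * T ^ (w0 : ℤ) * (ρ0⁻¹ * g * ρ0)⁻¹ = T ^ (w0 : ℤ) := by
      have e : (ρ0⁻¹ * g * ρ0) * T ^ (w0 : ℤ) * (ρ0⁻¹ * g * ρ0)⁻¹
          = ρ0⁻¹ * (g * (ρ0 * T ^ w0 * ρ0⁻¹) * g⁻¹) * ρ0 := by
        rw [zpow_natCast]
        group
      rw [e, hgp, zpow_natCast]
      group
    have hw0 : (w0 : ℤ) ≠ 0 := by exact_mod_cast hw.ne'
    obtain ⟨j, hj⟩ := s41pdpm_eq_T_zpow_of_conj _ hw0 hμ
    have hgx : g • s41pdX0 Γ = s41pdX0 Γ := (s41pd_mem_iff g).mp hg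
    have hfix : T ^ j • y0 = y0 := by
      rw [← s41pdpm_smul_of_pm hneg hj y0, mul_smul, mul_smul, hρ, hgx, hy]
    obtain ⟨k, hk⟩ := hmin j hfix
    have hpk : (ρ0 * T ^ w0 * ρ0⁻¹) ^ k = ρ0 * T ^ j * ρ0⁻¹ := by
      rw [conj_zpow, ← zpow_natCast, ← zpow_mul, hk]
    have hgμ : g = ρ0 * (ρ0⁻¹ * g * ρ0) * ρ0⁻¹ := by group
    refine ⟨k, ?_⟩
    rcases hj with hj | hj
    · left
      rw [hpk, hgμ, hj]
    · right
      rw [hpk, hgμ, hj]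
      simp only [mul_neg, neg_mul]

/-- every primitive positive parabolic element of `Γ` is `Γ`-conjugate to the element attached to
exactly one `T`-orbit. -/
theorem s41pdpm_class {C : Type*} (y : C → s41pdX Γ) (w : C → ℕ) (ρ : C → SL(2, ℤ))
    (h1 : ∀ c, 0 < w c ∧ T ^ (w c) • y c = y c ∧ ρ c • y c = s41pdX0 Γ)
    (h2 : ∀ (c : C) (j : ℤ), T ^ j • y c = y c → (w c : ℤ) ∣ j)
    (h3 : ∀ x : s41pdX Γ, ∃ (c : C) (j : ℤ), T ^ j • y c = x)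
    (h4 : ∀ (c c' : C) (j : ℤ), T ^ j • y c = y c' → c = c')
    {q : SL(2, ℤ)} (hq : S41pdPrimPos Γ q) :
    ∃! c, ∃ γ ∈ Γ, q = γ * (ρ c * T ^ (w c) * (ρ c)⁻¹) * γ⁻¹ := by
  obtain ⟨hqΓ, hqtr, hq1, hqpos, hqcent⟩ := hq
  have hqx : q • s41pdX0 Γ = s41pdX0 Γ := (s41pd_mem_iff q).mp hqΓ
  -- `q = δ T^m δ⁻¹`
  obtain ⟨δ, m, hδ⟩ : ∃ (δ : SL(2, ℤ)) (m : ℤ), q = δ * T ^ m * δ⁻¹ := by
    obtain ⟨δ, m, hδ | hδ⟩ := Fermat.Agent.S21.exists_conj_T_zpow_of_trace_sq_eq_four q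
      (by rw [hqtr]; norm_num)
    · exact ⟨δ, m, hδ⟩
    · exfalso
      rw [hδ, coe_neg, Matrix.trace_neg, s41pdpm_conj_trace] at hqtr
      norm_num at hqtr
  have hm : 0 < m := by
    rw [hδ, s41pdpm_conj_diff] at hqpos
    have hs := s41pdpm_sq_pos δ
    by_contra h
    have h' : m ≤ 0 := not_lt.mp h
    have := mul_nonpos_of_nonpos_of_nonneg h' hs.le
    linarith
  -- the point `y' = δ⁻¹ x₀` is fixed by `T^m` and lies in the orbit of a unique `y c`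
  have hy' : T ^ m • δ⁻¹ • s41pdX0 Γ = δ⁻¹ • s41pdX0 Γ := by
    have e : T ^ m * δ⁻¹ = δ⁻¹ * q := by rw [hδ]; group
    rw [← mul_smul, e, mul_smul, hqx]
  obtain ⟨c, i, hi⟩ := h3 (δ⁻¹ • s41pdX0 Γ)
  obtain ⟨hwpos, hwT, hρc⟩ := h1 c
  have hyc : (ρ c)⁻¹ • s41pdX0 Γ = y c := by rw [← hρc, inv_smul_smul]
  have hwpos' : (0 : ℤ) < (w c : ℤ) := by exact_mod_cast hwpos
  -- powers of `T` fixing `y c` are those fixing `y'`
  have hfix : ∀ n : ℤ, T ^ n • δ⁻¹ • s41pdX0 Γ = δ⁻¹ • s41pdX0 Γ ↔ T ^ n • y c = y c := by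
    intro n
    rw [← hi, ← mul_smul, ← zpow_add, add_comm, zpow_add, mul_smul]
    exact (MulAction.injective (T ^ i)).eq_iff
  obtain ⟨k, hk⟩ := h2 c m ((hfix m).mp hy')
  -- `r = δ T^w δ⁻¹ ∈ Γ` commutes with `q`
  have hrΓ : δ * T ^ (w c : ℤ) * δ⁻¹ ∈ Γ := by
    rw [s41pd_mem_iff, mul_smul, mul_smul, (hfix _).mpr (by rw [zpow_natCast]; exact hwT),
      smul_inv_smul]
  have hcomm : δ * T ^ (w c : ℤ) * δ⁻¹ * q = q * (δ * T ^ (w c : ℤ) * δ⁻¹) := by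
    rw [hδ]
    group
  obtain ⟨k', hk'⟩ := hqcent _ hrΓ hcomm
  have hqk' : q ^ k' = δ * T ^ (m * k') * δ⁻¹ := by rw [hδ, conj_zpow, zpow_mul]
  have hwm : (w c : ℤ) = m := by
    have h5 : (w c : ℤ) = m * k' := by
      rcases hk' with hk' | hk'
      · rw [hqk'] at hk'
        have : T ^ (w c : ℤ) = T ^ (m * k') := by
          have := congrArg (fun g => δ⁻¹ * g * δ) hk'
          simpa [mul_assoc] using this
        exact s41pdpm_T_zpow_injective this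
      · exfalso
        rw [hqk'] at hk'
        have := congrArg (fun g : SL(2, ℤ) => (g : Matrix (Fin 2) (Fin 2) ℤ).trace) hk'
        simp only [coe_neg, Matrix.trace_neg, s41pdpm_conj_trace] at this
        norm_num at this
    have h6 : k * k' = 1 := by
      have : (w c : ℤ) * (k * k') = (w c : ℤ) * 1 := by
        rw [mul_one, ← mul_assoc, ← hk, ← h5]
      exact mul_left_cancel₀ hwpos'.ne' this
    have hkpos : 0 < k := by
      rw [hk] at hm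
      exact (pos_iff_pos_of_mul_pos hm).mp hwpos'
    rcases Int.eq_one_or_neg_one_of_mul_eq_one h6 with h7 | h7
    · rw [hk, h7, mul_one]
    · omega
  refine ⟨c, ⟨δ * T ^ i * (ρ c)⁻¹, ?_, ?_⟩, ?_⟩
  · rw [s41pd_mem_iff, mul_smul, mul_smul, hyc, hi, smul_inv_smul]
  · rw [hδ, ← hwm, zpow_natCast]
    group
  · rintro c' ⟨γ', hγ', hq'⟩
    obtain ⟨hwpos₁, -, hρc₁⟩ := h1 c'
    have hγx : γ' • s41pdX0 Γ = s41pdX0 Γ := (s41pd_mem_iff γ').mp hγ'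
    have hμ : (δ⁻¹ * γ' * ρ c') * T ^ (w c' : ℤ) * (δ⁻¹ * γ' * ρ c')⁻¹ = T ^ m := by
      have e : (δ⁻¹ * γ' * ρ c') * T ^ (w c' : ℤ) * (δ⁻¹ * γ' * ρ c')⁻¹
          = δ⁻¹ * (γ' * (ρ c' * T ^ (w c') * (ρ c')⁻¹) * γ'⁻¹) * δ := by
        rw [zpow_natCast]
        group
      rw [e, ← hq', hδ]
      group
    have hw0 : (w c' : ℤ) ≠ 0 := by exact_mod_cast hwpos₁.ne'
    obtain ⟨j, hj⟩ := s41pdpm_eq_T_zpow_of_conj _ hw0 hμ
    have h5 : T ^ j • y c' = T ^ i • y c := by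
      rw [← s41pdpm_smul_of_pm hneg hj (y c'), mul_smul, mul_smul, hρc₁, hγx, hi]
    have h6 : T ^ (-j + i) • y c = y c' := by
      rw [zpow_add, mul_smul, ← h5, ← mul_smul, ← zpow_add, neg_add_cancel, zpow_zero, one_smul]
    exact (h4 c c' _ h6).symm

end Main

/-- **Row PD-PMODEL.** The peripheral system of the model: the `T`-orbits on `X = SL(2,ℤ) ⧸ Γ`. -/
theorem s41pd_exists_periph {Γ : Subgroup SL(2, ℤ)} [Γ.FiniteIndex]
    (hneg : (-1 : SL(2, ℤ)) ∈ Γ) :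
    ∃ (C : Type) (_ : Fintype C) (y : C → s41pdX Γ) (w : C → ℕ) (ρ : C → SL(2, ℤ)),
      (∀ c, 0 < w c ∧ T ^ (w c) • y c = y c ∧ ρ c • y c = s41pdX0 Γ) ∧
      S41pdPeriph Γ (fun c => ρ c * T ^ (w c) * (ρ c)⁻¹) ∧
      ∀ F : s41pdX Γ → ℚ, ∑ x, F x = ∑ c, ∑ i ∈ Finset.range (w c), F (T ^ i • y c) := by
  have hρ : ∀ c : s41pdpmOrb (s41pdX Γ) (T : SL(2, ℤ)),
      ∃ g : SL(2, ℤ), g • s41pdpmRep (T : SL(2, ℤ)) c = s41pdX0 Γ := by
    intro c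
    obtain ⟨g, hg⟩ := s41pd_exists_smul (s41pdpmRep (T : SL(2, ℤ)) c)
    exact ⟨g⁻¹, by rw [← hg, inv_smul_smul]⟩
  choose ρ hρ using hρ
  have h1 : ∀ c : s41pdpmOrb (s41pdX Γ) (T : SL(2, ℤ)),
      0 < s41pdpmLen (T : SL(2, ℤ)) c ∧
        T ^ (s41pdpmLen (T : SL(2, ℤ)) c) • s41pdpmRep (T : SL(2, ℤ)) c
          = s41pdpmRep (T : SL(2, ℤ)) c ∧
        ρ c • s41pdpmRep (T : SL(2, ℤ)) c = s41pdX0 Γ :=
    fun c => ⟨s41pdpm_len_pos _ c, s41pdpm_pow_len_smul _ c, hρ c⟩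
  refine ⟨s41pdpmOrb (s41pdX Γ) (T : SL(2, ℤ)), inferInstance, s41pdpmRep (T : SL(2, ℤ)),
    s41pdpmLen (T : SL(2, ℤ)), ρ, h1, ⟨?_, ?_⟩, ?_⟩
  · intro c
    exact s41pdpm_primPos hneg _ _ _ (h1 c).1 (h1 c).2.1 (h1 c).2.2
      (fun j hj => s41pdpm_len_dvd _ hj)
  · intro p hp
    obtain ⟨c, ⟨γ, hγ, hc⟩, huniq⟩ := s41pdpm_class hneg (s41pdpmRep (T : SL(2, ℤ)))
      (s41pdpmLen (T : SL(2, ℤ))) ρ h1 (fun c j hj => s41pdpm_len_dvd _ hj)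
      (fun x => s41pdpm_exists_orb _ x) (fun c c' j hj => s41pdpm_orb_unique _ hj) hp
    exact ⟨c, ⟨γ, hγ, hc⟩, fun c' ⟨γ', hγ', hc'⟩ => huniq c' ⟨γ', hγ', hc'⟩⟩
  · intro F
    exact s41pdpm_sum_eq (T : SL(2, ℤ)) F

end Fermat.Agent.S41
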