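import Fermat.Agent.S41.PD.Form
import Fermat.Agent.S41.PD.Normal
import Fermat.Agent.S41.PD.ParCrit
import Fermat.Agent.S41.PD.BDef
import Fermat.Agent.S41.PD.PeriphModel
import Fermat.Agent.S41.PD.PeriphInv
import Fermat.Agent.S41.PD.PeriphAbs
import Fermat.Agent.S41.PD.ModelLift

/-!
# S41, package PD, row PD-INTR: the intrinsic formula and conjugation invariance (final assembly)
-/

set_option autoImplicit false

namespace Fermat.Agent.S41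

open scoped MatrixGroups
open ModularGroup Fermat.Agent.S16LB ModularCurve.Period Matrix.SpecialLinearGroup

section Intr

variable {Γ : Subgroup SL(2, ℤ)} [Γ.FiniteIndex] (hneg : (-1 : SL(2, ℤ)) ∈ Γ)

include hneg

omit [Γ.FiniteIndex] hneg in
/-- the difference of two Heisenberg lifts of the same pair is a character. -/
theorem s41pdin_diff_add {φ ψ : Additive Γ →+ ℤ} {η η₀ : Γ → ℚ} (hη : S41pdHeisLift Γ φ ψ η)
    (hη₀ : S41pdHeisLift Γ φ ψ η₀) (γ γ' : Γ) :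
    η (γ * γ') - η₀ (γ * γ') = (η γ - η₀ γ) + (η γ' - η₀ γ') := by
  rw [hη γ γ', hη₀ γ γ']
  ring

/-- the model formula: for the model lift and the model peripheral data. -/
theorem s41pdin_model {φ ψ : Additive Γ →+ ℤ} (hφ : IsParabolicHom Γ φ)
    (hψ : IsParabolicHom Γ ψ) {C : Type} [Fintype C] (y : C → s41pdX Γ) (w : C → ℕ)
    (ρ : C → SL(2, ℤ))
    (h : ∀ c, 0 < w c ∧ T ^ (w c) • y c = y c ∧ ρ c • y c = s41pdX0 Γ)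
    (hsum : ∀ F : s41pdX Γ → ℚ, ∑ x, F x = ∑ c, ∑ i ∈ Finset.range (w c), F (T ^ i • y c))
    (hmem : ∀ c, ρ c * T ^ (w c) * (ρ c)⁻¹ ∈ Γ) :
    ∃ η₀ : Γ → ℚ, S41pdHeisLift Γ φ ψ η₀ ∧
      2 * ∑ c, η₀ ⟨ρ c * T ^ (w c) * (ρ c)⁻¹, hmem c⟩ = (s41pdB Γ ψ φ : ℚ) := by
  obtain ⟨Dφ, hDφ⟩ := s41pd_exists_rep hneg φ
  obtain ⟨Dψ, hDψ⟩ := s41pd_exists_rep hneg ψ
  have hclφ := (s41pd_rep_parabolic_iff hneg hDφ).mp hφ
  have hclψ := (s41pd_rep_parabolic_iff hneg hDψ).mp hψ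
  obtain ⟨c', hc'⟩ := hclψ.2
  obtain ⟨η₀, hη₀, hval⟩ := s41pd_model_lift hneg hφ hψ hDφ hDψ hc'
  refine ⟨η₀, hη₀, ?_⟩
  have hs := s41pdS_invol hneg
  -- the local density
  set G : s41pdX Γ → ℚ := fun z => (Dφ S z : ℚ) * (Dψ S z : ℚ) / 2 + (Dφ S z : ℚ) * (c' z : ℚ)
    with hG
  have h1 : ∑ c, η₀ ⟨ρ c * T ^ (w c) * (ρ c)⁻¹, hmem c⟩ = ∑ x, G x := by
    have e1 : ∀ c, η₀ ⟨ρ c * T ^ (w c) * (ρ c)⁻¹, hmem c⟩
        = ∑ i ∈ Finset.range (w c), G (s16lbU • T ^ i • y c) := by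
      intro c
      exact hval (ρ c) (y c) (w c) (h c).2.1 (h c).2.2 (hmem c)
    rw [Finset.sum_congr rfl fun c _ => e1 c, ← hsum fun x => G (s16lbU • x)]
    exact Equiv.sum_comp (s41pdU Γ) G
  rw [h1]
  -- `2 ∑ G = Form u c' (Dφ S) = pair (Dψ S) (Dφ S) = B ψ φ`
  rw [s41pdB_eq hneg hDψ hDφ hψ hφ, s41pd_pair_eq (s41pdS Γ) (s41pdU Γ) hs hc' hclφ,
    s41pd_form_alt (s41pdS Γ) (s41pdU Γ) hs hc' hclφ.1, Finset.mul_sum]
  push_cast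
  refine Finset.sum_congr rfl fun x _ => ?_
  simp only [hG]
  ring

/-- **Intrinsic formula**: `2 ∑_cusps η(π_c) = B(ψ, φ)` for every Heisenberg lift `η` of `(φ, ψ)`
and every peripheral system. -/
theorem s41pd_intrinsic {C : Type*} [Fintype C] {π : C → SL(2, ℤ)} (hπ : S41pdPeriph Γ π)
    {φ ψ : Additive Γ →+ ℤ} (hφ : IsParabolicHom Γ φ) (hψ : IsParabolicHom Γ ψ)
    {η : Γ → ℚ} (hη : S41pdHeisLift Γ φ ψ η) :
    2 * ∑ c, η ⟨π c, (hπ.1 c).1⟩ = (s41pdB Γ ψ φ : ℚ) := by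
  classical
  obtain ⟨C₀, _, y, w, ρ, h, hper, hsum⟩ := s41pd_exists_periph hneg
  have hmem : ∀ c, ρ c * T ^ (w c) * (ρ c)⁻¹ ∈ Γ := fun c => (hper.1 c).1
  obtain ⟨η₀, hη₀, hmod⟩ := s41pdin_model hneg hφ hψ y w ρ h hsum hmem
  -- the difference character
  let χ : Additive Γ →+ ℚ := AddMonoidHom.mk' (fun γ => η (Additive.toMul γ) - η₀ (Additive.toMul γ))
    (fun γ γ' => s41pdin_diff_add hη hη₀ (Additive.toMul γ) (Additive.toMul γ'))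
  have hχ := s41pd_periph_char_sum hneg y w ρ h hsum χ hmem
  have h0 : ∑ c, η ⟨ρ c * T ^ (w c) * (ρ c)⁻¹, hmem c⟩
      = ∑ c, η₀ ⟨ρ c * T ^ (w c) * (ρ c)⁻¹, hmem c⟩ := by
    have : ∑ c, (η ⟨ρ c * T ^ (w c) * (ρ c)⁻¹, hmem c⟩ - η₀ ⟨ρ c * T ^ (w c) * (ρ c)⁻¹, hmem c⟩)
        = 0 := hχ
    rw [Finset.sum_sub_distrib] at this
    linarith
  -- transfer to the peripheral system `π`
  let hfun : SL(2, ℤ) → ℚ := fun p => if hp : p ∈ Γ then η ⟨p, hp⟩ else 0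
  have hh : ∀ p, S41pdPrimPos Γ p → ∀ γ ∈ Γ, hfun (γ * p * γ⁻¹) = hfun p := by
    intro p hp γ hγ
    have hmem' : γ * p * γ⁻¹ ∈ Γ := Γ.mul_mem (Γ.mul_mem hγ hp.1) (Γ.inv_mem hγ)
    simp only [hfun, dif_pos hmem', dif_pos hp.1]
    have htr : (((⟨p, hp.1⟩ : Γ) : SL(2, ℤ)) : Matrix (Fin 2) (Fin 2) ℤ).trace ^ 2 = 4 := by
      rw [hp.2.1]; norm_num
    exact s41pd_heisLift_conj hneg hφ hψ hη ⟨p, hp.1⟩ ⟨γ, hγ⟩ htr
  have key := s41pd_periph_sum_eq hπ hper hfun hh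
  have e1 : ∀ c, hfun (π c) = η ⟨π c, (hπ.1 c).1⟩ := fun c => by
    simp only [hfun, dif_pos (hπ.1 c).1]
  have e2 : ∀ c, hfun (ρ c * T ^ (w c) * (ρ c)⁻¹) = η ⟨ρ c * T ^ (w c) * (ρ c)⁻¹, hmem c⟩ :=
    fun c => by simp only [hfun, dif_pos (hmem c)]
  rw [Finset.sum_congr rfl fun c _ => e1 c, Finset.sum_congr rfl fun c _ => e2 c] at key
  rw [key, h0, hmod]

end Intr

/-- **Invariance of the pairing under `GL₂⁺(ℝ)`-conjugation.** -/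
theorem s41pd_conj_inv {Γ Γ' : Subgroup SL(2, ℤ)} [Γ.FiniteIndex] [Γ'.FiniteIndex]
    (hneg : (-1 : SL(2, ℤ)) ∈ Γ) (σ : Γ ≃* Γ') (g : GL (Fin 2) ℝ)
    (hg : 0 < (g : Matrix (Fin 2) (Fin 2) ℝ).det)
    (hσ : ∀ γ : Γ, mapGL ℝ ((σ γ : Γ') : SL(2, ℤ)) = g * mapGL ℝ (γ : SL(2, ℤ)) * g⁻¹)
    {φ ψ : Additive Γ' →+ ℤ} (hφ : IsParabolicHom Γ' φ) (hψ : IsParabolicHom Γ' ψ) :
    s41pdB Γ (φ.comp σ.toMonoidHom.toAdditive) (ψ.comp σ.toMonoidHom.toAdditive)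
      = s41pdB Γ' φ ψ := by
  classical
  have hneg' : (-1 : SL(2, ℤ)) ∈ Γ' := s41pd_neg_one_mem_map σ g hσ hneg
  -- the inverse isomorphism is conjugation by `g⁻¹`
  have hσ' : ∀ γ' : Γ', mapGL ℝ ((σ.symm γ' : Γ) : SL(2, ℤ))
      = g⁻¹ * mapGL ℝ (γ' : SL(2, ℤ)) * g⁻¹⁻¹ := by
    intro γ'
    have := hσ (σ.symm γ')
    rw [MulEquiv.apply_symm_apply] at this
    rw [this, inv_inv]
    group
  have hg' : 0 < ((g⁻¹ : GL (Fin 2) ℝ) : Matrix (Fin 2) (Fin 2) ℝ).det := by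
    rw [Matrix.coe_units_inv, Matrix.det_nonsing_inv, Ring.inverse_eq_inv']
    exact inv_pos.mpr hg
  obtain ⟨C₀, _, y, w, ρ, h, hper, hsum⟩ := s41pd_exists_periph hneg
  have hper' := s41pd_periph_map σ
    (fun p hp => s41pd_primPos_map σ g hg hσ hp)
    (fun p hp => s41pd_primPos_map σ.symm g⁻¹ hg' hσ' hp) hper
  obtain ⟨η', hη'⟩ := s41pd_exists_heisLift hneg' hψ hφ
  have hφσ := s41pd_parabolic_comp σ g hσ hφ
  have hψσ := s41pd_parabolic_comp σ g hσ hψ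
  have hη : S41pdHeisLift Γ (ψ.comp σ.toMonoidHom.toAdditive) (φ.comp σ.toMonoidHom.toAdditive)
      (fun γ => η' (σ γ)) := by
    intro γ γ'
    show η' (σ (γ * γ')) = _
    rw [map_mul, hη' (σ γ) (σ γ')]
    rfl
  have k1 := s41pd_intrinsic hneg hper hψσ hφσ hη
  have k2 := s41pd_intrinsic hneg' hper' hψ hφ hη'
  have : ((s41pdB Γ (φ.comp σ.toMonoidHom.toAdditive) (ψ.comp σ.toMonoidHom.toAdditive) : ℤ) : ℚ)
      = (s41pdB Γ' φ ψ : ℚ) := by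
    rw [← k1, ← k2]
  exact_mod_cast this

end Fermat.Agent.S41
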