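import Fermat.Agent.S41.PD.Defs

/-!
# S41, package PD, row PD-PP: functoriality of closed cochains and of the pairing along a
morphism of ribbon graphs

`π : X' → X` with `π ∘ s' = s ∘ π`, `π ∘ u' = u ∘ π`.

* `s41pd_closed_pull`: `a ∘ π` is closed if `a` is (potential `c ∘ π`);
* `s41pd_closed_push`: `π_* a'` is closed if `a'` is (potential `π_* c'`);
* `s41pd_pair_pull_push`: `⟨π^* a, a'⟩ = ⟨a, π_* a'⟩`.

The file is self-contained (`Mathlib` + `PD/Defs`): the one fact of the row PD-FORM that is used
(`s41pdPair` may be computed with any potential) is proved here under the name `s41pdpp_pair_eq`.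
-/

set_option autoImplicit false

namespace Fermat.Agent.S41

section A

variable {X : Type*} [Fintype X] {R : Type*} [CommRing R]

/-! ### independence of the potential -/

section Indep

variable (s u : Equiv.Perm X)

theorem s41pdpp_form_alt {a a' c : X → R} (hc : S41pdPot s u c a) (ha' : S41pdAnti s a') :
    s41pdForm u c a' = ∑ x, (2 * c x + a x) * a' x := by
  have h1 : ∑ x, c (u x) * a' x = - ∑ x, c (u (s x)) * a' x := by
    rw [← Equiv.sum_comp s (fun x => c (u x) * a' x), ← Finset.sum_neg_distrib]
    refine Finset.sum_congr rfl fun x _ => ?_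
    rw [ha' x]; ring
  unfold s41pdForm
  simp only [sub_mul, Finset.sum_sub_distrib]
  rw [h1, sub_neg_eq_add, ← Finset.sum_add_distrib]
  refine Finset.sum_congr rfl fun x _ => ?_
  rw [← hc x]; ring

theorem s41pdpp_form_indep {a a' c₁ c₂ : X → R} (h₁ : S41pdPot s u c₁ a)
    (h₂ : S41pdPot s u c₂ a) (ha' : S41pdClosed s u a') :
    s41pdForm u c₁ a' = s41pdForm u c₂ a' := by
  obtain ⟨hanti, c', hc'⟩ := ha'
  rw [s41pdpp_form_alt s u h₁ hanti, s41pdpp_form_alt s u h₂ hanti, ← sub_eq_zero,
    ← Finset.sum_sub_distrib]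
  have hd : ∀ x, c₁ (u (s x)) - c₂ (u (s x)) = c₁ x - c₂ x := by
    intro x
    linear_combination (h₁ x) - (h₂ x)
  have h3 : ∑ x, (c₁ x - c₂ x) * c' (u (s x)) = ∑ x, (c₁ x - c₂ x) * c' x := by
    rw [← Equiv.sum_comp (s.trans u) (fun x => (c₁ x - c₂ x) * c' x)]
    refine Finset.sum_congr rfl fun x _ => ?_
    show _ = (c₁ (u (s x)) - c₂ (u (s x))) * c' (u (s x))
    rw [hd]
  calc ∑ x, ((2 * c₁ x + a x) * a' x - (2 * c₂ x + a x) * a' x)
      = 2 * (∑ x, (c₁ x - c₂ x) * c' (u (s x)) - ∑ x, (c₁ x - c₂ x) * c' x) := by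
        rw [← Finset.sum_sub_distrib, Finset.mul_sum]
        refine Finset.sum_congr rfl fun x _ => ?_
        rw [← hc' x]; ring
    _ = 0 := by rw [h3, sub_self, mul_zero]

/-- the pairing may be computed with any potential of the first argument (this is
`s41pd_pair_eq` of the row PD-FORM). -/
theorem s41pdpp_pair_eq {a a' c : X → R} (hc : S41pdPot s u c a) (ha' : S41pdClosed s u a') :
    s41pdPair s u a a' = s41pdForm u c a' := by
  have hex : ∃ c : X → R, S41pdPot s u c a := ⟨c, hc⟩
  unfold s41pdPair
  rw [dif_pos hex]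
  exact s41pdpp_form_indep s u hex.choose_spec hc ha'

end Indep

/-! ### Row PD-PP: functoriality along a morphism of ribbon graphs

The variable context below is the one of `PD/SpecA.lean`, reproduced literally so that the three
statements have the types of the spec: there the outer `s`, `hs` of the section `A` are still in
scope when `include hs` is issued in the section `PullPush`, so each statement carries a first,
unused pair `(s : Equiv.Perm X) (hs : ∀ x, s (s x) = x)` and NO involution hypothesis on the
inner `s` (none is needed). -/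

variable (s u : Equiv.Perm X) (hs : ∀ x, s (s x) = x)

include hs

omit hs

section PullPush

variable {X' : Type*} [Fintype X'] [DecidableEq X] (s' u' : Equiv.Perm X') (s u : Equiv.Perm X)
  (hs' : ∀ x, s' (s' x) = x) (hs : ∀ x, s (s x) = x)
  (π : X' → X) (hπs : ∀ x', π (s' x') = s (π x')) (hπu : ∀ x', π (u' x') = u (π x'))

include hs' hs hπs hπu

theorem s41pd_closed_pull {a : X → R} (ha : S41pdClosed s u a) :
    S41pdClosed s' u' (fun x' => a (π x')) := by
  obtain ⟨hanti, c, hc⟩ := ha
  refine ⟨fun x' => ?_, fun x' => c (π x'), fun x' => ?_⟩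
  · show a (π (s' x')) = - a (π x')
    rw [hπs, hanti]
  · show c (π (u' (s' x'))) - c (π x') = a (π x')
    rw [hπu, hπs, hc]

theorem s41pd_closed_push {a' : X' → R} (ha' : S41pdClosed s' u' a') :
    S41pdClosed s u (s41pdPush π a') := by
  obtain ⟨hanti, c', hc'⟩ := ha'
  refine ⟨fun x => ?_, s41pdPush π c', fun x => ?_⟩
  · show ∑ x' ∈ Finset.univ.filter (fun x' => π x' = s x), a' x'
      = - ∑ x' ∈ Finset.univ.filter (fun x' => π x' = x), a' x'
    rw [← Finset.sum_neg_distrib]
    symm
    refine Finset.sum_equiv s' ?_ ?_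
    · intro y'
      simp only [Finset.mem_filter, Finset.mem_univ, true_and]
      rw [hπs]
      exact ⟨fun h => by rw [h], fun h => s.injective h⟩
    · intro y' _
      rw [hanti]
  · show ∑ x' ∈ Finset.univ.filter (fun x' => π x' = u (s x)), c' x'
        - ∑ x' ∈ Finset.univ.filter (fun x' => π x' = x), c' x'
      = ∑ x' ∈ Finset.univ.filter (fun x' => π x' = x), a' x'
    have h1 : ∑ x' ∈ Finset.univ.filter (fun x' => π x' = u (s x)), c' x'
        = ∑ y' ∈ Finset.univ.filter (fun y' => π y' = x), c' (u' (s' y')) := by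
      symm
      refine Finset.sum_equiv (s'.trans u') ?_ ?_
      · intro y'
        simp only [Finset.mem_filter, Finset.mem_univ, true_and, Equiv.trans_apply]
        rw [hπu, hπs]
        exact ⟨fun h => by rw [h], fun h => s.injective (u.injective h)⟩
      · intro y' _
        rfl
    rw [h1, ← Finset.sum_sub_distrib]
    exact Finset.sum_congr rfl fun y' _ => hc' y'

theorem s41pd_pair_pull_push {a : X → R} {a' : X' → R} (ha : S41pdClosed s u a)
    (ha' : S41pdClosed s' u' a') :
    s41pdPair s' u' (fun x' => a (π x')) a' = s41pdPair s u a (s41pdPush π a') := by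
  obtain ⟨c, hc⟩ := ha.2
  have hpull : S41pdPot s' u' (fun x' => c (π x')) (fun x' => a (π x')) := fun x' => by
    show c (π (u' (s' x'))) - c (π x') = a (π x')
    rw [hπu, hπs, hc]
  rw [s41pdpp_pair_eq s' u' hpull ha',
    s41pdpp_pair_eq s u hc (s41pd_closed_push _ hs s' u' s u hs' π hπs hπu ha')]
  unfold s41pdForm s41pdPush
  rw [← Finset.sum_fiberwise Finset.univ π]
  refine Finset.sum_congr rfl fun x _ => ?_
  rw [Finset.mul_sum]
  refine Finset.sum_congr rfl fun x' hx' => ?_
  have hx : π x' = x := (Finset.mem_filter.mp hx').2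
  show (c (π x') - c (π (u' x'))) * a' x' = (c x - c (u x)) * a' x'
  rw [hπu, hx]

end PullPush

end A

end Fermat.Agent.S41
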