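import Fermat.Agent.S41.PD.GDefs
import Fermat.Agent.S41.PD.PullPush
import Fermat.Agent.S41.PD.Normal
import Fermat.Agent.S41.PD.ParCrit
import Fermat.Agent.S41.PD.BDef

/-!
# S41, package PD, row PD-RC (helper11): restriction / corestriction adjointness
(prefix `s41pdrc`)

`Γ' ≤ Γ`, `π : X' = SL₂(ℤ)/Γ' → X = SL₂(ℤ)/Γ`.  A normalised cocycle `D` of `φ` on `X` pulls back
to a normalised cocycle of `φ|Γ'` on `X'`; a normalised cocycle `D'` of `ψ` on `X'` pushes forward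
(sum over the fibres of `π`) to a normalised cocycle of the transfer `ψt` on `X`.  Then
`s41pd_pair_pull_push` gives the adjointness.
-/

set_option autoImplicit false

namespace Fermat.Agent.S41

open scoped MatrixGroups
open ModularGroup Fermat.Agent.S16LB ModularCurve.Period Matrix.SpecialLinearGroup

/-! ### the projection `π : X' → X` -/

section Proj

variable {Γ' Γ : Subgroup SL(2, ℤ)} (hle : Γ' ≤ Γ)

/-- the projection `g Γ' ↦ g Γ`. -/
def s41pdrcPi : s41pdX Γ' → s41pdX Γ := Subgroup.quotientMapOfLE hle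

theorem s41pdrcPi_mk (g : SL(2, ℤ)) : s41pdrcPi hle (s41pdMk Γ' g) = s41pdMk Γ g :=
  Subgroup.quotientMapOfLE_apply_mk hle g

theorem s41pdrcPi_smul (h : SL(2, ℤ)) (x' : s41pdX Γ') :
    s41pdrcPi hle (h • x') = h • s41pdrcPi hle x' := by
  obtain ⟨g, rfl⟩ := s41pdMk_surjective x'
  rw [s41pd_smul_mk, s41pdrcPi_mk, s41pdrcPi_mk, s41pd_smul_mk]

theorem s41pdrcPi_X0 : s41pdrcPi hle (s41pdX0 Γ') = s41pdX0 Γ := s41pdrcPi_mk hle 1

/-- the pull-back of a normalised cocycle of `φ` is a normalised cocycle of `φ|Γ'`. -/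
theorem s41pdrc_rep_pull {φ : Additive Γ →+ ℤ} {D : SL(2, ℤ) → s41pdX Γ → ℤ}
    (hD : S41pdRep Γ φ D) :
    S41pdRep Γ' (φ.comp (Subgroup.inclusion hle).toAdditive)
      (fun g x' => D g (s41pdrcPi hle x')) where
  coc := fun g h x' => by
    show D (g * h) (s41pdrcPi hle x') = D h (s41pdrcPi hle x') + D g (s41pdrcPi hle (h • x'))
    rw [s41pdrcPi_smul]
    exact hD.coc g h _
  normal := fun x' => hD.normal _
  rep := fun γ => by
    show D (γ : SL(2, ℤ)) (s41pdrcPi hle (s41pdX0 Γ')) = φ (Additive.ofMul (Subgroup.inclusion hle γ))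
    rw [s41pdrcPi_X0]
    exact hD.rep (Subgroup.inclusion hle γ)

theorem s41pdrc_parabolic_res {φ : Additive Γ →+ ℤ} (hφ : IsParabolicHom Γ φ) :
    IsParabolicHom Γ' (φ.comp (Subgroup.inclusion hle).toAdditive) :=
  fun γ hγ => hφ (Subgroup.inclusion hle γ) hγ

end Proj

/-! ### the push-forward of a normalised cocycle -/

section Push

variable {Γ' Γ : Subgroup SL(2, ℤ)} [Γ'.FiniteIndex] (hle : Γ' ≤ Γ)

/-- re-indexing of the fibre sums by the action of `h`. -/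
theorem s41pdrc_sum_fibre_smul (h : SL(2, ℤ)) (F : s41pdX Γ' → ℤ) (x : s41pdX Γ) :
    ∑ x' ∈ Finset.univ.filter (fun x' => s41pdrcPi hle x' = x), F (h • x')
      = ∑ y' ∈ Finset.univ.filter (fun y' => s41pdrcPi hle y' = h • x), F y' := by
  refine Finset.sum_equiv (MulAction.toPerm h) ?_ ?_
  · intro x'
    simp only [Finset.mem_filter, Finset.mem_univ, true_and, MulAction.toPerm_apply]
    rw [s41pdrcPi_smul]
    exact ⟨fun e => by rw [e], fun e => MulAction.injective h e⟩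
  · intro x' _
    rfl

/-- the push-forward of a cocycle is a cocycle. -/
theorem s41pdrc_coc_push {D' : SL(2, ℤ) → s41pdX Γ' → ℤ} (hD' : S16lbIsCoc D') :
    S16lbIsCoc (fun g x => s41pdPush (s41pdrcPi hle) (D' g) x) := by
  intro g h x
  show ∑ x' ∈ Finset.univ.filter (fun x' => s41pdrcPi hle x' = x), D' (g * h) x'
    = ∑ x' ∈ Finset.univ.filter (fun x' => s41pdrcPi hle x' = x), D' h x'
      + ∑ x' ∈ Finset.univ.filter (fun x' => s41pdrcPi hle x' = h • x), D' g x'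
  rw [← s41pdrc_sum_fibre_smul hle h (D' g) x, ← Finset.sum_add_distrib]
  exact Finset.sum_congr rfl fun x' _ => hD' g h x'

variable {I : Type*} [Fintype I] (r : I → SL(2, ℤ)) (hr : ∀ i, r i ∈ Γ)
  (hcov : ∀ γ ∈ Γ, ∃! i, γ * (r i)⁻¹ ∈ Γ')

include hr hcov

/-- the fibre of `π` over the base point is `{rᵢ⁻¹ • x₀'}`. -/
theorem s41pdrc_fibre_X0 :
    Finset.univ.filter (fun x' => s41pdrcPi hle x' = s41pdX0 Γ)
      = Finset.univ.image (fun i => (r i)⁻¹ • s41pdX0 Γ') := by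
  ext x'
  simp only [Finset.mem_filter, Finset.mem_univ, true_and, Finset.mem_image]
  constructor
  · intro hx'
    obtain ⟨g, rfl⟩ := s41pd_exists_smul x'
    rw [s41pdrcPi_smul, s41pdrcPi_X0, ← s41pd_mem_iff] at hx'
    obtain ⟨i, hi, -⟩ := hcov g⁻¹ (Γ.inv_mem hx')
    refine ⟨i, ?_⟩
    rw [s41pd_smul_X0, s41pd_smul_X0, s41pdMk_eq_iff, inv_inv]
    have := Γ'.inv_mem hi
    rwa [mul_inv_rev, inv_inv, inv_inv] at this
  · rintro ⟨i, rfl⟩
    rw [s41pdrcPi_smul, s41pdrcPi_X0, ← s41pd_mem_iff]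
    exact Γ.inv_mem (hr i)

omit [Γ'.FiniteIndex] [Fintype I] in
theorem s41pdrc_rep_injective :
    Function.Injective (fun i => (r i)⁻¹ • s41pdX0 Γ') := by
  intro i i' h
  simp only at h
  rw [s41pd_smul_X0, s41pd_smul_X0, s41pdMk_eq_iff, inv_inv] at h
  obtain ⟨l, -, hl⟩ := hcov (r i) (hr i)
  have h1 : i = l := hl i (by show r i * (r i)⁻¹ ∈ Γ'; rw [mul_inv_cancel]; exact Γ'.one_mem)
  have h2 : i' = l := hl i' h
  rw [h1, h2]

/-- sums over the fibre of the base point. -/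
theorem s41pdrc_sum_fibre_X0 (F : s41pdX Γ' → ℤ) :
    ∑ x' ∈ Finset.univ.filter (fun x' => s41pdrcPi hle x' = s41pdX0 Γ), F x'
      = ∑ i, F ((r i)⁻¹ • s41pdX0 Γ') := by
  rw [s41pdrc_fibre_X0 hle r hr hcov, Finset.sum_image]
  intro i _ i' _ h
  exact s41pdrc_rep_injective r hr hcov h

/-- the push-forward of a normalised cocycle of `ψ` is a normalised cocycle of the transfer. -/
theorem s41pdrc_rep_push {ψ : Additive Γ' →+ ℤ} {ψt : Additive Γ →+ ℤ}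
    (hψt : ∀ γ : Γ, ∃ (j : I → I) (γ' : I → Γ'),
      (∀ i, r i * (γ : SL(2, ℤ)) = (γ' i : SL(2, ℤ)) * r (j i)) ∧
        ψt (Additive.ofMul γ) = ∑ i, ψ (Additive.ofMul (γ' i)))
    {D' : SL(2, ℤ) → s41pdX Γ' → ℤ} (hD' : S41pdRep Γ' ψ D') :
    S41pdRep Γ ψt (fun g x => s41pdPush (s41pdrcPi hle) (D' g) x) where
  coc := s41pdrc_coc_push hle hD'.coc
  normal := fun x => by
    show ∑ x' ∈ Finset.univ.filter (fun x' => s41pdrcPi hle x' = x), D' s16lbU x' = 0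
    exact Finset.sum_eq_zero fun x' _ => hD'.normal x'
  rep := fun γ => by
    show ∑ x' ∈ Finset.univ.filter (fun x' => s41pdrcPi hle x' = s41pdX0 Γ), D' (γ : SL(2, ℤ)) x'
      = ψt (Additive.ofMul γ)
    rw [s41pdrc_sum_fibre_X0 hle r hr hcov]
    obtain ⟨j, γ', hrel, hsum⟩ := hψt γ
    -- `j` is a permutation
    have hjinj : Function.Injective j := by
      intro i i' hii
      have h1 : r i * (r i')⁻¹ = (γ' i : SL(2, ℤ)) * ((γ' i' : SL(2, ℤ)))⁻¹ := by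
        have e1 := hrel i
        have e2 := hrel i'
        rw [← hii] at e2
        have e3 : r i = (γ' i : SL(2, ℤ)) * r (j i) * (γ : SL(2, ℤ))⁻¹ := by
          rw [← e1, mul_inv_cancel_right]
        have e4 : r i' = (γ' i' : SL(2, ℤ)) * r (j i) * (γ : SL(2, ℤ))⁻¹ := by
          rw [← e2, mul_inv_cancel_right]
        rw [e3, e4]
        group
      have h2 : r i * (r i')⁻¹ ∈ Γ' := by
        rw [h1]
        exact Γ'.mul_mem (γ' i).2 (Γ'.inv_mem (γ' i').2)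
      obtain ⟨l, -, hl⟩ := hcov (r i) (hr i)
      have h3 : i = l := hl i (by show r i * (r i)⁻¹ ∈ Γ'; rw [mul_inv_cancel]; exact Γ'.one_mem)
      have h4 : i' = l := hl i' h2
      rw [h3, h4]
    have hjbij : Function.Bijective j := ⟨hjinj, Finite.injective_iff_surjective.1 hjinj⟩
    -- the value of `ψ` on `γ'ᵢ`
    have hval : ∀ i, ψ (Additive.ofMul (γ' i))
        = D' ((r (j i))⁻¹) (s41pdX0 Γ') + D' (γ : SL(2, ℤ)) ((r (j i))⁻¹ • s41pdX0 Γ')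
          - D' ((r i)⁻¹) (s41pdX0 Γ') := by
      intro i
      rw [← hD'.rep (γ' i)]
      have e1 : ((γ' i : Γ') : SL(2, ℤ)) = r i * (γ : SL(2, ℤ)) * (r (j i))⁻¹ := by
        rw [hrel i, mul_inv_cancel_right]
      have e2 : (γ : SL(2, ℤ)) • (r (j i))⁻¹ • s41pdX0 Γ' = (r i)⁻¹ • s41pdX0 Γ' := by
        have e3 : (γ : SL(2, ℤ)) * (r (j i))⁻¹ = (r i)⁻¹ * (γ' i : SL(2, ℤ)) := by
          rw [e1]
          group
        rw [← mul_smul, e3, mul_smul, (s41pd_mem_iff _).1 (γ' i).2]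
      rw [e1, hD'.coc (r i * (γ : SL(2, ℤ))) ((r (j i))⁻¹), hD'.coc (r i) (γ : SL(2, ℤ)), e2,
        hD'.coc.inv (r i) (s41pdX0 Γ')]
      ring
    rw [hsum, Finset.sum_congr rfl fun i _ => hval i, Finset.sum_sub_distrib,
      Finset.sum_add_distrib,
      hjbij.sum_comp (fun l => D' ((r l)⁻¹) (s41pdX0 Γ')),
      hjbij.sum_comp (fun l => D' (γ : SL(2, ℤ)) ((r l)⁻¹ • s41pdX0 Γ'))]
    ring

end Push

/-! ### Row PD-RC: restriction / corestriction adjointness -/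

/-- `Γ' ≤ Γ`, `Γ = ⊔ᵢ Γ' rᵢ`; `ψt` is the transfer of `ψ` computed with the representatives `r`. -/
theorem s41pd_res_cores {Γ' Γ : Subgroup SL(2, ℤ)} [Γ'.FiniteIndex] [Γ.FiniteIndex]
    (hneg : (-1 : SL(2, ℤ)) ∈ Γ') (hle : Γ' ≤ Γ)
    {I : Type*} [Fintype I] (r : I → SL(2, ℤ)) (hr : ∀ i, r i ∈ Γ)
    (hcov : ∀ γ ∈ Γ, ∃! i, γ * (r i)⁻¹ ∈ Γ')
    (φ : Additive Γ →+ ℤ) (ψ : Additive Γ' →+ ℤ) (ψt : Additive Γ →+ ℤ)
    (hφ : IsParabolicHom Γ φ) (hψ : IsParabolicHom Γ' ψ)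
    (hψt : ∀ γ : Γ, ∃ (j : I → I) (γ' : I → Γ'),
      (∀ i, r i * (γ : SL(2, ℤ)) = (γ' i : SL(2, ℤ)) * r (j i)) ∧
        ψt (Additive.ofMul γ) = ∑ i, ψ (Additive.ofMul (γ' i))) :
    IsParabolicHom Γ ψt ∧
      s41pdB Γ' (φ.comp (Subgroup.inclusion hle).toAdditive) ψ = s41pdB Γ φ ψt := by
  have hnegΓ : (-1 : SL(2, ℤ)) ∈ Γ := hle hneg
  obtain ⟨D, hD⟩ := s41pd_exists_rep hnegΓ φ
  obtain ⟨D', hD'⟩ := s41pd_exists_rep hneg ψ
  have hDπ := s41pdrc_rep_pull hle hD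
  have hE := s41pdrc_rep_push hle r hr hcov hψt hD'
  -- equivariance of `π`
  have hπs : ∀ x', s41pdrcPi hle (s41pdS Γ' x') = s41pdS Γ (s41pdrcPi hle x') := fun x' =>
    s41pdrcPi_smul hle S x'
  have hπu : ∀ x', s41pdrcPi hle (s41pdU Γ' x') = s41pdU Γ (s41pdrcPi hle x') := fun x' =>
    s41pdrcPi_smul hle s16lbU x'
  -- closedness
  have hcl : S41pdClosed (s41pdS Γ) (s41pdU Γ) (D S) := (s41pd_rep_parabolic_iff hnegΓ hD).1 hφ
  have hcl' : S41pdClosed (s41pdS Γ') (s41pdU Γ') (D' S) :=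
    (s41pd_rep_parabolic_iff hneg hD').1 hψ
  have hpush : S41pdClosed (s41pdS Γ) (s41pdU Γ) (s41pdPush (s41pdrcPi hle) (D' S)) :=
    s41pd_closed_push (s41pdS Γ) (s41pdS_invol hnegΓ) (s41pdS Γ') (s41pdU Γ') (s41pdS Γ)
      (s41pdU Γ) (s41pdS_invol hneg) (s41pdrcPi hle) hπs hπu hcl'
  have hψtpar : IsParabolicHom Γ ψt := (s41pd_rep_parabolic_iff hnegΓ hE).2 hpush
  refine ⟨hψtpar, ?_⟩
  rw [s41pdB_eq hneg hDπ hD' (s41pdrc_parabolic_res hle hφ) hψ, s41pdB_eq hnegΓ hD hE hφ hψtpar]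
  exact s41pd_pair_pull_push (s41pdS Γ) (s41pdS_invol hnegΓ) (s41pdS Γ') (s41pdU Γ') (s41pdS Γ)
    (s41pdU Γ) (s41pdS_invol hneg) (s41pdrcPi hle) hπs hπu hcl hcl'

end Fermat.Agent.S41
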