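import Fermat.Agent.S41.HK.Main
import Fermat.Agent.S41.PD.BDef
import Fermat.Agent.S41.PD.ResCores
import Fermat.Agent.S41.PD.Intrinsic
import Fermat.Agent.G.Per.Ell

/-!
# S41: the bridge from the Poincaré duality package (PD) and the Hecke package (HK) to the top

`s41pdbForm M x y := s41pdB (Gamma0 M) (x ∘ cls) (y ∘ cls)` on characters of `s16lbAb M = Γ₀(M)^ab`,
and the PD section of `S41/Spec.lean` (helper24) VERBATIM:
`s41pdb_add_left`, `s41pdb_add_right`, `s41pdb_nondeg`, `s41pdb_T_adj`, `s41pdb_A_adj`, `s41pdb_B_adj`.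

Inputs from PD: `s41pdB_add_left`, `s41pdB_add_right`, `s41pdB_antisymm`, `s41pd_nondeg`,
`s41pd_res_cores`, `s41pd_conj_inv`.  Inputs from HK: the representatives `D.beta` of
`Γ₀(N q) \ Γ₀(N)`, `B = A ∘ W`, `W ∘ W = 1`, `T_ℓ = A ∘ W ∘ Va`, stability of `gprPE`.
-/

set_option autoImplicit false

noncomputable section

namespace Fermat.Agent.S41

open CongruenceSubgroup Fermat.Agent.S16LB Fermat.Agent.G Matrix.SpecialLinearGroup
open ModularCurve.Period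
open scoped MatrixGroups

/-! ### the pairing on characters of `Γ₀(M)^ab` -/

/-- **(PD)** the cup-product pairing on characters of `Γ₀(M)^ab` (junk `0` for `M = 0`). -/
def s41pdbForm (M : ℕ) : (s16lbAb M →+ ℤ) → (s16lbAb M →+ ℤ) → ℤ := fun x y =>
  if h : M = 0 then 0 else
    haveI : NeZero M := ⟨h⟩
    s41pdB (Gamma0 M) (x.comp (s16lbCls M)) (y.comp (s16lbCls M))

theorem s41pdbForm_eq {M : ℕ} [NeZero M] (x y : s16lbAb M →+ ℤ) :
    s41pdbForm M x y = s41pdB (Gamma0 M) (x.comp (s16lbCls M)) (y.comp (s16lbCls M)) := by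
  unfold s41pdbForm
  rw [dif_neg (NeZero.ne M)]

theorem s41pdbr_neg_one_mem (M : ℕ) : (-1 : SL(2, ℤ)) ∈ Gamma0 M := by
  rw [Gamma0_mem]
  simp

/-- a character in `gprHomPE` is parabolic. -/
theorem s41pdbr_par {M : ℕ} {𝔄 : Type*} [AddCommGroup 𝔄] {x : s16lbAb M →+ 𝔄}
    (hx : x ∈ gprHomPE M 𝔄) : IsParabolicHom (Gamma0 M) (x.comp (s16lbCls M)) := by
  intro γ hγ
  exact hx γ (le_of_eq hγ)

theorem s41pdb_add_left {M : ℕ} [NeZero M] {x x' y : s16lbAb M →+ ℤ} (hx : x ∈ gprHomPE M ℤ)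
    (hx' : x' ∈ gprHomPE M ℤ) (hy : y ∈ gprHomPE M ℤ) :
    s41pdbForm M (x + x') y = s41pdbForm M x y + s41pdbForm M x' y := by
  rw [s41pdbForm_eq, s41pdbForm_eq, s41pdbForm_eq, AddMonoidHom.add_comp]
  exact s41pdB_add_left (s41pdbr_neg_one_mem M) (s41pdbr_par hx) (s41pdbr_par hx')
    (s41pdbr_par hy)

theorem s41pdb_add_right {M : ℕ} [NeZero M] {x y y' : s16lbAb M →+ ℤ} (hx : x ∈ gprHomPE M ℤ)
    (hy : y ∈ gprHomPE M ℤ) (hy' : y' ∈ gprHomPE M ℤ) :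
    s41pdbForm M x (y + y') = s41pdbForm M x y + s41pdbForm M x y' := by
  rw [s41pdbForm_eq, s41pdbForm_eq, s41pdbForm_eq, AddMonoidHom.add_comp]
  exact s41pdB_add_right (s41pdbr_neg_one_mem M) (s41pdbr_par hx) (s41pdbr_par hy)
    (s41pdbr_par hy')

theorem s41pdbr_antisymm {M : ℕ} [NeZero M] {x y : s16lbAb M →+ ℤ} (hx : x ∈ gprHomPE M ℤ)
    (hy : y ∈ gprHomPE M ℤ) : s41pdbForm M x y = - s41pdbForm M y x := by
  rw [s41pdbForm_eq, s41pdbForm_eq]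
  exact s41pdB_antisymm (s41pdbr_neg_one_mem M) (s41pdbr_par hx) (s41pdbr_par hy)

/-- **(PD2)** nondegenerate modulo every odd prime (`p = 3` and `p ∣ M` allowed). -/
theorem s41pdb_nondeg {M : ℕ} [NeZero M] {p : ℕ} (hp : p.Prime) (hp2 : p ≠ 2)
    {x : s16lbAb M →+ ℤ} (hx : x ∈ gprHomPE M ℤ)
    (h : ∀ y ∈ gprHomPE M ℤ, (p : ℤ) ∣ s41pdbForm M x y) :
    ∃ z : s16lbAb M →+ ℤ, x = (p : ℤ) • z := by
  obtain ⟨φ', -, hφ'⟩ := s41pd_nondeg (s41pdbr_neg_one_mem M) p hp hp2 (s41pdbr_par hx)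
    (fun ψ hψ => by
      have h1 := h (s16lbDesc ψ) (gpr_mem_homPE_of_parabolic hψ)
      rwa [s41pdbForm_eq, s16lbDesc_comp_cls] at h1)
  refine ⟨s16lbDesc φ', s16lbAb_ext fun γ => ?_⟩
  have h1 := DFunLike.congr_fun hφ' γ
  rw [AddMonoidHom.comp_apply] at h1
  rw [h1, AddMonoidHom.smul_apply, AddMonoidHom.smul_apply, s16lbDesc_cls]

/-! ### `a^*` and `a_*` are adjoint (restriction / corestriction) -/

section Adj

variable {N q : ℕ} [NeZero N] [Fact q.Prime] (D : S41hkAL N q)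

omit [NeZero N] in
/-- the relation `β_i γ = coc · β_j` of the transfer datum, in `SL₂(ℤ)`. -/
theorem s41pdbr_spec (γ : Gamma0 N) (i : OnePoint (ZMod q)) :
    ((D.beta i : Gamma0 N) : SL(2, ℤ)) * (γ : SL(2, ℤ))
      = ((D.VaCorr.coc γ i : Gamma0 (N * q)) : SL(2, ℤ))
        * ((D.beta (D.VaCorr.idx γ i) : Gamma0 N) : SL(2, ℤ)) := by
  have h := D.VaCorr.spec γ i
  rw [D.VaCorr_α, D.VaCorr_α, D.VaCorr_ι₁, D.VaCorr_ι₂] at h
  have h1 : s16lbIota (N * q) (D.VaCorr.coc γ i)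
      = s16lbIota N (s41hkIncl N q (D.VaCorr.coc γ i)) := rfl
  rw [h1, ← map_mul, ← map_mul] at h
  have h2 := s16lbIota_injective N h
  exact congrArg (fun g : Gamma0 N => (g : SL(2, ℤ))) h2

omit [NeZero N] in
theorem s41pdbr_cov (γ : SL(2, ℤ)) (hγ : γ ∈ Gamma0 N) :
    ∃! i : OnePoint (ZMod q), γ * ((D.beta i : Gamma0 N) : SL(2, ℤ))⁻¹ ∈ Gamma0 (N * q) := by
  have h := s41pdbr_spec D ⟨γ, hγ⟩ (OnePoint.infty : OnePoint (ZMod q))
  rw [D.beta_infty] at h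
  simp only [OneMemClass.coe_one, one_mul] at h
  refine ⟨D.VaCorr.idx ⟨γ, hγ⟩ OnePoint.infty, ?_, ?_⟩
  · show γ * ((D.beta (D.VaCorr.idx ⟨γ, hγ⟩ OnePoint.infty) : Gamma0 N) : SL(2, ℤ))⁻¹
      ∈ Gamma0 (N * q)
    have h' : γ * ((D.beta (D.VaCorr.idx ⟨γ, hγ⟩ OnePoint.infty) : Gamma0 N) : SL(2, ℤ))⁻¹
        = ((D.VaCorr.coc ⟨γ, hγ⟩ OnePoint.infty : Gamma0 (N * q)) : SL(2, ℤ)) := by
      rw [eq_comm, eq_mul_inv_iff_mul_eq]
      exact h.symm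
    rw [h']
    exact (D.VaCorr.coc ⟨γ, hγ⟩ OnePoint.infty).2
  · intro j hj
    -- `β_j = (γ β_j⁻¹)⁻¹ (γ β_i⁻¹) β_i`
    set i := D.VaCorr.idx ⟨γ, hγ⟩ OnePoint.infty with hi
    set c : Gamma0 (N * q) := D.VaCorr.coc ⟨γ, hγ⟩ OnePoint.infty with hc
    refine D.VaCorr_distinct j i (⟨_, hj⟩⁻¹ * c) ?_
    rw [D.VaCorr_α, D.VaCorr_α, D.VaCorr_ι₁]
    have h1 : s16lbIota (N * q) ((⟨_, hj⟩ : Gamma0 (N * q))⁻¹ * c)
        = s16lbIota N (s41hkIncl N q ((⟨_, hj⟩ : Gamma0 (N * q))⁻¹ * c)) := rfl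
    rw [h1, ← map_mul]
    congr 1
    apply Subtype.ext
    show ((D.beta j : Gamma0 N) : SL(2, ℤ))
      = (γ * ((D.beta j : Gamma0 N) : SL(2, ℤ))⁻¹)⁻¹ * (c : SL(2, ℤ))
        * ((D.beta i : Gamma0 N) : SL(2, ℤ))
    rw [mul_assoc, ← h]
    group

/-- **(PD4a)** `a^*` and `a_*` are adjoint. -/
theorem s41pdb_A_adj {x : s16lbAb N →+ ℤ} (hx : x ∈ gprHomPE N ℤ)
    {y : s16lbAb (N * q) →+ ℤ} (hy : y ∈ gprHomPE (N * q) ℤ) :
    s41pdbForm (N * q) (x.comp (s41hkA N q)) y = s41pdbForm N x (y.comp D.Va) := by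
  rw [s41pdbForm_eq, s41pdbForm_eq]
  have hrc := s41pd_res_cores (Γ' := Gamma0 (N * q)) (Γ := Gamma0 N)
    (s41pdbr_neg_one_mem (N * q)) (s41hk_Gamma0_mul_le N q)
    (fun i : OnePoint (ZMod q) => ((D.beta i : Gamma0 N) : SL(2, ℤ))) (fun i => (D.beta i).2)
    (s41pdbr_cov D) (x.comp (s16lbCls N)) (y.comp (s16lbCls (N * q)))
    ((y.comp D.Va).comp (s16lbCls N)) (s41pdbr_par hx) (s41pdbr_par hy)
    (fun γ => ⟨D.VaCorr.idx γ, D.VaCorr.coc γ, fun i => s41pdbr_spec D γ i, by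
      rw [AddMonoidHom.comp_apply, AddMonoidHom.comp_apply]
      have h1 : s16lbCls N (Additive.ofMul γ) = Additive.ofMul (Abelianization.of γ) := rfl
      rw [h1]
      show y (D.VaCorr.trAb _) = _
      rw [S41Corr.trAb_of, map_sum]
      rfl⟩)
  rw [← hrc.2]
  congr 1
  refine AddMonoidHom.ext fun γ => ?_
  obtain ⟨γ, rfl⟩ := Additive.ofMul.surjective γ
  have h1 : s16lbCls (N * q) (Additive.ofMul γ) = Additive.ofMul (Abelianization.of γ) := rfl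
  rw [AddMonoidHom.comp_apply, AddMonoidHom.comp_apply, h1, s41hkA_of]
  rfl

end Adj

/-! ### invariance under the Atkin–Lehner involution -/

section AL

variable {N q : ℕ} [Fact q.Prime]

omit [Fact q.Prime] in
/-- the scalar matrix `q` is central in `GL₂(ℝ)`. -/
theorem s41pdbr_scalar_comm (h : ((q : ℤ) • (1 : Matrix (Fin 2) (Fin 2) ℤ)).det ≠ 0)
    (g : GL (Fin 2) ℝ) :
    s41hkGL ((q : ℤ) • (1 : Matrix (Fin 2) (Fin 2) ℤ)) h * g
      = g * s41hkGL ((q : ℤ) • (1 : Matrix (Fin 2) (Fin 2) ℤ)) h := by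
  apply Units.ext
  rw [Units.val_mul, Units.val_mul, s41hkGL_val]
  have : ((q : ℤ) • (1 : Matrix (Fin 2) (Fin 2) ℤ)).map (Int.cast : ℤ → ℝ)
      = (q : ℝ) • (1 : Matrix (Fin 2) (Fin 2) ℝ) := by
    ext i j
    rw [Matrix.map_apply, Matrix.smul_apply, Matrix.smul_apply, Matrix.one_apply,
      Matrix.one_apply]
    split_ifs <;> simp
  rw [this, Matrix.smul_mul, Matrix.mul_smul, one_mul, mul_one]

/-- conjugating by two Atkin–Lehner matrices with product `q` is the identity. -/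
theorem s41pdbr_conj_conj (v v' : S41hkALMat N q)
    (h : v.mat * v'.mat = (q : ℤ) • (1 : Matrix (Fin 2) (Fin 2) ℤ)) (γ : Gamma0 (N * q)) :
    s41hkConjFun v.conjugates (s41hkConjFun v'.conjugates γ) = γ := by
  apply s16lbIota_injective (N * q)
  have h1 := s41hkConjFun_specGL v'.mat_det_ne_zero v'.conjugates γ
  have h2 := s41hkConjFun_specGL v.mat_det_ne_zero v.conjugates (s41hkConjFun v'.conjugates γ)
  have hz : s41hkGL v.mat v.mat_det_ne_zero * s41hkGL v'.mat v'.mat_det_ne_zero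
      = s41hkGL ((q : ℤ) • (1 : Matrix (Fin 2) (Fin 2) ℤ))
        (h ▸ (by rw [Matrix.det_mul]; exact mul_ne_zero v.mat_det_ne_zero v'.mat_det_ne_zero)) := by
    rw [s41hkGL_mul]
    exact s41hkGL_congr h _
  have h3 : s41hkGL v.mat v.mat_det_ne_zero * s41hkGL v'.mat v'.mat_det_ne_zero
        * s16lbIota (N * q) γ
      = s16lbIota (N * q) (s41hkConjFun v.conjugates (s41hkConjFun v'.conjugates γ))
        * (s41hkGL v.mat v.mat_det_ne_zero * s41hkGL v'.mat v'.mat_det_ne_zero) := by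
    rw [mul_assoc, h1, ← mul_assoc, h2, mul_assoc]
  rw [hz, s41pdbr_scalar_comm] at h3
  exact (mul_right_cancel h3).symm

/-- conjugation by an Atkin–Lehner matrix as an automorphism of `Γ₀(N q)`. -/
def s41pdbrSigma (v : S41hkALMat N q) : Gamma0 (N * q) ≃* Gamma0 (N * q) where
  toFun := s41hkConjHom v.mat_det_ne_zero v.conjugates
  invFun := s41hkConjFun v.adj.conjugates
  left_inv γ := s41pdbr_conj_conj v.adj v v.adj_mat_mul γ
  right_inv γ := s41pdbr_conj_conj v v.adj v.mat_mul_adj γ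
  map_mul' := map_mul _

theorem s41pdbrSigma_apply (v : S41hkALMat N q) (γ : Gamma0 (N * q)) :
    s41pdbrSigma v γ = s41hkConjFun v.conjugates γ := rfl

variable [NeZero N] (D : S41hkAL N q)

/-- the pairing is invariant under the Atkin–Lehner involution. -/
theorem s41pdbr_W_inv {a b : s16lbAb (N * q) →+ ℤ} (ha : a ∈ gprHomPE (N * q) ℤ)
    (hb : b ∈ gprHomPE (N * q) ℤ) :
    s41pdbForm (N * q) (a.comp D.W) b = s41pdbForm (N * q) a (b.comp D.W) := by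
  rw [s41pdbForm_eq, s41pdbForm_eq]
  have hbW : b.comp D.W ∈ gprHomPE (N * q) ℤ :=
    s41hk_comp_mem_homPE D.W (fun x hx => D.W_mem_PE hx) hb
  have hdet : 0 < ((s41hkGL D.w.mat D.w.mat_det_ne_zero : GL (Fin 2) ℝ) :
      Matrix (Fin 2) (Fin 2) ℝ).det := by
    rw [s41hkGL_val]
    have h1 : (D.w.mat.map (Int.cast : ℤ → ℝ)).det = ((D.w.mat.det : ℤ) : ℝ) :=
      ((Int.castRingHom ℝ).map_det D.w.mat).symm
    rw [h1, D.w.mat_det]
    exact_mod_cast (Fact.out : q.Prime).pos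
  have hci := s41pd_conj_inv (Γ := Gamma0 (N * q)) (Γ' := Gamma0 (N * q))
    (s41pdbr_neg_one_mem (N * q)) (s41pdbrSigma D.w) (s41hkGL D.w.mat D.w.mat_det_ne_zero) hdet
    (fun γ => by
      have h := s41hkConjFun_specGL D.w.mat_det_ne_zero D.w.conjugates γ
      rw [s41pdbrSigma_apply]
      exact eq_mul_inv_of_mul_eq h.symm)
    (s41pdbr_par ha) (s41pdbr_par hbW)
  have e1 : (a.comp (s16lbCls (N * q))).comp (s41pdbrSigma D.w).toMonoidHom.toAdditive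
      = (a.comp D.W).comp (s16lbCls (N * q)) := by
    refine AddMonoidHom.ext fun γ => ?_
    obtain ⟨γ, rfl⟩ := Additive.ofMul.surjective γ
    have h1 : ∀ δ : Gamma0 (N * q),
        s16lbCls (N * q) (Additive.ofMul δ) = Additive.ofMul (Abelianization.of δ) := fun _ => rfl
    rw [AddMonoidHom.comp_apply, AddMonoidHom.comp_apply, AddMonoidHom.comp_apply,
      AddMonoidHom.comp_apply, h1 γ]
    show a (s16lbCls (N * q) (Additive.ofMul (s41pdbrSigma D.w γ))) = a (D.W _)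
    rw [h1, s41pdbrSigma_apply]
    congr 1
    exact (s41hkConjAb_of D.w.mat_det_ne_zero D.w.conjugates γ).symm
  have e2 : ((b.comp D.W).comp (s16lbCls (N * q))).comp
        (s41pdbrSigma D.w).toMonoidHom.toAdditive
      = b.comp (s16lbCls (N * q)) := by
    refine AddMonoidHom.ext fun γ => ?_
    obtain ⟨γ, rfl⟩ := Additive.ofMul.surjective γ
    have h1 : ∀ δ : Gamma0 (N * q),
        s16lbCls (N * q) (Additive.ofMul δ) = Additive.ofMul (Abelianization.of δ) := fun _ => rfl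
    rw [AddMonoidHom.comp_apply, AddMonoidHom.comp_apply, AddMonoidHom.comp_apply,
      AddMonoidHom.comp_apply, h1 γ]
    show b (D.W (s16lbCls (N * q) (Additive.ofMul (s41pdbrSigma D.w γ)))) = _
    rw [h1, s41pdbrSigma_apply,
      ← s41hkConjAb_of D.w.mat_det_ne_zero D.w.conjugates γ]
    show b (D.W (D.W _)) = _
    rw [← AddMonoidHom.comp_apply D.W D.W, s41hk_W_comp_W, AddMonoidHom.id_apply]
  rw [e1, e2] at hci
  exact hci

end AL

/-! ### `b^*` and `b_*` are adjoint; `T_ℓ` is self-adjoint -/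

section Top

/-- **(PD4b)** `b^*` and `b_*` are adjoint. -/
theorem s41pdb_B_adj {N q : ℕ} [NeZero N] [Fact q.Prime] (D : S41hkAL N q)
    {x : s16lbAb N →+ ℤ} (hx : x ∈ gprHomPE N ℤ)
    {y : s16lbAb (N * q) →+ ℤ} (hy : y ∈ gprHomPE (N * q) ℤ) :
    s41pdbForm (N * q) (x.comp (s41hkB N q)) y = s41pdbForm N x (y.comp D.Vb) := by
  have hxA : x.comp (s41hkA N q) ∈ gprHomPE (N * q) ℤ :=
    s41hk_comp_mem_homPE (s41hkA N q) (fun z hz => s41hkA_mem_PE hz) hx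
  have hyW : y.comp D.W ∈ gprHomPE (N * q) ℤ :=
    s41hk_comp_mem_homPE D.W (fun z hz => D.W_mem_PE hz) hy
  have h1 : x.comp (s41hkB N q) = (x.comp (s41hkA N q)).comp D.W := by
    rw [s41hk_B_eq D, AddMonoidHom.comp_assoc]
  rw [h1, s41pdbr_W_inv D hxA hy, s41pdb_A_adj D hx hyW]
  rfl

/-- **(PD3)** `T_ℓ` is self-adjoint. -/
theorem s41pdb_T_adj {M : ℕ} [NeZero M] {ℓ : ℕ} (hℓ : ℓ.Prime) (hℓM : ¬ ℓ ∣ M)
    {x y : s16lbAb M →+ ℤ} (hx : x ∈ gprHomPE M ℤ) (hy : y ∈ gprHomPE M ℤ) :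
    s41pdbForm M (x.comp (gprT M ℓ)) y = s41pdbForm M x (y.comp (gprT M ℓ)) := by
  have : Fact ℓ.Prime := ⟨hℓ⟩
  obtain ⟨D⟩ := s41hk_exists_AL M ℓ hℓM
  have hT : gprT M ℓ = (s41hkA M ℓ).comp (D.W.comp D.Va) := by
    rw [s41hk_A_comp_W_comp_Va D hℓM, s41hkT_eq_gprT]
  -- membership of the intermediate characters
  have hA : ∀ {z : s16lbAb M →+ ℤ}, z ∈ gprHomPE M ℤ →
      z.comp (s41hkA M ℓ) ∈ gprHomPE (M * ℓ) ℤ := fun hz =>
    s41hk_comp_mem_homPE (s41hkA M ℓ) (fun w hw => s41hkA_mem_PE hw) hz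
  have hW : ∀ {z : s16lbAb (M * ℓ) →+ ℤ}, z ∈ gprHomPE (M * ℓ) ℤ →
      z.comp D.W ∈ gprHomPE (M * ℓ) ℤ := fun hz =>
    s41hk_comp_mem_homPE D.W (fun w hw => D.W_mem_PE hw) hz
  have hV : ∀ {z : s16lbAb (M * ℓ) →+ ℤ}, z ∈ gprHomPE (M * ℓ) ℤ →
      z.comp D.Va ∈ gprHomPE M ℤ := fun hz =>
    s41hk_comp_mem_homPE D.Va (fun w hw => D.Va_mem_PE hw) hz
  have e : ∀ z : s16lbAb M →+ ℤ,
      z.comp (gprT M ℓ) = ((z.comp (s41hkA M ℓ)).comp D.W).comp D.Va := by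
    intro z
    rw [hT]
    rfl
  rw [e x, e y]
  -- `⟨(xAW) Va, y⟩ = -⟨y, (xAW) Va⟩ = -⟨yA, xAW⟩ = ⟨xAW, yA⟩ = ⟨xA, yAW⟩ = ⟨x, (yAW) Va⟩`
  rw [s41pdbr_antisymm (hV (hW (hA hx))) hy, ← s41pdb_A_adj D hy (hW (hA hx)),
    ← s41pdbr_antisymm (hW (hA hx)) (hA hy), s41pdbr_W_inv D (hA hx) (hA hy),
    s41pdb_A_adj D hx (hW (hA hy))]

end Top

end Fermat.Agent.S41
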