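import Fermat.Agent.S41.PD.Defs
import Fermat.Agent.S16.LB.Extend
import Fermat.Agent.S16.LB.Shapiro
import Fermat.Prelude.Def_ModularCurve_PeriodMap

/-!
# S41, package PD, group-theoretic part: definitions

`Γ ≤ SL(2,ℤ)` of finite index with `-1 ∈ Γ`.  The model is `X = SL(2,ℤ) ⧸ Γ` (a private type
synonym `s41pdX Γ` carrying its own `Fintype`/`DecidableEq` instances), `s = S`, `u = U = S T`.
-/

set_option autoImplicit false

namespace Fermat.Agent.S41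

open scoped MatrixGroups
open ModularGroup Fermat.Agent.S16LB ModularCurve.Period

variable (Γ : Subgroup SL(2, ℤ))

/-- the coset space `SL(2,ℤ) ⧸ Γ` (left cosets `g Γ`, left action). -/
def s41pdX : Type := SL(2, ℤ) ⧸ Γ

instance : MulAction SL(2, ℤ) (s41pdX Γ) :=
  inferInstanceAs (MulAction SL(2, ℤ) (SL(2, ℤ) ⧸ Γ))

noncomputable instance [Γ.FiniteIndex] : Fintype (s41pdX Γ) :=
  Fintype.ofFinite (SL(2, ℤ) ⧸ Γ)

noncomputable instance : DecidableEq (s41pdX Γ) := Classical.decEq _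

/-- the class of `g`. -/
def s41pdMk (g : SL(2, ℤ)) : s41pdX Γ := (QuotientGroup.mk g : SL(2, ℤ) ⧸ Γ)

/-- the base point. -/
def s41pdX0 : s41pdX Γ := s41pdMk Γ 1

variable {Γ}

theorem s41pdMk_surjective : Function.Surjective (s41pdMk Γ) :=
  QuotientGroup.mk_surjective

theorem s41pd_smul_mk (g h : SL(2, ℤ)) : g • s41pdMk Γ h = s41pdMk Γ (g * h) := rfl

theorem s41pdMk_eq_iff {g h : SL(2, ℤ)} : s41pdMk Γ g = s41pdMk Γ h ↔ g⁻¹ * h ∈ Γ :=
  QuotientGroup.eq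

theorem s41pd_smul_X0 (g : SL(2, ℤ)) : g • s41pdX0 Γ = s41pdMk Γ g := by
  rw [s41pdX0, s41pd_smul_mk, mul_one]

theorem s41pd_mem_iff (g : SL(2, ℤ)) : g ∈ Γ ↔ g • s41pdX0 Γ = s41pdX0 Γ := by
  rw [s41pd_smul_X0, s41pdX0, s41pdMk_eq_iff, mul_one, inv_mem_iff]

theorem s41pd_exists_smul (x : s41pdX Γ) : ∃ g : SL(2, ℤ), g • s41pdX0 Γ = x := by
  obtain ⟨g, rfl⟩ := s41pdMk_surjective x
  exact ⟨g, s41pd_smul_X0 g⟩

theorem s41pd_neg_smul (hneg : (-1 : SL(2, ℤ)) ∈ Γ) (x : s41pdX Γ) : (-1 : SL(2, ℤ)) • x = x := by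
  obtain ⟨g, rfl⟩ := s41pdMk_surjective x
  rw [s41pd_smul_mk, s41pdMk_eq_iff]
  have : (-1 * g)⁻¹ * g = -1 := by
    rw [neg_one_mul, inv_neg, neg_mul, inv_mul_cancel]
  rw [this]
  exact hneg

variable (Γ)

/-- the edge flip `x ↦ S • x`. -/
def s41pdS : Equiv.Perm (s41pdX Γ) := MulAction.toPerm S

/-- the vertex rotation `x ↦ U • x`, `U = S T`. -/
def s41pdU : Equiv.Perm (s41pdX Γ) := MulAction.toPerm s16lbU

/-- the cusp rotation `x ↦ T • x`. -/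
def s41pdT : Equiv.Perm (s41pdX Γ) := MulAction.toPerm T

variable {Γ}

@[simp] theorem s41pdS_apply (x : s41pdX Γ) : s41pdS Γ x = S • x := rfl
@[simp] theorem s41pdU_apply (x : s41pdX Γ) : s41pdU Γ x = s16lbU • x := rfl
@[simp] theorem s41pdT_apply (x : s41pdX Γ) : s41pdT Γ x = T • x := rfl

theorem s41pdS_invol (hneg : (-1 : SL(2, ℤ)) ∈ Γ) (x : s41pdX Γ) : s41pdS Γ (s41pdS Γ x) = x := by
  rw [s41pdS_apply, s41pdS_apply, ← mul_smul, s16lb_S_mul_S, s41pd_neg_smul hneg]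

/-- `U S = U T U⁻¹` up to sign: the faces of the ribbon graph are `U •` (the `T`-orbits). -/
theorem s41pd_face_eq (hneg : (-1 : SL(2, ℤ)) ∈ Γ) (x : s41pdX Γ) :
    s41pdU Γ (s41pdS Γ (s16lbU • x)) = s16lbU • T • x := by
  rw [s41pdU_apply, s41pdS_apply]
  have h : S • s16lbU • x = T • x := by
    rw [← mul_smul]
    have : S * s16lbU = -1 * T := by
      unfold s16lbU
      rw [← mul_assoc, s16lb_S_mul_S]
    rw [this, mul_smul, s41pd_neg_smul hneg]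
  rw [h]

variable (Γ)

/-- `D` is a normalised (`D U = 0`) integral Shapiro cocycle representing the character `φ`. -/
structure S41pdRep (φ : Additive Γ →+ ℤ) (D : SL(2, ℤ) → s41pdX Γ → ℤ) : Prop where
  coc : S16lbIsCoc D
  normal : ∀ x, D s16lbU x = 0
  rep : ∀ γ : Γ, D (γ : SL(2, ℤ)) (s41pdX0 Γ) = φ (Additive.ofMul γ)

open Classical in
/-- the cochain `D S` of a chosen normalised cocycle representing `φ`. -/
noncomputable def s41pdCoch (φ : Additive Γ →+ ℤ) : s41pdX Γ → ℤ :=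
  if h : ∃ D, S41pdRep Γ φ D then h.choose S else 0

/-- **The Poincaré duality pairing** on characters of `Γ` (meaningful on parabolic characters;
it is twice the cup product). -/
noncomputable def s41pdB [Γ.FiniteIndex] (φ ψ : Additive Γ →+ ℤ) : ℤ :=
  s41pdPair (s41pdS Γ) (s41pdU Γ) (s41pdCoch Γ φ) (s41pdCoch Γ ψ)

/-! ### peripheral structure -/

/-- primitive positive parabolic elements of `Γ` (trace `2`). -/
def S41pdPrimPos (p : SL(2, ℤ)) : Prop :=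
  p ∈ Γ ∧ (p : Matrix (Fin 2) (Fin 2) ℤ).trace = 2 ∧ p ≠ 1 ∧ 0 < p 0 1 - p 1 0 ∧
    ∀ γ ∈ Γ, γ * p = p * γ → ∃ k : ℤ, γ = p ^ k ∨ γ = -(p ^ k)

/-- a peripheral system: representatives of the `Γ`-conjugacy classes of primitive positive
parabolic elements. -/
def S41pdPeriph {C : Type*} (π : C → SL(2, ℤ)) : Prop :=
  (∀ c, S41pdPrimPos Γ (π c)) ∧
    ∀ p, S41pdPrimPos Γ p → ∃! c, ∃ γ ∈ Γ, p = γ * π c * γ⁻¹

/-- `η` is a Heisenberg lift of the pair of characters `(φ, ψ)`: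
`η (γ γ') = η γ + η γ' + φ γ * ψ γ'`. -/
def S41pdHeisLift (φ ψ : Additive Γ →+ ℤ) (η : Γ → ℚ) : Prop :=
  ∀ γ γ' : Γ, η (γ * γ') = η γ + η γ' + (φ (Additive.ofMul γ) : ℚ) * (ψ (Additive.ofMul γ') : ℚ)

end Fermat.Agent.S41
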