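import Fermat.Agent.S41.PD.GDefs

/-!
# S41, package PD, row PD-HEXT: group-valued cocycles on `SL(2, ℤ)` from data on `S`, `U`

Nonabelian version of `s16lb_exists_cocycle` (`S16/LB/Extend.lean`): a cocycle
`d (g * h) x = d g (h • x) * d h x` with values in an arbitrary group `H` is freely given by `d S`,
`d U` subject to the relations coming from `S² = U³ = -1` (`SL(2, ℤ) / ±1 = C₂ * C₃`).
-/

set_option autoImplicit false

namespace Fermat.Agent.S41

open scoped MatrixGroups
open ModularGroup Fermat.Agent.S16LB ModularCurve.Period Matrix.SpecialLinearGroup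
open Monoid

/-- The skew product group of `Perm X` with `X → H` (`H` any group): pairs `(σ, d)` with
`(σ, d) * (τ, e) = (σ τ, x ↦ d (τ x) * e x)`. -/
@[ext]
structure S41pdSkew (X H : Type*) where
  perm : Equiv.Perm X
  fn : X → H

namespace S41pdSkew

variable {X H : Type*} [Group H]

instance : Mul (S41pdSkew X H) := ⟨fun p q => ⟨p.perm * q.perm, fun x => p.fn (q.perm x) * q.fn x⟩⟩
instance : One (S41pdSkew X H) := ⟨⟨1, fun _ => 1⟩⟩
instance : Inv (S41pdSkew X H) := ⟨fun p => ⟨p.perm⁻¹, fun x => (p.fn (p.perm⁻¹ x))⁻¹⟩⟩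

@[simp] theorem mul_perm (p q : S41pdSkew X H) : (p * q).perm = p.perm * q.perm := rfl
@[simp] theorem mul_fn (p q : S41pdSkew X H) (x : X) :
    (p * q).fn x = p.fn (q.perm x) * q.fn x := rfl
@[simp] theorem one_perm : (1 : S41pdSkew X H).perm = 1 := rfl
@[simp] theorem one_fn (x : X) : (1 : S41pdSkew X H).fn x = 1 := rfl
@[simp] theorem inv_perm (p : S41pdSkew X H) : p⁻¹.perm = p.perm⁻¹ := rfl
@[simp] theorem inv_fn (p : S41pdSkew X H) (x : X) : p⁻¹.fn x = (p.fn (p.perm⁻¹ x))⁻¹ := rfl

instance : Group (S41pdSkew X H) where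
  mul_assoc p q r := by
    ext x
    · simp [mul_assoc]
    · simp [mul_assoc]
  one_mul p := by ext x <;> simp
  mul_one p := by ext x <;> simp
  inv_mul_cancel p := by
    ext x
    · simp
    · simp

/-- projection to `Perm X` -/
def permHom : S41pdSkew X H →* Equiv.Perm X where
  toFun p := p.perm
  map_one' := rfl
  map_mul' _ _ := rfl

end S41pdSkew

/-- **Nonabelian extension lemma.** A group-valued cocycle on `SL(2, ℤ)` (acting on `X` through
`PSL`) is freely given by its values on `S` and `U = S T`, subject to the relations coming from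
`S² = U³ = -1`. -/
theorem s41pd_exists_cocycle_grp {X : Type*} [MulAction SL(2, ℤ) X] {H : Type*} [Group H]
    (hneg : ∀ x : X, (-1 : SL(2, ℤ)) • x = x) (dS dU : X → H)
    (hS : ∀ x, dS (S • x) * dS x = 1)
    (hU : ∀ x, dU (s16lbU • s16lbU • x) * dU (s16lbU • x) * dU x = 1) :
    ∃ d : SL(2, ℤ) → X → H,
      (∀ g h x, d (g * h) x = d g (h • x) * d h x) ∧ d S = dS ∧ d s16lbU = dU := by
  classical
  -- the two generators of the skew product
  let gS : S41pdSkew X H := ⟨MulAction.toPerm S, dS⟩
  let gU : S41pdSkew X H := ⟨MulAction.toPerm s16lbU, dU⟩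
  have hgS : gS ^ 2 = 1 := by
    rw [pow_two]
    ext x
    · show S • S • x = x
      rw [← mul_smul, s16lb_S_mul_S, hneg]
    · show dS (S • x) * dS x = 1
      exact hS x
  have hgU : gU ^ 3 = 1 := by
    rw [pow_succ, pow_two]
    ext x
    · show s16lbU • s16lbU • s16lbU • x = x
      rw [← mul_smul, ← mul_smul, s16lb_U_cube, hneg]
    · show dU (s16lbU • s16lbU • x) * dU (s16lbU • x) * dU x = 1
      exact hU x
  let gen : Bool → S41pdSkew X H := fun b => if b then gU else gS
  have hgen : ∀ b : Bool, gen b ^ (if b then 3 else 2) = 1 := by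
    intro b; cases b
    · simpa [gen] using hgS
    · simpa [gen] using hgU
  let Lf : s16lbW →* S41pdSkew X H :=
    CoprodI.lift (fun b => s16lbCycHom _ (gen b) (hgen b))
  let Ψ : SL(2, ℤ) →* S41pdSkew X H := Lf.comp s16lbTheta
  have hΨS : Ψ S = gS := by
    show Lf (s16lbTheta S) = gS
    rw [s16lbTheta_S]
    show CoprodI.lift _ (CoprodI.of _) = gS
    rw [CoprodI.lift_of]
    exact s16lbCycHom_one 2 (gen false) (hgen false)
  have hΨU : Ψ s16lbU = gU := by
    show Lf (s16lbTheta s16lbU) = gU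
    rw [s16lbTheta_U]
    show CoprodI.lift _ (CoprodI.of _) = gU
    rw [CoprodI.lift_of]
    exact s16lbCycHom_one 3 (gen true) (hgen true)
  have hperm : S41pdSkew.permHom.comp Ψ = MulAction.toPermHom SL(2, ℤ) X := by
    apply MonoidHom.eq_of_eqOn_dense s16lb_closure_S_U
    rintro g (rfl | rfl)
    · show (Ψ S).perm = MulAction.toPerm S
      rw [hΨS]
    · show (Ψ s16lbU).perm = MulAction.toPerm s16lbU
      rw [hΨU]
  have hperm' : ∀ (g : SL(2, ℤ)) (x : X), (Ψ g).perm x = g • x := by
    intro g x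
    have := DFunLike.congr_fun hperm g
    exact DFunLike.congr_fun this x
  refine ⟨fun g x => (Ψ g).fn x, ?_, ?_, ?_⟩
  · intro g h x
    show (Ψ (g * h)).fn x = _
    rw [map_mul, S41pdSkew.mul_fn, hperm']
  · funext x
    show (Ψ S).fn x = dS x
    rw [hΨS]
  · funext x
    show (Ψ s16lbU).fn x = dU x
    rw [hΨU]

end Fermat.Agent.S41
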